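import Fermat.Agent.SW.K1.Leaves

/-!
# MOONSHOT S52, block K1: the image of `sHom s hs : ℚ(X) → Fb` is `ℚ(s)`
-/

set_option autoImplicit false

open Polynomial

namespace Fermat.Agent.SW.K1.SRange

open Fermat.Agent.SW.Contracts Fermat.Agent.SW.K1

variable {Fb : Type} [Field Fb] [CharZero Fb] (s : Fb) (hs : Transcendental ℚ s)

/-- Every element of `ℚ(s)` is a value of `sHom`. -/
theorem exists_of_mem_adjoin {z : Fb} (hz : z ∈ IntermediateField.adjoin ℚ {s}) :
    ∃ L : F0, sHom s hs L = z := by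
  let K : IntermediateField ℚ Fb :=
    Subfield.toIntermediateField (sHom s hs).fieldRange (fun q => by
      refine ⟨RatFunc.C q, ?_⟩
      rw [sHom_C, eq_ratCast])
  have hle : IntermediateField.adjoin ℚ {s} ≤ K := by
    rw [IntermediateField.adjoin_le_iff, Set.singleton_subset_iff]
    exact ⟨RatFunc.X, sHom_X s hs⟩
  obtain ⟨L, hL⟩ := hle hz
  exact ⟨L, hL⟩

/-- `aeval s p` lies in every subfield containing `s`. -/
theorem aeval_mem (K : Subfield Fb) (hsK : s ∈ K) (p : ℚ[X]) : Polynomial.aeval s p ∈ K := by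
  rw [Polynomial.aeval_eq_sum_range]
  refine sum_mem fun i _ => ?_
  rw [Algebra.smul_def]
  refine mul_mem ?_ (pow_mem hsK i)
  rw [eq_ratCast]
  exact SubfieldClass.ratCast_mem K _

/-- `sHom s hs L` lies in every subfield containing `s`. -/
theorem sHom_mem (K : Subfield Fb) (hsK : s ∈ K) (L : F0) : sHom s hs L ∈ K := by
  rw [sHom_apply]
  exact div_mem (aeval_mem s K hsK _) (aeval_mem s K hsK _)

/-- A field automorphism fixing `s` fixes `ℚ(s)`. -/
theorem map_sHom (σ : Fb ≃+* Fb) (hσ : σ s = s) (L : F0) : σ (sHom s hs L) = sHom s hs L := by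
  have h : ∀ p : ℚ[X], σ (Polynomial.aeval s p) = Polynomial.aeval s p := by
    intro p
    rw [Polynomial.aeval_eq_sum_range, map_sum]
    refine Finset.sum_congr rfl fun i _ => ?_
    rw [Algebra.smul_def, map_mul, map_pow, hσ, eq_ratCast, map_ratCast]
  rw [sHom_apply, map_div₀, h, h]

theorem sHom_injective : Function.Injective (sHom s hs) := (sHom s hs).injective

end Fermat.Agent.SW.K1.SRange
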