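import Fermat.Agent.SW.K1.EvBasic
import Fermat.Agent.SW.K1.SRange

/-!
# MOONSHOT S52, block K1: `Contracts.FamilyOut` from the leaf contracts
-/

set_option autoImplicit false

open WeierstrassCurve WeierstrassCurve.Affine Polynomial

namespace Fermat.Agent.SW.K1.Assembly

open Fermat.Agent.SW.Contracts Fermat.Agent.SW.K1 Fermat.Agent.SW.K1.Leaves
open Fermat.Agent.SW.K1.EvBasic Fermat.Agent.SW.K1.SRange

section val

variable {Fb : Type} [Field Fb] [CharZero Fb] (O : ValuationSubring Fb)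

omit [CharZero Fb] in
theorem mem_of_val_lt {x : Fb} (h : O.valuation x < 1) : x ∈ O :=
  (O.valuation_le_one_iff x).mp h.le

omit [CharZero Fb] in
theorem val_sub_lt {x y z : Fb} (h1 : O.valuation (x - y) < 1) (h2 : O.valuation (x - z) < 1) :
    O.valuation (z - y) < 1 := by
  have e : z - y = (x - y) - (x - z) := by ring
  rw [e]
  exact lt_of_le_of_lt (Valuation.map_sub _ _ _) (max_lt h1 h2)

/-- A rational number in the maximal ideal of a valuation subring containing `ℚ` is zero. -/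
theorem rat_eq_zero_of_val_lt (hQO : ∀ q : ℚ, (q : Fb) ∈ O) (q : ℚ)
    (h : O.valuation (q : Fb) < 1) : q = 0 := by
  by_contra hq
  have h1 : O.valuation ((q⁻¹ : ℚ) : Fb) ≤ 1 := (O.valuation_le_one_iff _).mpr (hQO _)
  have h2 : O.valuation (q : Fb) * O.valuation ((q⁻¹ : ℚ) : Fb) = 1 := by
    rw [← map_mul, ← Rat.cast_mul, mul_inv_cancel₀ hq, Rat.cast_one, map_one]
  have h3 : O.valuation (q : Fb) * O.valuation ((q⁻¹ : ℚ) : Fb) < 1 :=
    calc O.valuation (q : Fb) * O.valuation ((q⁻¹ : ℚ) : Fb)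
        ≤ O.valuation (q : Fb) * 1 := mul_le_mul' le_rfl h1
      _ < 1 := by rwa [mul_one]
  exact absurd h2 (ne_of_lt h3)

end val

/-- **The generic family** for an abstract algebraic closure `Fb` of `ℚ(X)` containing `Qb`. -/
theorem family_core (hB : LeafB) (hD : LeafD) (hE : LeafE) (hF : LeafF) (hG : LeafG)
    (hEval : LeafEval) (hS : LeafS) (hPsi : LeafPsi) (hI : LeafI)
    (Fb : Type) [Field Fb] [Algebra F0 Fb] [Algebra Qb Fb] [CharZero Fb] [DecidableEq Fb]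
    [IsAlgClosure F0 Fb] (a b : ℚ) (ha : a ≠ 0) (hb : b ≠ 0)
    (hdisc : 4 * a ^ 3 + 27 * b ^ 2 ≠ 0) :
    ∃ (A' B' : F0) (bad : Finset ℚ), A'.denom.eval 0 ≠ 0 ∧ B'.denom.eval 0 ≠ 0 ∧
      ev A' 0 = a ∧ ev B' 0 = b ∧
      (∀ s₁ : ℚ, s₁ ∉ bad → A'.denom.eval s₁ ≠ 0 ∧ B'.denom.eval s₁ ≠ 0 ∧
        4 * ev A' s₁ ^ 3 + 27 * ev B' s₁ ^ 2 ≠ 0 ∧
        Cong 5 (shortW (ev A' s₁) (ev B' s₁)) (shortW a b)) ∧
      (∀ x : F0, 3 * x ^ 4 + 6 * A' * x ^ 2 + 12 * B' * x - A' ^ 2 ≠ 0) := by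
  have hA1 : (lamC a).denom.eval 1 ≠ 0 := reg_lamC a 1
  have hB1 : (lamC b).denom.eval 1 ≠ 0 := reg_lamC b 1
  have hevA : ev (lamC a) 1 = a := by rw [ev_lamC, mul_one]
  have hevB : ev (lamC b) 1 = b := by rw [ev_lamC, mul_one]
  have hdisc1 : 4 * ev (lamC a) 1 ^ 3 + 27 * ev (lamC b) 1 ^ 2 ≠ 0 := by
    rw [hevA, hevB]; exact hdisc
  obtain ⟨pr⟩ := hB Fb (lamC a) (lamC b) 1 hA1 hB1 hdisc1 5 (by norm_num)
  obtain ⟨hD1, hD2, hD3, hD4⟩ := hD Fb (lamC a) (lamC b) 1 hdisc1 5 (by norm_num) pr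
  obtain ⟨w, hwΩ, hw⟩ := hE Fb a b ha hb hdisc
  have hconstΩ : ∀ z : Qb, algebraMap Qb Fb z ∈ OmegaF Fb (lamC a) (lamC b) 5 := fun z =>
    IntermediateField.subset_adjoin _ _ (Or.inl ⟨z, rfl⟩)
  obtain ⟨s, hsΩ, hsD, hsv, hstr, hsgen⟩ := hF Fb pr.O pr.const_mem pr.resField
    (OmegaF Fb (lamC a) (lamC b) 5) hconstΩ w hwΩ hw (decomp Fb pr.O) le_rfl pr.dec_surj
    (fun σ _ z hz => hD3 σ z hz) hD4
  -- `s` is fixed by `H`, and the fixed field of `H` is `ℚ(s)`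
  have hsH : ∀ τ ∈ (twistData pr).H, τ s = s := (hD2 s).mpr ⟨hsΩ, hsD⟩
  have hgen : ∀ z : Fb, (∀ τ ∈ (twistData pr).H, τ z = z) → ∃ L : F0, sHom s hstr L = z := by
    intro z hz
    obtain ⟨hzΩ, hzD⟩ := (hD2 z).mp hz
    exact exists_of_mem_adjoin s hstr (hsgen z hzΩ hzD)
  -- the parameter `λ` as a function of `s`
  obtain ⟨L, hL⟩ := hgen (algebraMap F0 Fb RatFunc.X) (fun τ _ => τ.commutes _)
  -- the sign element
  obtain ⟨r, hr0, hrp, hrm, hrv⟩ := hG Fb (lamC a) (lamC b) 1 hdisc1 pr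
  have hr2 : ∀ τ ∈ (twistData pr).H, τ (r ^ 2) = r ^ 2 := by
    intro τ hτ
    rcases hτ with h | h
    · rw [map_pow, hrp τ h]
    · rw [map_pow, hrm τ h, neg_sq]
  obtain ⟨Dl, hDl⟩ := hgen (r ^ 2) hr2
  -- automorphisms fixing `s` lie in `H`
  have hfix : ∀ σ : Fb ≃ₐ[F0] Fb, σ s = s → σ ∈ (twistData pr).H := by
    intro σ hσ
    apply hD1 σ
    intro z hz
    obtain ⟨Lz, rfl⟩ := hgen z hz
    exact map_sHom s hstr (σ : Fb ≃+* Fb) hσ Lz
  obtain ⟨Ψ, hΨ⟩ := hPsi Fb a b pr r hr0 hrp hrm s hstr L Dl hL hDl hfix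
  obtain ⟨hclos, -⟩ := hS Fb s hstr L hL
  -- values at the place
  have hQO : ∀ q : ℚ, (q : Fb) ∈ pr.O := fun q => by
    have h := pr.const_mem (q : Qb)
    rwa [map_ratCast] at h
  have hlam1 : pr.O.valuation (algebraMap F0 Fb RatFunc.X - 1) < 1 := by
    have h := pr.param
    rwa [map_sub, map_one, map_one] at h
  have hlamO : algebraMap F0 Fb RatFunc.X ∈ pr.O := by
    have h1 : algebraMap F0 Fb RatFunc.X - 1 ∈ pr.O := mem_of_val_lt pr.O hlam1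
    have h2 := add_mem h1 (one_mem pr.O)
    rwa [sub_add_cancel] at h2
  have hr2v : pr.O.valuation (r ^ 2 - 1) < 1 := by
    have hrO : r ∈ pr.O := by
      have h1 : r - 1 ∈ pr.O := mem_of_val_lt pr.O hrv
      have h2 := add_mem h1 (one_mem pr.O)
      rwa [sub_add_cancel] at h2
    have e : r ^ 2 - 1 = (r - 1) * (r + 1) := by ring
    rw [e, map_mul]
    have h3 : pr.O.valuation (r + 1) ≤ 1 :=
      (pr.O.valuation_le_one_iff _).mpr (add_mem hrO (one_mem pr.O))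
    calc pr.O.valuation (r - 1) * pr.O.valuation (r + 1)
        ≤ pr.O.valuation (r - 1) * 1 := mul_le_mul' le_rfl h3
      _ < 1 := by rwa [mul_one]
  obtain ⟨hLreg, hLv⟩ := hEval Fb pr.O hQO s hstr hsv L (by rw [hL]; exact hlamO)
  have hr2O : r ^ 2 ∈ pr.O := by
    have h1 : r ^ 2 - 1 ∈ pr.O := mem_of_val_lt pr.O hr2v
    have h2 := add_mem h1 (one_mem pr.O)
    rwa [sub_add_cancel] at h2
  obtain ⟨hDlreg, hDlv⟩ := hEval Fb pr.O hQO s hstr hsv Dl (by rw [hDl]; exact hr2O)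
  have hL1 : ev L 0 = 1 := by
    rw [hL] at hLv
    have h := val_sub_lt pr.O hLv hlam1
    have e : (1 : Fb) - ((ev L 0 : ℚ) : Fb) = ((1 - ev L 0 : ℚ) : Fb) := by push_cast; ring
    rw [e] at h
    have := rat_eq_zero_of_val_lt pr.O hQO _ h
    linarith
  have hDl1 : ev Dl 0 = 1 := by
    rw [hDl] at hDlv
    have h := val_sub_lt pr.O hDlv hr2v
    have e : (1 : Fb) - ((ev Dl 0 : ℚ) : Fb) = ((1 - ev Dl 0 : ℚ) : Fb) := by push_cast; ring
    rw [e] at h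
    have := rat_eq_zero_of_val_lt pr.O hQO _ h
    linarith
  -- the family
  have hA'reg : Reg (RatFunc.C a * L * Dl ^ 2) 0 := ((reg_C a 0).mul hLreg).mul (Reg.pow hDlreg 2)
  have hB'reg : Reg (RatFunc.C b * L * Dl ^ 3) 0 := ((reg_C b 0).mul hLreg).mul (Reg.pow hDlreg 3)
  have hA'ev : ev (RatFunc.C a * L * Dl ^ 2) 0 = a := by
    rw [ev_mul ((reg_C a 0).mul hLreg) (Reg.pow hDlreg 2), ev_mul (reg_C a 0) hLreg,
      ev_pow hDlreg, ev_C, hL1, hDl1]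
    ring
  have hB'ev : ev (RatFunc.C b * L * Dl ^ 3) 0 = b := by
    rw [ev_mul ((reg_C b 0).mul hLreg) (Reg.pow hDlreg 3), ev_mul (reg_C b 0) hLreg,
      ev_pow hDlreg, ev_C, hL1, hDl1]
    ring
  have hDsc : RatFunc.C 4 * (RatFunc.C a * L * Dl ^ 2) ^ 3 +
      RatFunc.C 27 * (RatFunc.C b * L * Dl ^ 3) ^ 2 ≠ 0 := by
    intro h0
    obtain ⟨-, hev⟩ := ev_disc hA'reg hB'reg
    rw [h0, hA'ev, hB'ev] at hev
    have hz : ev (0 : F0) 0 = 0 := RatFunc.eval_zero _ _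
    rw [hz] at hev
    exact hdisc hev.symm
  obtain ⟨bad, hbad⟩ := exists_bad _ _ hDsc
  refine ⟨RatFunc.C a * L * Dl ^ 2, RatFunc.C b * L * Dl ^ 3, bad, hA'reg, hB'reg, hA'ev, hB'ev,
    ?_, ?_⟩
  · intro s₁ hs₁
    obtain ⟨h1, h2, h3⟩ := hbad s₁ hs₁
    refine ⟨h1, h2, h3, ?_⟩
    have := hclos
    obtain ⟨pr₁⟩ := hB (SStr Fb (sHom s hstr)) (RatFunc.C a * L * Dl ^ 2)
      (RatFunc.C b * L * Dl ^ 3) s₁ h1 h2 h3 5 (by norm_num)
    have hc : Cong 5 (shortW (ev (RatFunc.C a * L * Dl ^ 2) s₁) (ev (RatFunc.C b * L * Dl ^ 3) s₁))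
        (shortW (ev (lamC a) 1) (ev (lamC b) 1)) := by
      refine ⟨pr₁.φ.trans Ψ.symm, ?_⟩
      intro τ P
      obtain ⟨σ', hσ', hres⟩ := pr₁.dec_surj τ
      have e1 : pr₁.φ (τ • P) = σ' • pr₁.φ P := by rw [pr₁.equiv σ' hσ', hres]
      show Ψ.symm (pr₁.φ (τ • P)) = τ • Ψ.symm (pr₁.φ P)
      rw [e1]
      apply Ψ.injective
      rw [Ψ.apply_symm_apply, ← hres, ← hΨ, Ψ.apply_symm_apply]
    rwa [hevA, hevB] at hc
  · intro x hx
    have h := congrArg (sHom s hstr) hx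
    simp only [map_sub, map_add, map_mul, map_pow, map_ofNat, map_zero, sHom_C, hL, hDl] at h
    have hXΩ : sHom s hstr x ∈ OmegaF Fb (lamC a) (lamC b) 5 :=
      sHom_mem s hstr (OmegaF Fb (lamC a) (lamC b) 5).toSubfield hsΩ x
    have hr2Ω : r ^ 2 ∈ OmegaF Fb (lamC a) (lamC b) 5 := by
      rw [← hDl]
      exact sHom_mem s hstr (OmegaF Fb (lamC a) (lamC b) 5).toSubfield hsΩ Dl
    have hYΩ : sHom s hstr x / r ^ 2 ∈ OmegaF Fb (lamC a) (lamC b) 5 := div_mem hXΩ hr2Ω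
    have hC : ∀ q : ℚ, algebraMap F0 Fb (RatFunc.C q) = (q : Fb) := fun q => by
      have e : (RatFunc.C q : F0) = ((q : ℚ) : F0) := by
        rw [← RatFunc.algebraMap_eq_C, eq_ratCast]
      rw [e, map_ratCast]
    have hlamCa : algebraMap F0 Fb (lamC a) = (a : Fb) * algebraMap F0 Fb RatFunc.X := by
      rw [lamC, map_mul, hC]
    have hlamCb : algebraMap F0 Fb (lamC b) = (b : Fb) * algebraMap F0 Fb RatFunc.X := by
      rw [lamC, map_mul, hC]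
    refine hI Fb a b ha hb hdisc _ hYΩ ?_
    rw [hlamCa, hlamCb]
    have hr8 : r ^ 8 ≠ 0 := pow_ne_zero 8 hr0
    apply mul_left_cancel₀ hr8
    rw [mul_zero]
    field_simp
    linear_combination h

/-! ### The concrete closure -/

/-- The concrete algebraic closure of `ℚ(X)`. -/
abbrev Fbar := AlgebraicClosure F0

/-- An embedding of `Qb` into the algebraic closure of `ℚ(X)`. -/
noncomputable def qbToFbar : Qb →+* Fbar :=
  haveI : Algebra.IsAlgebraic ℚ Qb := isAlgClosure_rat.isAlgebraic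
  ((IsAlgClosed.lift : Qb →ₐ[ℚ] Fbar) : Qb →+* Fbar)

noncomputable instance instAlgebraQbFbar : Algebra Qb Fbar := qbToFbar.toAlgebra

noncomputable instance instDecidableEqFbar : DecidableEq Fbar := Classical.decEq _

/-- **Block K1.** `Contracts.FamilyOut` from the leaf contracts. -/
theorem familyOut (hB : LeafB) (hD : LeafD) (hE : LeafE) (hF : LeafF) (hG : LeafG)
    (hEval : LeafEval) (hS : LeafS) (hPsi : LeafPsi) (hI : LeafI) (hJ1 : LeafJ1) (hJ2 : LeafJ2)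
    (hV : CongVC) : FamilyOut := by
  intro W hΔ hW _ _
  obtain ⟨hc4, hc6⟩ := hJ1 W hΔ hW
  have ha : (-27 * (W.c₄ : ℚ)) ≠ 0 := mul_ne_zero (by norm_num) (by exact_mod_cast hc4)
  have hb : (-54 * (W.c₆ : ℚ)) ≠ 0 := mul_ne_zero (by norm_num) (by exact_mod_cast hc6)
  have hdisc : 4 * (-27 * (W.c₄ : ℚ)) ^ 3 + 27 * (-54 * (W.c₆ : ℚ)) ^ 2 ≠ 0 := by
    intro h
    apply hΔ
    have h1728 : (1728 : ℚ) * (W.Δ : ℚ) = (W.c₄ : ℚ) ^ 3 - (W.c₆ : ℚ) ^ 2 := by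
      have h' : (1728 : ℤ) * W.Δ = W.c₄ ^ 3 - W.c₆ ^ 2 := W.c_relation
      exact_mod_cast h'
    have : (W.Δ : ℚ) = 0 := by nlinarith [h, h1728]
    exact_mod_cast this
  obtain ⟨A', B', bad, h1, h2, h3, h4, h5, h6⟩ :=
    family_core hB hD hE hF hG hEval hS hPsi hI Fbar _ _ ha hb hdisc
  refine ⟨A', B', 0, bad, h1, h2, h3, h4, ?_, h6⟩
  intro s₁ hs₁
  obtain ⟨k1, k2, k3, k4⟩ := h5 s₁ hs₁
  refine ⟨k1, k2, k3, cong_trans k4 ?_⟩
  obtain ⟨C, hC⟩ := hJ2 W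
  have hΔ' : (ratW W).Δ ≠ 0 := by
    rw [WeierstrassCurve.map_Δ]
    simpa using hΔ
  exact hV (ratW W) _ C hΔ' hC 5

end Fermat.Agent.SW.K1.Assembly
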