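import Fermat.Agent.SW.K1.Leaves

/-!
# MOONSHOT S52, block K1, leaf Eval (helper16)

For a valuation subring `O ⊇ ℚ` of a field `Fb` of characteristic zero, `s` in the maximal ideal of
`O`, transcendental over `ℚ`, and `L ∈ ℚ(X)` with `L(s) ∈ O`: `L` is regular at `0` and
`L(s) ≡ L(0)` modulo the maximal ideal.

* `valuation_aeval_sub_lt` : `p(s) ≡ p(0)` for polynomials;
* `leafEval : Leaves.LeafEval`.
-/

set_option autoImplicit false

open Polynomial

namespace Fermat.Agent.SW.K1.Eval16

open Fermat.Agent.SW.Contracts Fermat.Agent.SW.K1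

variable {Fb : Type} [Field Fb] [CharZero Fb] (O : ValuationSubring Fb)

/-- a nonzero rational number has valuation `1` in a valuation subring containing `ℚ` -/
theorem valuation_ratCast_eq_one (hO : ∀ q : ℚ, (q : Fb) ∈ O) {q : ℚ} (hq : q ≠ 0) :
    O.valuation (q : Fb) = 1 := by
  have h1 : O.valuation (q : Fb) ≤ 1 := (O.valuation_le_one_iff _).mpr (hO q)
  have h2 : O.valuation ((q⁻¹ : ℚ) : Fb) ≤ 1 := (O.valuation_le_one_iff _).mpr (hO q⁻¹)
  have hq' : (q : Fb) ≠ 0 := Rat.cast_ne_zero.mpr hq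
  have h3 : O.valuation (q : Fb) * O.valuation ((q⁻¹ : ℚ) : Fb) = 1 := by
    rw [← map_mul, Rat.cast_inv, mul_inv_cancel₀ hq', map_one]
  refine le_antisymm h1 ?_
  by_contra hlt
  rw [not_le] at hlt
  have : O.valuation (q : Fb) * O.valuation ((q⁻¹ : ℚ) : Fb) < 1 := by
    calc O.valuation (q : Fb) * O.valuation ((q⁻¹ : ℚ) : Fb)
        ≤ O.valuation (q : Fb) * 1 := mul_le_mul_right h2 _
      _ = O.valuation (q : Fb) := mul_one _
      _ < 1 := hlt
  rw [h3] at this
  exact lt_irrefl _ this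

/-- polynomials in `s ∈ O` with rational coefficients lie in `O` -/
theorem aeval_mem (hO : ∀ q : ℚ, (q : Fb) ∈ O) {s : Fb} (hs : s ∈ O) (p : ℚ[X]) :
    Polynomial.aeval s p ∈ O := by
  induction p using Polynomial.induction_on' with
  | add p q hp hq => rw [map_add]; exact O.add_mem _ _ hp hq
  | monomial n a =>
    rw [Polynomial.aeval_monomial, eq_ratCast]
    exact O.mul_mem _ _ (hO a) (pow_mem hs n)

/-- `p(s) ≡ p(0)` modulo the maximal ideal, for `s` in the maximal ideal -/
theorem valuation_aeval_sub_lt (hO : ∀ q : ℚ, (q : Fb) ∈ O) {s : Fb} (hs : O.valuation s < 1)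
    (p : ℚ[X]) : O.valuation (Polynomial.aeval s p - ((p.eval 0 : ℚ) : Fb)) < 1 := by
  have hsO : s ∈ O := (O.valuation_le_one_iff _).mp hs.le
  have h0 : Polynomial.aeval s p =
      Polynomial.aeval s p.divX * s + ((p.eval 0 : ℚ) : Fb) := by
    have := congrArg (Polynomial.aeval s) (Polynomial.divX_mul_X_add p).symm
    rwa [map_add, map_mul, Polynomial.aeval_X, Polynomial.aeval_C, eq_ratCast,
      Polynomial.coeff_zero_eq_eval_zero] at this
  have h : Polynomial.aeval s p - ((p.eval 0 : ℚ) : Fb) = s * Polynomial.aeval s p.divX := by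
    rw [h0]
    ring
  rw [h, map_mul]
  have h2 : O.valuation (Polynomial.aeval s p.divX) ≤ 1 :=
    (O.valuation_le_one_iff _).mpr (aeval_mem O hO hsO _)
  calc O.valuation s * O.valuation (Polynomial.aeval s p.divX)
      ≤ O.valuation s * 1 := mul_le_mul_right h2 _
    _ = O.valuation s := mul_one _
    _ < 1 := hs

/-- `p(s)` is a unit of `O` when `p(0) ≠ 0` -/
theorem valuation_aeval_eq_one (hO : ∀ q : ℚ, (q : Fb) ∈ O) {s : Fb} (hs : O.valuation s < 1)
    {p : ℚ[X]} (hp : p.eval 0 ≠ 0) : O.valuation (Polynomial.aeval s p) = 1 := by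
  have h1 := valuation_aeval_sub_lt O hO hs p
  have h2 := valuation_ratCast_eq_one O hO hp
  have h3 : Polynomial.aeval s p =
      (Polynomial.aeval s p - ((p.eval 0 : ℚ) : Fb)) + ((p.eval 0 : ℚ) : Fb) := by ring
  rw [h3, Valuation.map_add_eq_of_lt_right _ (by rw [h2]; exact h1), h2]

/-- `p(s)` lies in the maximal ideal when `p(0) = 0` -/
theorem valuation_aeval_lt_one (hO : ∀ q : ℚ, (q : Fb) ∈ O) {s : Fb} (hs : O.valuation s < 1)
    {p : ℚ[X]} (hp : p.eval 0 = 0) : O.valuation (Polynomial.aeval s p) < 1 := by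
  have h1 := valuation_aeval_sub_lt O hO hs p
  rwa [hp, Rat.cast_zero, sub_zero] at h1

/-- **Leaf Eval.** -/
theorem leafEval : Leaves.LeafEval := by
  intro Fb _ _ O hO s hs hsv L hL
  have hden0 : L.denom ≠ 0 := L.denom_ne_zero
  have hdens : Polynomial.aeval s L.denom ≠ 0 := fun h =>
    hden0 ((transcendental_iff_injective.mp hs) (by rw [h, map_zero]))
  -- regularity at `0`
  have hreg : L.denom.eval 0 ≠ 0 := by
    intro h0
    -- then `num(0) ≠ 0` by coprimality
    have hcop : IsCoprime L.num L.denom := L.isCoprime_num_denom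
    have hnum0 : L.num.eval 0 ≠ 0 := by
      intro hn
      obtain ⟨u, v, huv⟩ := hcop
      have := congrArg (Polynomial.eval 0) huv
      rw [Polynomial.eval_add, Polynomial.eval_mul, Polynomial.eval_mul, hn, h0, mul_zero,
        mul_zero, add_zero, Polynomial.eval_one] at this
      exact zero_ne_one this
    have h1 : O.valuation (Polynomial.aeval s L.num) = 1 := valuation_aeval_eq_one O hO hsv hnum0
    have h2 : O.valuation (Polynomial.aeval s L.denom) < 1 := valuation_aeval_lt_one O hO hsv h0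
    have h3 : O.valuation (sHom s hs L) ≤ 1 := (O.valuation_le_one_iff _).mpr hL
    rw [sHom_apply, map_div₀, h1] at h3
    have hpos : 0 < O.valuation (Polynomial.aeval s L.denom) := by
      rw [Valuation.pos_iff]; exact hdens
    have h4 : (1 : _) ≤ O.valuation (Polynomial.aeval s L.denom) := by
      have := (div_le_iff₀ hpos).mp h3
      rwa [one_mul] at this
    exact absurd h4 (not_le.mpr h2)
  refine ⟨hreg, ?_⟩
  -- the congruence
  have hd1 : O.valuation (Polynomial.aeval s L.denom) = 1 := valuation_aeval_eq_one O hO hsv hreg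
  have hev : ((ev L 0 : ℚ) : Fb) = ((L.num.eval 0 : ℚ) : Fb) / ((L.denom.eval 0 : ℚ) : Fb) := by
    rw [ev, RatFunc.eval, Polynomial.eval₂_id, Polynomial.eval₂_id, Rat.cast_div]
  have hd0 : ((L.denom.eval 0 : ℚ) : Fb) ≠ 0 := Rat.cast_ne_zero.mpr hreg
  have hkey : sHom s hs L - ((ev L 0 : ℚ) : Fb) =
      ((Polynomial.aeval s L.num - ((L.num.eval 0 : ℚ) : Fb)) * ((L.denom.eval 0 : ℚ) : Fb) -
        ((L.num.eval 0 : ℚ) : Fb) * (Polynomial.aeval s L.denom - ((L.denom.eval 0 : ℚ) : Fb))) /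
        (Polynomial.aeval s L.denom * ((L.denom.eval 0 : ℚ) : Fb)) := by
    rw [sHom_apply, hev]
    field_simp
    ring
  rw [hkey, map_div₀, map_mul, hd1, valuation_ratCast_eq_one O hO hreg, mul_one, div_one]
  refine lt_of_le_of_lt (Valuation.map_sub _ _ _) (max_lt ?_ ?_)
  · rw [map_mul, valuation_ratCast_eq_one O hO hreg, mul_one]
    exact valuation_aeval_sub_lt O hO hsv _
  · rw [map_mul]
    have h1 : O.valuation ((L.num.eval 0 : ℚ) : Fb) ≤ 1 := (O.valuation_le_one_iff _).mpr (hO _)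
    calc O.valuation ((L.num.eval 0 : ℚ) : Fb) *
          O.valuation (Polynomial.aeval s L.denom - ((L.denom.eval 0 : ℚ) : Fb))
        ≤ 1 * O.valuation (Polynomial.aeval s L.denom - ((L.denom.eval 0 : ℚ) : Fb)) :=
          mul_le_mul_left h1 _
      _ = O.valuation (Polynomial.aeval s L.denom - ((L.denom.eval 0 : ℚ) : Fb)) := one_mul _
      _ < 1 := valuation_aeval_sub_lt O hO hsv _

end Fermat.Agent.SW.K1.Eval16
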