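import Mathlib.Algebra.Group.Subgroup.Basic
import Mathlib.Algebra.Group.Subgroup.Ker
import Mathlib.Algebra.GroupWithZero.Action.Defs
import Mathlib.Algebra.Group.Equiv.Defs
import Mathlib.Algebra.Group.Action.Basic
import Mathlib.Tactic

/-!
# MOONSHOT S52, block K1, leaf C (TWIST): the group theory of `H = Stab(± φ)`

Abstract setting: a group `G` acting additively on `U`, a group `Γ` acting additively on `V`,
a homomorphism `res : G →* Γ`, an additive isomorphism `φ : V ≃+ U`, and a subgroup `D ≤ G` that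
maps ONTO `Γ` and for which `φ` is equivariant.  Then

* `Hplus := {σ | ∀ v, σ • φ v = φ (res σ • v)}`,
* `H := {σ | σ ∈ Hplus ∨ ∀ v, σ • φ v = - φ (res σ • v)}`

are subgroups, `D ≤ Hplus ≤ H`, two elements of `H` outside `Hplus` differ by an element of
`Hplus` (index `≤ 2`), `N := H ⊓ ker res` consists of the `σ ∈ ker res` acting as `±1` on `U`,
and `H = D · N`.
-/

set_option autoImplicit false

namespace Fermat.Agent.SW.K1.Twist

/-- The data of leaf C. -/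
structure TwistData (G Γ U V : Type*) [Group G] [Group Γ] [AddCommGroup U] [AddCommGroup V]
    [DistribMulAction G U] [DistribMulAction Γ V] where
  /-- restriction to the constants -/
  res : G →* Γ
  /-- the reduction isomorphism at the base place -/
  φ : V ≃+ U
  /-- the decomposition group of the base place -/
  D : Subgroup G
  res_surj : ∀ τ : Γ, ∃ σ ∈ D, res σ = τ
  equiv : ∀ σ ∈ D, ∀ v : V, σ • φ v = φ (res σ • v)

namespace TwistData

variable {G Γ U V : Type*} [Group G] [Group Γ] [AddCommGroup U] [AddCommGroup V]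
  [DistribMulAction G U] [DistribMulAction Γ V] (T : TwistData G Γ U V)

/-- `σ` transports `φ` to `φ`. -/
def IsPlus (σ : G) : Prop := ∀ v : V, σ • T.φ v = T.φ (T.res σ • v)

/-- `σ` transports `φ` to `-φ`. -/
def IsMinus (σ : G) : Prop := ∀ v : V, σ • T.φ v = - T.φ (T.res σ • v)

theorem isPlus_one : T.IsPlus 1 := fun v => by simp

theorem IsPlus.mul {σ τ : G} (hσ : T.IsPlus σ) (hτ : T.IsPlus τ) : T.IsPlus (σ * τ) := fun v => by
  rw [mul_smul, hτ v, hσ, map_mul, mul_smul]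

theorem IsPlus.mul_minus {σ τ : G} (hσ : T.IsPlus σ) (hτ : T.IsMinus τ) : T.IsMinus (σ * τ) :=
  fun v => by rw [mul_smul, hτ v, smul_neg, hσ, map_mul, mul_smul]

theorem IsMinus.mul_plus {σ τ : G} (hσ : T.IsMinus σ) (hτ : T.IsPlus τ) : T.IsMinus (σ * τ) :=
  fun v => by rw [mul_smul, hτ v, hσ, map_mul, mul_smul]

theorem IsMinus.mul {σ τ : G} (hσ : T.IsMinus σ) (hτ : T.IsMinus τ) : T.IsPlus (σ * τ) :=
  fun v => by rw [mul_smul, hτ v, smul_neg, hσ, neg_neg, map_mul, mul_smul]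

theorem IsPlus.inv {σ : G} (hσ : T.IsPlus σ) : T.IsPlus σ⁻¹ := fun v => by
  have h := hσ (T.res σ⁻¹ • v)
  rw [← mul_smul, ← map_mul, mul_inv_cancel, map_one, one_smul] at h
  rw [← h, inv_smul_smul]

theorem IsMinus.inv {σ : G} (hσ : T.IsMinus σ) : T.IsMinus σ⁻¹ := fun v => by
  have h := hσ (T.res σ⁻¹ • v)
  rw [← mul_smul, ← map_mul, mul_inv_cancel, map_one, one_smul] at h
  have h' : T.φ v = - (σ • T.φ (T.res σ⁻¹ • v)) := by rw [h, neg_neg]
  rw [h', smul_neg, inv_smul_smul]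

/-- The subgroup of `σ` with `σ φ = φ res(σ)`. -/
def Hplus : Subgroup G where
  carrier := {σ | T.IsPlus σ}
  one_mem' := T.isPlus_one
  mul_mem' := fun h₁ h₂ => IsPlus.mul T h₁ h₂
  inv_mem' := fun h => IsPlus.inv T h

/-- The subgroup of `σ` with `σ φ = ± φ res(σ)`. -/
def H : Subgroup G where
  carrier := {σ | T.IsPlus σ ∨ T.IsMinus σ}
  one_mem' := Or.inl T.isPlus_one
  mul_mem' := by
    rintro σ τ (h₁ | h₁) (h₂ | h₂)
    · exact Or.inl (IsPlus.mul T h₁ h₂)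
    · exact Or.inr (IsPlus.mul_minus T h₁ h₂)
    · exact Or.inr (IsMinus.mul_plus T h₁ h₂)
    · exact Or.inl (IsMinus.mul T h₁ h₂)
  inv_mem' := by
    rintro σ (h | h)
    · exact Or.inl (IsPlus.inv T h)
    · exact Or.inr (IsMinus.inv T h)

theorem mem_Hplus {σ : G} : σ ∈ T.Hplus ↔ T.IsPlus σ := Iff.rfl

theorem mem_H {σ : G} : σ ∈ T.H ↔ T.IsPlus σ ∨ T.IsMinus σ := Iff.rfl

theorem D_le_Hplus : T.D ≤ T.Hplus := fun σ hσ => T.equiv σ hσ

theorem Hplus_le_H : T.Hplus ≤ T.H := fun _ hσ => Or.inl hσ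

theorem D_le_H : T.D ≤ T.H := T.D_le_Hplus.trans T.Hplus_le_H

theorem isMinus_of_mem_H_of_not_mem_Hplus {σ : G} (h : σ ∈ T.H) (h' : σ ∉ T.Hplus) :
    T.IsMinus σ := h.resolve_left h'

/-- Index `≤ 2`: two elements of `H` outside `Hplus` differ by an element of `Hplus`. -/
theorem inv_mul_mem_Hplus {σ τ : G} (hσ : σ ∈ T.H) (hσ' : σ ∉ T.Hplus) (hτ : τ ∈ T.H)
    (hτ' : τ ∉ T.Hplus) : σ⁻¹ * τ ∈ T.Hplus :=
  IsMinus.mul T (IsMinus.inv T (T.isMinus_of_mem_H_of_not_mem_Hplus hσ hσ'))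
    (T.isMinus_of_mem_H_of_not_mem_Hplus hτ hτ')

/-- `Hplus` is normal in `H` (conjugation form). -/
theorem conj_mem_Hplus {σ τ : G} (hσ : σ ∈ T.H) (hτ : τ ∈ T.Hplus) : σ⁻¹ * τ * σ ∈ T.Hplus := by
  rcases hσ with h | h
  · exact IsPlus.mul T (IsPlus.mul T (IsPlus.inv T h) hτ) h
  · exact IsMinus.mul T (IsMinus.mul_plus T (IsMinus.inv T h) hτ) h

/-- The geometric part of `H`. -/
def N : Subgroup G := T.H ⊓ T.res.ker

theorem mem_N {σ : G} : σ ∈ T.N ↔ T.res σ = 1 ∧ ((∀ u : U, σ • u = u) ∨ ∀ u : U, σ • u = -u) := by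
  constructor
  · rintro ⟨h, hk⟩
    have hk' : T.res σ = 1 := hk
    refine ⟨hk', ?_⟩
    rcases h with h | h
    · left
      intro u
      obtain ⟨v, rfl⟩ := T.φ.surjective u
      rw [h v, hk', one_smul]
    · right
      intro u
      obtain ⟨v, rfl⟩ := T.φ.surjective u
      rw [h v, hk', one_smul]
  · rintro ⟨hk, h⟩
    refine ⟨?_, hk⟩
    rcases h with h | h
    · exact Or.inl fun v => by rw [h, hk, one_smul]
    · exact Or.inr fun v => by rw [h, hk, one_smul]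

theorem N_le_H : T.N ≤ T.H := inf_le_left

/-- **`H = D · N`.** -/
theorem exists_mul_of_mem_H {σ : G} (hσ : σ ∈ T.H) : ∃ d ∈ T.D, ∃ n ∈ T.N, σ = d * n := by
  obtain ⟨d, hd, hres⟩ := T.res_surj (T.res σ)
  refine ⟨d, hd, d⁻¹ * σ, ⟨T.H.mul_mem (T.H.inv_mem (T.D_le_H hd)) hσ, ?_⟩, by group⟩
  show T.res (d⁻¹ * σ) = 1
  rw [map_mul, map_inv, hres, inv_mul_cancel]

/-- **`Hplus = D · (Hplus ⊓ ker res)`.** -/
theorem exists_mul_of_mem_Hplus {σ : G} (hσ : σ ∈ T.Hplus) :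
    ∃ d ∈ T.D, ∃ n ∈ T.Hplus ⊓ T.res.ker, σ = d * n := by
  obtain ⟨d, hd, hres⟩ := T.res_surj (T.res σ)
  refine ⟨d, hd, d⁻¹ * σ, ⟨T.Hplus.mul_mem (T.Hplus.inv_mem (T.D_le_Hplus hd)) hσ, ?_⟩, by group⟩
  show T.res (d⁻¹ * σ) = 1
  rw [map_mul, map_inv, hres, inv_mul_cancel]

/-- An element fixed by `D` and by `N` is fixed by `H` (for any action of `G`). -/
theorem smul_eq_of_mem_H {X : Type*} [MulAction G X] {x : X} (hD : ∀ σ ∈ T.D, σ • x = x)
    (hN : ∀ σ ∈ T.N, σ • x = x) {σ : G} (hσ : σ ∈ T.H) : σ • x = x := by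
  obtain ⟨d, hd, n, hn, rfl⟩ := T.exists_mul_of_mem_H hσ
  rw [mul_smul, hN n hn, hD d hd]

end TwistData

end Fermat.Agent.SW.K1.Twist
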