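import Fermat.Agent.SW.K1.Setup
import Fermat.Agent.SW.K1.Twist

/-!
# MOONSHOT S52, block K1 (FAMILY): the literal leaf contracts

Every leaf of block K1 as a `Prop`; `Assembly.lean` proves `Contracts.FamilyOut` from them.
All leaves quantify over an abstract field `Fb : Type` with
`[Field Fb] [Algebra F0 Fb] [Algebra Qb Fb] [CharZero Fb] [DecidableEq Fb] [IsAlgClosure F0 Fb]`.

* `LeafB` (PLACE + RED): `Nonempty (PlaceRed Fb A B s₁ n)` at every good rational value `s₁`.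
* `LeafD` (FIELDS): `Gal(Fb / Fb^H) = H`, `Fb^H = Ω^D`, stability and smoothness of `Ω`.
* `LeafE` (GENUS 0): `Ω = Qb(w)` for the family `y² = x³ + a X x + b X`.
* `LeafF` (DESCENT): abstract, no elliptic curve.
* `LeafG` (SIGN ELEMENT `r = √δ`), helper20's explicit Kummer generator.
* `LeafEval` (values of rational functions of the descended parameter at the place).
* `LeafS` (the `s`-structure: `SStr Fb (sHom s hs)` is an algebraic closure of `ℚ(X)`, and its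
  automorphisms are automorphisms of the `λ`-structure).
* `LeafPsi` (the twisted isomorphism `Ψ` in the `s`-structure).
* `LeafTw` (TWIST ON POINTS): `(x, y) ↦ (r² x, r³ y)`.
* `LeafI` (GENERIC MOD 3): `psi_3` has no root in `Ω`.
* `LeafJ1`, `LeafJ2` (the curve `W`): `c₄ c₆ ≠ 0`, short form.
-/

set_option autoImplicit false

open WeierstrassCurve WeierstrassCurve.Affine Polynomial

namespace Fermat.Agent.SW.K1.Leaves

open Fermat.Agent.SW.Contracts Fermat.Agent.SW.K1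

/-- The coefficient `a · X` of the `λ`-family. -/
noncomputable def lamC (a : ℚ) : F0 := RatFunc.C a * RatFunc.X

/-- The twist data (leaf C) attached to an output of leaf B: `D` is the decomposition group of
the place. -/
noncomputable def twistData {Fb : Type} [Field Fb] [Algebra F0 Fb] [Algebra Qb Fb] [CharZero Fb]
    [DecidableEq Fb] {A B : F0} {s₁ : ℚ} {n : ℕ} (pr : PlaceRed Fb A B s₁ n) :
    Twist.TwistData (Fb ≃ₐ[F0] Fb) (Qb ≃ₐ[ℚ] Qb) (U Fb A B n) (V (ev A s₁) (ev B s₁) n) where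
  res := res Fb
  φ := pr.φ
  D := decomp Fb pr.O
  res_surj := pr.dec_surj
  equiv := pr.equiv

/-- **Leaf B (PLACE + RED).** -/
def LeafB : Prop :=
  ∀ (Fb : Type) [Field Fb] [Algebra F0 Fb] [Algebra Qb Fb] [CharZero Fb] [DecidableEq Fb]
    [IsAlgClosure F0 Fb] (A B : F0) (s₁ : ℚ),
    A.denom.eval s₁ ≠ 0 → B.denom.eval s₁ ≠ 0 → 4 * ev A s₁ ^ 3 + 27 * ev B s₁ ^ 2 ≠ 0 →
    ∀ n : ℕ, 0 < n → Nonempty (PlaceRed Fb A B s₁ n)

/-- **Leaf E (GENUS 0).** -/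
def LeafE : Prop :=
  ∀ (Fb : Type) [Field Fb] [Algebra F0 Fb] [Algebra Qb Fb] [CharZero Fb] [DecidableEq Fb]
    [IsAlgClosure F0 Fb] (a b : ℚ), a ≠ 0 → b ≠ 0 → 4 * a ^ 3 + 27 * b ^ 2 ≠ 0 →
    ∃ w : Fb, w ∈ OmegaF Fb (lamC a) (lamC b) 5 ∧
      ∀ z ∈ OmegaF Fb (lamC a) (lamC b) 5, z ∈ IntermediateField.adjoin Qb {w}

/-- **Leaf I (GENERIC MOD 3).** -/
def LeafI : Prop :=
  ∀ (Fb : Type) [Field Fb] [Algebra F0 Fb] [Algebra Qb Fb] [CharZero Fb] [DecidableEq Fb]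
    [IsAlgClosure F0 Fb] (a b : ℚ), a ≠ 0 → b ≠ 0 → 4 * a ^ 3 + 27 * b ^ 2 ≠ 0 →
    ∀ x ∈ OmegaF Fb (lamC a) (lamC b) 5,
      3 * x ^ 4 + 6 * algebraMap F0 Fb (lamC a) * x ^ 2 + 12 * algebraMap F0 Fb (lamC b) * x
        - algebraMap F0 Fb (lamC a) ^ 2 ≠ 0

/-- **Leaf F (DESCENT)**, abstract form: `Ω = Qb(w)` with a `Qb`-rational place `O` and a group
`D` of automorphisms stabilising `O` and `Ω`, acting smoothly on `Ω` through a surjection onto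
`G_ℚ`; then the fixed field `Ω^D` is `ℚ(s)` for an `s` in the maximal ideal of `O`. -/
def LeafF : Prop :=
  ∀ (Fb : Type) [Field Fb] [Algebra F0 Fb] [Algebra Qb Fb] [CharZero Fb]
    [IsAlgClosure F0 Fb] (O : ValuationSubring Fb),
    (∀ z : Qb, algebraMap Qb Fb z ∈ O) →
    (∀ x ∈ O, ∃ z : Qb, O.valuation (x - algebraMap Qb Fb z) < 1) →
    ∀ (Ω : IntermediateField F0 Fb), (∀ z : Qb, algebraMap Qb Fb z ∈ Ω) →
    ∀ w ∈ Ω, (∀ z ∈ Ω, z ∈ IntermediateField.adjoin Qb {w}) →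
    ∀ D : Subgroup (Fb ≃ₐ[F0] Fb), D ≤ decomp Fb O →
      (∀ τ : Qb ≃ₐ[ℚ] Qb, ∃ σ ∈ D, res Fb σ = τ) →
      (∀ σ ∈ D, ∀ z ∈ Ω, σ z ∈ Ω) →
      (∀ z ∈ Ω, ∃ E : IntermediateField ℚ Qb, FiniteDimensional ℚ E ∧
        ∀ σ ∈ D, (∀ e ∈ E, res Fb σ e = e) → σ z = z) →
      ∃ s ∈ Ω, (∀ σ ∈ D, σ s = s) ∧ O.valuation s < 1 ∧ Transcendental ℚ s ∧
        ∀ z ∈ Ω, (∀ σ ∈ D, σ z = z) → z ∈ IntermediateField.adjoin ℚ {s}

/-- **Leaf D (FIELDS).** For the twist data `T` of a place: `H` is closed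
(`Gal(Fb / Fb^H) = H`), `Fb^H = Ω^D`, and `Ω` is stable under `G` with a smooth action of `D`. -/
def LeafD : Prop :=
  ∀ (Fb : Type) [Field Fb] [Algebra F0 Fb] [Algebra Qb Fb] [CharZero Fb] [DecidableEq Fb]
    [IsAlgClosure F0 Fb] (A B : F0) (s₁ : ℚ),
    4 * ev A s₁ ^ 3 + 27 * ev B s₁ ^ 2 ≠ 0 → ∀ (n : ℕ), 0 < n → ∀ pr : PlaceRed Fb A B s₁ n,
    (∀ σ : Fb ≃ₐ[F0] Fb, (∀ z : Fb, (∀ τ ∈ (twistData pr).H, τ z = z) → σ z = z) →
      σ ∈ (twistData pr).H) ∧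
    (∀ z : Fb, (∀ τ ∈ (twistData pr).H, τ z = z) ↔
      (z ∈ OmegaF Fb A B n ∧ ∀ τ ∈ decomp Fb pr.O, τ z = z)) ∧
    (∀ (σ : Fb ≃ₐ[F0] Fb), ∀ z ∈ OmegaF Fb A B n, σ z ∈ OmegaF Fb A B n) ∧
    (∀ z ∈ OmegaF Fb A B n, ∃ E : IntermediateField ℚ Qb, FiniteDimensional ℚ E ∧
      ∀ σ ∈ decomp Fb pr.O, (∀ e ∈ E, res Fb σ e = e) → σ z = z)

/-- **Leaf G (SIGN ELEMENT)**, concrete form (helper20's Kummer generator
`r = (1/24) ∑_{v ≠ 0} y(φ v) / y(v)`): `σ r = r` when `σ φ = φ res σ`, `σ r = - r` when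
`σ φ = - φ res σ`, and `r ≡ 1` modulo the maximal ideal of the place. -/
def LeafG : Prop :=
  ∀ (Fb : Type) [Field Fb] [Algebra F0 Fb] [Algebra Qb Fb] [CharZero Fb] [DecidableEq Fb]
    [IsAlgClosure F0 Fb] (A B : F0) (s₁ : ℚ),
    4 * ev A s₁ ^ 3 + 27 * ev B s₁ ^ 2 ≠ 0 → ∀ pr : PlaceRed Fb A B s₁ 5,
    ∃ r : Fb, r ≠ 0 ∧ (∀ σ, (twistData pr).IsPlus σ → σ r = r) ∧
      (∀ σ, (twistData pr).IsMinus σ → σ r = -r) ∧ pr.O.valuation (r - 1) < 1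

/-- **Leaf Eval.** For `s` in the maximal ideal of a valuation subring `O ⊇ ℚ` and `L ∈ ℚ(X)`
with `L(s) ∈ O`: `L` is regular at `0` and `L(s) ≡ L(0)` modulo the maximal ideal. -/
def LeafEval : Prop :=
  ∀ (Fb : Type) [Field Fb] [CharZero Fb] (O : ValuationSubring Fb), (∀ q : ℚ, (q : Fb) ∈ O) →
    ∀ (s : Fb) (hs : Transcendental ℚ s), O.valuation s < 1 → ∀ L : F0, sHom s hs L ∈ O →
      L.denom.eval 0 ≠ 0 ∧ O.valuation (sHom s hs L - ((ev L 0 : ℚ) : Fb)) < 1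

/-- **Leaf S (the `s`-structure).** If `X_λ ∈ ℚ(s)` then `Fb` with `X ↦ s` is again an algebraic
closure of `ℚ(X)`, and every automorphism of the `s`-structure is an automorphism of the
`λ`-structure with the same restriction to the constants. -/
def LeafS : Prop :=
  ∀ (Fb : Type) [Field Fb] [Algebra F0 Fb] [Algebra Qb Fb] [CharZero Fb]
    [IsAlgClosure F0 Fb] (s : Fb) (hs : Transcendental ℚ s) (L : F0),
    sHom s hs L = algebraMap F0 Fb RatFunc.X →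
    IsAlgClosure F0 (SStr Fb (sHom s hs)) ∧
    ∀ σ' : SStr Fb (sHom s hs) ≃ₐ[F0] SStr Fb (sHom s hs),
      ∃ σ : Fb ≃ₐ[F0] Fb, (∀ x : Fb, SStr.toS (sHom s hs) (σ x) = σ' (SStr.toS (sHom s hs) x)) ∧
        res (SStr Fb (sHom s hs)) σ' = res Fb σ

/-- **Leaf Psi.** The twisted isomorphism in the `s`-structure: `Ψ v = tw (φ v)`,
`tw (x, y) = (r² x, r³ y)`, is equivariant for the whole Galois group of the `s`-structure. -/
def LeafPsi : Prop :=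
  ∀ (Fb : Type) [Field Fb] [Algebra F0 Fb] [Algebra Qb Fb] [CharZero Fb] [DecidableEq Fb]
    [IsAlgClosure F0 Fb] (a b : ℚ) (pr : PlaceRed Fb (lamC a) (lamC b) 1 5) (r : Fb), r ≠ 0 →
    (∀ σ, (twistData pr).IsPlus σ → σ r = r) → (∀ σ, (twistData pr).IsMinus σ → σ r = -r) →
    ∀ (s : Fb) (hs : Transcendental ℚ s) (L Dl : F0),
      sHom s hs L = algebraMap F0 Fb RatFunc.X → sHom s hs Dl = r ^ 2 →
      (∀ σ : Fb ≃ₐ[F0] Fb, σ s = s → σ ∈ (twistData pr).H) →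
      ∃ Ψ : V (ev (lamC a) 1) (ev (lamC b) 1) 5 ≃+
          U (SStr Fb (sHom s hs)) (RatFunc.C a * L * Dl ^ 2) (RatFunc.C b * L * Dl ^ 3) 5,
        ∀ (σ' : SStr Fb (sHom s hs) ≃ₐ[F0] SStr Fb (sHom s hs))
          (v : V (ev (lamC a) 1) (ev (lamC b) 1) 5),
          σ' • Ψ v = Ψ (res (SStr Fb (sHom s hs)) σ' • v)

/-- The short Weierstrass curve `y² = x³ + α x + β` over a commutative ring, as an affine curve. -/
def shortK {K : Type*} [CommRing K] (α β : K) : Affine K := ⟨0, 0, 0, α, β⟩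

/-- **Leaf Tw (TWIST ON POINTS).** The isomorphism `(x, y) ↦ (r² x, r³ y)` from
`y² = x³ + α x + β` to `y² = x³ + α r⁴ x + β r⁶`. -/
def LeafTw : Prop :=
  ∀ (K : Type) [Field K] [DecidableEq K] (α β r : K), r ≠ 0 →
    ∃ tw : (shortK α β).Point ≃+ (shortK (α * r ^ 4) (β * r ^ 6)).Point,
      ∀ (x y : K) (h : (shortK α β).Nonsingular x y),
        ∃ h' : (shortK (α * r ^ 4) (β * r ^ 6)).Nonsingular (r ^ 2 * x) (r ^ 3 * y),
          tw (Point.some x y h) = Point.some (r ^ 2 * x) (r ^ 3 * y) h'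

/-- **Leaf J1.** A semistable integral model has `c₄ ≠ 0` and `c₆ ≠ 0`. -/
def LeafJ1 : Prop :=
  ∀ W : WeierstrassCurve ℤ, W.Δ ≠ 0 → W.IsSemistableModel → W.c₄ ≠ 0 ∧ W.c₆ ≠ 0

/-- **Leaf J2.** The short Weierstrass form `y² = x³ - 27 c₄ x - 54 c₆`. -/
def LeafJ2 : Prop :=
  ∀ W : WeierstrassCurve ℤ, ∃ C : VariableChange ℚ,
    C • ratW W = shortW (-27 * (W.c₄ : ℚ)) (-54 * (W.c₆ : ℚ))

end Fermat.Agent.SW.K1.Leaves
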