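import Mathlib
import Fermat.Agent.SW.K1.Leaves
import Fermat.Agent.EC.Tor.Main

/-!
# MOONSHOT S52 (Program F), block K1, leaf D (FIELDS), parts (D-a) and (D-b)

`pr : PlaceRed Fb A B s₁ n` an output of leaf B, `T := Leaves.twistData pr`, `H := T.H`,
`D := decomp Fb pr.O`, `N := T.N`, `Ω := OmegaF Fb A B n`.

* `finite_V`, `finite_U` : the torsion modules are finite (EC/Tor on `V`, `pr.φ`);
* `coordField pr` : the finite extension of `ℚ(X)` generated by the coordinates of the points of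
  `U` and of (the image in `Fb` of) the coordinates of the points of `V`;
  `fixingSubgroup_coordField_le : (coordField pr).fixingSubgroup ≤ T.Hplus`;
* `isClosed_H`, and **(D-a)** `mem_H_of_fixes` : an automorphism fixing `Fb^H` pointwise is in `H`;
* **(D-b)** `fixed_iff` : `Fb^H = Ω^D`, from (D3) `σ ∈ N ↔ σ fixes Ω pointwise` (a hypothesis here,
  proved in `SW/K1/FieldsCD.lean`).

Branch-only work.
-/

set_option autoImplicit false
set_option linter.unusedSectionVars false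

open WeierstrassCurve WeierstrassCurve.Affine IntermediateField

namespace Fermat.Agent.SW.K1.FieldsAB

open Fermat.Agent.SW.Contracts Fermat.Agent.SW.K1 Fermat.Agent.SW.K1.Leaves

/-! ### Points fixed by an automorphism fixing their coordinates -/

section Fix

variable {R : Type*} {K : Type*} [CommRing R] [Field K] [DecidableEq K] [Algebra R K]
  {W : Affine R}

theorem smul_eq_self_of_fixes (σ : K ≃ₐ[R] K) (P : (W⁄K).Point) (hx : σ (xOf P) = xOf P)
    (hy : σ (yOf P) = yOf P) : σ • P = P := by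
  rw [Point.algEquiv_smul_def]
  cases P with
  | zero => rfl
  | some x y h =>
    rw [Point.map_some]
    simp only [Point.some.injEq]
    exact ⟨hx, hy⟩

end Fix

section Main

variable {Fb : Type} [Field Fb] [Algebra F0 Fb] [Algebra Qb Fb] [CharZero Fb] [DecidableEq Fb]
  {A B : F0} {s₁ : ℚ} {n : ℕ}

/-- The `n`-torsion of the specialised curve is finite. -/
theorem finite_V (hΔ : 4 * ev A s₁ ^ 3 + 27 * ev B s₁ ^ 2 ≠ 0) (hn : 0 < n) :
    Finite (V (ev A s₁) (ev B s₁) n) := by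
  apply Fermat.Agent.EC.Tor.Main.finite_torsion
  · change ((shortW (ev A s₁) (ev B s₁)).map (algebraMap ℚ Qb)).Δ ≠ 0
    rw [WeierstrassCurve.map_Δ]
    have : (shortW (ev A s₁) (ev B s₁)).Δ = -16 * (4 * ev A s₁ ^ 3 + 27 * ev B s₁ ^ 2) := by
      simp only [shortW, WeierstrassCurve.Δ, WeierstrassCurve.b₂, WeierstrassCurve.b₄,
        WeierstrassCurve.b₆, WeierstrassCurve.b₈]
      ring
    rw [this]
    exact (_root_.map_ne_zero _).mpr (mul_ne_zero (by norm_num) hΔ)
  · exact_mod_cast hn.ne'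

/-- The `n`-torsion of the generic curve is finite. -/
theorem finite_U (hΔ : 4 * ev A s₁ ^ 3 + 27 * ev B s₁ ^ 2 ≠ 0) (hn : 0 < n)
    (pr : PlaceRed Fb A B s₁ n) : Finite (U Fb A B n) :=
  have := finite_V (A := A) (B := B) hΔ hn
  Finite.of_equiv _ pr.φ.toEquiv

/-- The set of all coordinates of the points of `U`, and of the images in `Fb` of the coordinates
of the points of `V`. -/
def coordSet (Fb : Type) [Field Fb] [Algebra F0 Fb] [Algebra Qb Fb] [DecidableEq Fb] (A B : F0)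
    (s₁ : ℚ) (n : ℕ) : Set Fb :=
  Set.range (fun P : U Fb A B n => xOf (P : ((genW A B).toAffine⁄Fb).Point)) ∪
    Set.range (fun P : U Fb A B n => yOf (P : ((genW A B).toAffine⁄Fb).Point)) ∪
    Set.range (fun v : V (ev A s₁) (ev B s₁) n =>
      algebraMap Qb Fb (xOf (v : ((shortW (ev A s₁) (ev B s₁)).toAffine⁄Qb).Point))) ∪
    Set.range (fun v : V (ev A s₁) (ev B s₁) n =>
      algebraMap Qb Fb (yOf (v : ((shortW (ev A s₁) (ev B s₁)).toAffine⁄Qb).Point)))

/-- The field generated over `ℚ(X)` by `coordSet`. -/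
noncomputable def coordField (Fb : Type) [Field Fb] [Algebra F0 Fb] [Algebra Qb Fb]
    [DecidableEq Fb] (A B : F0) (s₁ : ℚ) (n : ℕ) : IntermediateField F0 Fb :=
  IntermediateField.adjoin F0 (coordSet Fb A B s₁ n)

theorem finite_coordSet [Finite (U Fb A B n)] [Finite (V (ev A s₁) (ev B s₁) n)] :
    (coordSet Fb A B s₁ n).Finite :=
  (((Set.finite_range _).union (Set.finite_range _)).union (Set.finite_range _)).union
    (Set.finite_range _)

variable [IsAlgClosure F0 Fb]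

theorem finiteDimensional_coordField (hΔ : 4 * ev A s₁ ^ 3 + 27 * ev B s₁ ^ 2 ≠ 0) (hn : 0 < n)
    (pr : PlaceRed Fb A B s₁ n) : FiniteDimensional F0 (coordField Fb A B s₁ n) := by
  have := finite_V (A := A) (B := B) hΔ hn
  have := finite_U hΔ hn pr
  have hfin : Finite (coordSet Fb A B s₁ n) := (finite_coordSet (Fb := Fb)).to_subtype
  have halg : Algebra.IsAlgebraic F0 Fb := IsAlgClosure.isAlgebraic
  exact IntermediateField.finiteDimensional_adjoin fun x _ => (halg.isAlgebraic x).isIntegral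

/-- An automorphism fixing all the coordinates transports `φ` to `φ`. -/
theorem fixingSubgroup_coordField_le (pr : PlaceRed Fb A B s₁ n) :
    (coordField Fb A B s₁ n).fixingSubgroup ≤ (twistData pr).Hplus := by
  intro σ hσ
  rw [IntermediateField.mem_fixingSubgroup_iff] at hσ
  have hS : ∀ z ∈ coordSet Fb A B s₁ n, σ z = z := fun z hz =>
    hσ z (IntermediateField.subset_adjoin F0 _ hz)
  -- `σ` fixes `U` pointwise
  have hU : ∀ u : U Fb A B n, σ • u = u := by
    intro u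
    apply Subtype.ext
    change σ • (u : ((genW A B).toAffine⁄Fb).Point) = u
    apply smul_eq_self_of_fixes
    · exact hS _ (Or.inl (Or.inl (Or.inl ⟨u, rfl⟩)))
    · exact hS _ (Or.inl (Or.inl (Or.inr ⟨u, rfl⟩)))
  -- `res σ` fixes `V` pointwise
  have hV : ∀ v : V (ev A s₁) (ev B s₁) n, res Fb σ • v = v := by
    intro v
    apply Subtype.ext
    change res Fb σ • (v : ((shortW (ev A s₁) (ev B s₁)).toAffine⁄Qb).Point) = v
    apply smul_eq_self_of_fixes
    · apply (algebraMap Qb Fb).injective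
      rw [algebraMap_res]
      exact hS _ (Or.inl (Or.inr ⟨v, rfl⟩))
    · apply (algebraMap Qb Fb).injective
      rw [algebraMap_res]
      exact hS _ (Or.inr ⟨v, rfl⟩)
  intro v
  change σ • pr.φ v = pr.φ (res Fb σ • v)
  rw [hU, hV]

/-- `H` is closed in the Krull topology. -/
theorem isClosed_H (hΔ : 4 * ev A s₁ ^ 3 + 27 * ev B s₁ ^ 2 ≠ 0) (hn : 0 < n)
    (pr : PlaceRed Fb A B s₁ n) : IsClosed ((twistData pr).H : Set (Fb ≃ₐ[F0] Fb)) := by
  have := finiteDimensional_coordField hΔ hn pr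
  have hopen := IntermediateField.fixingSubgroup_isOpen (coordField Fb A B s₁ n)
  exact Subgroup.isClosed_of_isOpen _
    (Subgroup.isOpen_mono ((fixingSubgroup_coordField_le pr).trans (twistData pr).Hplus_le_H) hopen)

/-- **(D-a)** An automorphism fixing the fixed field of `H` pointwise lies in `H`. -/
theorem mem_H_of_fixes (hΔ : 4 * ev A s₁ ^ 3 + 27 * ev B s₁ ^ 2 ≠ 0) (hn : 0 < n)
    (pr : PlaceRed Fb A B s₁ n) (σ : Fb ≃ₐ[F0] Fb)
    (hσ : ∀ z : Fb, (∀ τ ∈ (twistData pr).H, τ z = z) → σ z = z) : σ ∈ (twistData pr).H := by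
  have hgal : IsGalois F0 Fb := IsAlgClosure.isGalois F0 Fb
  have h := InfiniteGalois.fixingSubgroup_fixedField
    (⟨(twistData pr).H, isClosed_H hΔ hn pr⟩ : ClosedSubgroup (Fb ≃ₐ[F0] Fb))
  have hmem : σ ∈ (IntermediateField.fixedField (twistData pr).H).fixingSubgroup := by
    rw [IntermediateField.mem_fixingSubgroup_iff]
    intro z hz
    exact hσ z ((IntermediateField.mem_fixedField_iff _ z).mp hz)
  have h' : (IntermediateField.fixedField (twistData pr).H).fixingSubgroup = (twistData pr).H := h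
  rw [h'] at hmem
  exact hmem

/-- **(D-b)** `Fb^H = Ω^D`, given (D3): `N` is the pointwise stabiliser of `Ω`. -/
theorem fixed_iff (pr : PlaceRed Fb A B s₁ n)
    (hD3 : ∀ σ : Fb ≃ₐ[F0] Fb, σ ∈ (twistData pr).N ↔ ∀ z ∈ OmegaF Fb A B n, σ z = z) (z : Fb) :
    (∀ τ ∈ (twistData pr).H, τ z = z) ↔
      (z ∈ OmegaF Fb A B n ∧ ∀ τ ∈ decomp Fb pr.O, τ z = z) := by
  have hgal : IsGalois F0 Fb := IsAlgClosure.isGalois F0 Fb
  constructor
  · intro hz
    refine ⟨?_, fun τ hτ => hz τ ((twistData pr).D_le_H hτ)⟩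
    rw [← InfiniteGalois.fixedField_fixingSubgroup (OmegaF Fb A B n),
      IntermediateField.mem_fixedField_iff]
    intro τ hτ
    rw [IntermediateField.mem_fixingSubgroup_iff] at hτ
    exact hz τ ((twistData pr).N_le_H ((hD3 τ).mpr hτ))
  · rintro ⟨hΩ, hD⟩ τ hτ
    obtain ⟨d, hd, ν, hν, rfl⟩ := (twistData pr).exists_mul_of_mem_H hτ
    rw [AlgEquiv.mul_apply, (hD3 ν).mp hν z hΩ]
    exact hD d hd

end Main

end Fermat.Agent.SW.K1.FieldsAB

namespace Fermat.Agent.SW.K1.FieldsAB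

open Fermat.Agent.SW.Contracts Fermat.Agent.SW.K1 Fermat.Agent.SW.K1.Leaves

/-- **Leaf D** from (D-c) stability, (D-d) smoothness and (D3) `N = Stab(Ω)` (the three facts of
`SW/K1/FieldsCD.lean`), in their literal shapes. -/
theorem leafD_of_CD
    (hc : ∀ (Fb : Type) [Field Fb] [Algebra F0 Fb] [Algebra Qb Fb] [CharZero Fb] [DecidableEq Fb]
      [IsAlgClosure F0 Fb] (A B : F0) (n : ℕ) (σ : Fb ≃ₐ[F0] Fb),
      ∀ z ∈ OmegaF Fb A B n, σ z ∈ OmegaF Fb A B n)
    (hd : ∀ (Fb : Type) [Field Fb] [Algebra F0 Fb] [Algebra Qb Fb] [CharZero Fb] [DecidableEq Fb]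
      [IsAlgClosure F0 Fb] (A B : F0) (s₁ : ℚ), 4 * ev A s₁ ^ 3 + 27 * ev B s₁ ^ 2 ≠ 0 →
      ∀ (n : ℕ), 0 < n → ∀ pr : PlaceRed Fb A B s₁ n,
      ∀ z ∈ OmegaF Fb A B n, ∃ E : IntermediateField ℚ Qb, FiniteDimensional ℚ E ∧
        ∀ σ ∈ decomp Fb pr.O, (∀ e ∈ E, res Fb σ e = e) → σ z = z)
    (h3 : ∀ (Fb : Type) [Field Fb] [Algebra F0 Fb] [Algebra Qb Fb] [CharZero Fb] [DecidableEq Fb]
      [IsAlgClosure F0 Fb] (A B : F0) (s₁ : ℚ) (n : ℕ) (pr : PlaceRed Fb A B s₁ n)
      (σ : Fb ≃ₐ[F0] Fb), σ ∈ (twistData pr).N ↔ ∀ z ∈ OmegaF Fb A B n, σ z = z) : LeafD := by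
  intro Fb _ _ _ _ _ _ A B s₁ hΔ n hn pr
  exact ⟨mem_H_of_fixes hΔ hn pr, fixed_iff pr (h3 Fb A B s₁ n pr), hc Fb A B n,
    hd Fb A B s₁ hΔ n hn pr⟩

end Fermat.Agent.SW.K1.FieldsAB
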