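/-
MOONSHOT S52, block K1, leaf D (FIELDS): the two conjuncts that do not use the Galois
correspondence.

* `omega_stable` : `Ω = OmegaF Fb A B n` is stable under every `σ : Fb ≃ₐ[F0] Fb`;
* `omega_smooth` : the decomposition group of the place of a `PlaceRed` acts smoothly on `Ω`
  (through a finite quotient of `G_ℚ`).
-/
import Fermat.Agent.SW.K1.Leaves
import Fermat.Agent.EC.Tor.Main

set_option autoImplicit false

open WeierstrassCurve WeierstrassCurve.Affine Polynomial

namespace Fermat.Agent.SW.K1.FieldsCD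

open Fermat.Agent.SW.Contracts Fermat.Agent.SW.K1 Fermat.Agent.SW.K1.Leaves

section general

variable {R S K : Type*} [CommRing R] [CommRing S] [Field K] [DecidableEq K] {W' : Affine R}
  [Algebra R S] [Algebra R K] [Algebra S K] [IsScalarTower R S K]

theorem xOf_smul (σ : K ≃ₐ[S] K) (P : (W'⁄K).Point) : xOf (σ • P) = σ (xOf P) := by
  rcases P with _ | ⟨x, y, h⟩
  · exact (map_zero σ).symm
  · rfl

theorem yOf_smul (σ : K ≃ₐ[S] K) (P : (W'⁄K).Point) : yOf (σ • P) = σ (yOf P) := by
  rcases P with _ | ⟨x, y, h⟩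
  · exact (map_zero σ).symm
  · rfl

/-- An automorphism fixing both coordinates of a point fixes the point. -/
theorem smul_eq_self_of_coord (σ : K ≃ₐ[S] K) (P : (W'⁄K).Point) (hx : σ (xOf P) = xOf P)
    (hy : σ (yOf P) = yOf P) : σ • P = P := by
  rcases P with _ | ⟨x, y, h⟩
  · rfl
  · have hx' : σ x = x := hx
    have hy' : σ y = y := hy
    show Point.map σ.toAlgHom (Point.some x y h) = Point.some x y h
    rw [Point.map_some]
    simp only [Point.some.injEq]
    exact ⟨hx', hy'⟩

end general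

section omega

variable {Fb : Type} [Field Fb] [Algebra F0 Fb] [Algebra Qb Fb] [CharZero Fb] [DecidableEq Fb]

/-- **(D-c)** `Ω` is stable under the whole Galois group. -/
theorem omega_stable (A B : F0) (n : ℕ) (σ : Fb ≃ₐ[F0] Fb) :
    ∀ z ∈ OmegaF Fb A B n, σ z ∈ OmegaF Fb A B n := by
  intro z hz
  have hmap : (OmegaF Fb A B n).map σ.toAlgHom ≤ OmegaF Fb A B n := by
    unfold OmegaF
    rw [IntermediateField.adjoin_map]
    apply IntermediateField.adjoin.mono
    rintro _ ⟨x, hx, rfl⟩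
    rcases hx with ⟨c, rfl⟩ | ⟨P, rfl⟩
    · left
      exact ⟨res Fb σ c, algebraMap_res σ c⟩
    · right
      refine ⟨σ • P, ?_⟩
      exact (xOf_smul σ (P : ((genW A B).toAffine⁄Fb).Point)).symm
  exact hmap ((IntermediateField.mem_map _).mpr ⟨z, hz, rfl⟩)

/-- The set of elements on which a subgroup `D` acts smoothly, as an intermediate field. -/
def smoothField (D : Subgroup (Fb ≃ₐ[F0] Fb)) : IntermediateField F0 Fb where
  carrier := {z | ∃ E : IntermediateField ℚ Qb, FiniteDimensional ℚ E ∧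
    ∀ σ ∈ D, (∀ e ∈ E, res Fb σ e = e) → σ z = z}
  mul_mem' := by
    rintro x y ⟨E₁, h₁, hx⟩ ⟨E₂, h₂, hy⟩
    refine ⟨E₁ ⊔ E₂, inferInstance, fun σ hσ hE => ?_⟩
    rw [map_mul, hx σ hσ fun e he => hE e (le_sup_left (a := E₁) (b := E₂) he),
      hy σ hσ fun e he => hE e (le_sup_right (a := E₁) (b := E₂) he)]
  add_mem' := by
    rintro x y ⟨E₁, h₁, hx⟩ ⟨E₂, h₂, hy⟩
    refine ⟨E₁ ⊔ E₂, inferInstance, fun σ hσ hE => ?_⟩
    rw [map_add, hx σ hσ fun e he => hE e (le_sup_left (a := E₁) (b := E₂) he),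
      hy σ hσ fun e he => hE e (le_sup_right (a := E₁) (b := E₂) he)]
  algebraMap_mem' := fun r => ⟨⊥, inferInstance, fun σ _ _ => σ.commutes r⟩
  inv_mem' := by
    rintro x ⟨E, h, hx⟩
    exact ⟨E, h, fun σ hσ hE => by rw [map_inv₀, hx σ hσ hE]⟩

omit [DecidableEq Fb] in
theorem mem_smoothField {D : Subgroup (Fb ≃ₐ[F0] Fb)} {z : Fb} :
    z ∈ smoothField D ↔ ∃ E : IntermediateField ℚ Qb, FiniteDimensional ℚ E ∧
      ∀ σ ∈ D, (∀ e ∈ E, res Fb σ e = e) → σ z = z := Iff.rfl

theorem isIntegral_Qb (c : Qb) : IsIntegral ℚ c := by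
  have h := isAlgClosure_rat
  have h2 : Algebra.IsAlgebraic ℚ Qb := h.isAlgebraic
  exact (h2.isAlgebraic c).isIntegral

omit [DecidableEq Fb] in
/-- Constants are smooth. -/
theorem const_mem_smoothField (D : Subgroup (Fb ≃ₐ[F0] Fb)) (c : Qb) :
    algebraMap Qb Fb c ∈ smoothField D := by
  refine ⟨IntermediateField.adjoin ℚ {c},
    IntermediateField.adjoin.finiteDimensional (isIntegral_Qb c), fun σ _ hE => ?_⟩
  rw [← algebraMap_res, hE c (IntermediateField.mem_adjoin_simple_self ℚ c)]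

/-- **(D-d)** The decomposition group of the place acts smoothly on `Ω`. -/
theorem omega_smooth (A B : F0) (s₁ : ℚ)
    (hΔ : 4 * ev A s₁ ^ 3 + 27 * ev B s₁ ^ 2 ≠ 0) (n : ℕ) (hn : 0 < n)
    (pr : PlaceRed Fb A B s₁ n) :
    ∀ z ∈ OmegaF Fb A B n, ∃ E : IntermediateField ℚ Qb, FiniteDimensional ℚ E ∧
      ∀ σ ∈ decomp Fb pr.O, (∀ e ∈ E, res Fb σ e = e) → σ z = z := by
  classical
  have hle : OmegaF Fb A B n ≤ smoothField (decomp Fb pr.O) := by
    unfold OmegaF
    rw [IntermediateField.adjoin_le_iff]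
    rintro x (⟨c, rfl⟩ | ⟨P, rfl⟩)
    · exact const_mem_smoothField _ c
    · -- the field of definition of `V`
      have hΔ' : ((shortW (ev A s₁) (ev B s₁)).toAffine⁄Qb).Δ ≠ 0 := by
        have h1 : ((shortW (ev A s₁) (ev B s₁)).toAffine⁄Qb).Δ
            = algebraMap ℚ Qb ((shortW (ev A s₁) (ev B s₁)).Δ) := by
          simp [WeierstrassCurve.baseChange, WeierstrassCurve.map_Δ]
        rw [h1]
        have h2 : (shortW (ev A s₁) (ev B s₁)).Δ = -16 * (4 * ev A s₁ ^ 3 + 27 * ev B s₁ ^ 2) := by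
          simp [shortW, WeierstrassCurve.Δ, WeierstrassCurve.b₂, WeierstrassCurve.b₄,
            WeierstrassCurve.b₆, WeierstrassCurve.b₈]
          ring
        rw [h2]
        intro h0
        have := (map_eq_zero_iff (algebraMap ℚ Qb) (algebraMap ℚ Qb).injective).mp h0
        exact hΔ (by linarith)
      have hnQ : ((n : ℕ) : Qb) ≠ 0 := by exact_mod_cast hn.ne'
      have hfin : Finite (V (ev A s₁) (ev B s₁) n) :=
        Fermat.Agent.EC.Tor.Main.finite_torsion _ hΔ' hnQ
      set T : Set Qb :=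
        (Set.range fun v : V (ev A s₁) (ev B s₁) n =>
            xOf (v : ((shortW (ev A s₁) (ev B s₁)).toAffine⁄Qb).Point)) ∪
          (Set.range fun v : V (ev A s₁) (ev B s₁) n =>
            yOf (v : ((shortW (ev A s₁) (ev B s₁)).toAffine⁄Qb).Point)) with hT
      have hTfin : T.Finite := (Set.finite_range _).union (Set.finite_range _)
      have : Finite T := hTfin.to_subtype
      refine ⟨IntermediateField.adjoin ℚ T,
        IntermediateField.finiteDimensional_adjoin fun x _ => isIntegral_Qb x,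
        fun σ hσ hE => ?_⟩
      have hfix : ∀ v : V (ev A s₁) (ev B s₁) n, res Fb σ • v = v := by
        intro v
        apply Subtype.ext
        show res Fb σ • (v : ((shortW (ev A s₁) (ev B s₁)).toAffine⁄Qb).Point) = v
        apply smul_eq_self_of_coord
        · exact hE _ (IntermediateField.subset_adjoin ℚ T (Or.inl ⟨v, rfl⟩))
        · exact hE _ (IntermediateField.subset_adjoin ℚ T (Or.inr ⟨v, rfl⟩))
      have hP : σ • P = P := by
        have h1 := pr.equiv σ hσ (pr.φ.symm P)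
        rwa [hfix, AddEquiv.apply_symm_apply] at h1
      have h2 := xOf_smul σ (P : ((genW A B).toAffine⁄Fb).Point)
      have h3 : ((σ • P : U Fb A B n) : ((genW A B).toAffine⁄Fb).Point)
          = σ • (P : ((genW A B).toAffine⁄Fb).Point) := rfl
      rw [← h2, ← h3, hP]
  intro z hz
  exact hle hz

end omega

end Fermat.Agent.SW.K1.FieldsCD
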