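/-
MOONSHOT S52, block K1, leaf D (FIELDS), step (D3): the geometric part `N = H ⊓ ker res` of the
twist group is exactly the pointwise fixer of `Ω = OmegaF Fb A B n`.

* `eq_or_eq_neg_of_xOf_eq` : two nonzero points with the same `x`-coordinate are equal or opposite;
* `forall_eq_or_forall_eq_neg` : an additive endomorphism with `f u ∈ {u, -u}` for all `u` is `±1`;
* `mem_N_iff` : `σ ∈ (twistData pr).N ↔ ∀ z ∈ OmegaF Fb A B n, σ z = z`;
* `fixed_by_H_iff_of_fixedField` : the conjunct (D-b) of `LeafD`, given the Galois correspondence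
  for `Ω` in elementwise form.
-/
import Fermat.Agent.SW.K1.FieldsCD

set_option autoImplicit false
set_option linter.unusedSectionVars false

open WeierstrassCurve WeierstrassCurve.Affine Polynomial

namespace Fermat.Agent.SW.K1.FieldsN

open Fermat.Agent.SW.Contracts Fermat.Agent.SW.K1 Fermat.Agent.SW.K1.Leaves
open Fermat.Agent.SW.K1.FieldsCD

section general

variable {K : Type*} [Field K] [DecidableEq K] {W : Affine K}

theorem xOf_neg (P : W.Point) : xOf (-P) = xOf P := by
  rcases P with _ | ⟨x, y, h⟩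
  · rfl
  · rfl

/-- Two nonzero points with the same `x`-coordinate are equal or opposite. -/
theorem eq_or_eq_neg_of_xOf_eq (P Q : W.Point) (hP : P ≠ 0) (hQ : Q ≠ 0) (h : xOf P = xOf Q) :
    P = Q ∨ P = -Q := by
  rcases P with _ | ⟨x₁, y₁, h₁⟩
  · exact absurd rfl hP
  rcases Q with _ | ⟨x₂, y₂, h₂⟩
  · exact absurd rfl hQ
  have hx : x₁ = x₂ := h
  subst hx
  rcases Y_eq_of_X_eq h₁.1 h₂.1 rfl with hy | hy
  · left
    subst hy
    rfl
  · right
    rw [Point.neg_some]
    simp only [Point.some.injEq, true_and]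
    exact hy

/-- An additive endomorphism with `f u ∈ {u, -u}` for every `u` is `1` or `-1`. -/
theorem forall_eq_or_forall_eq_neg {U : Type*} [AddCommGroup U] (f : U →+ U)
    (h : ∀ u, f u = u ∨ f u = -u) : (∀ u, f u = u) ∨ (∀ u, f u = -u) := by
  by_contra hcon
  rw [not_or] at hcon
  obtain ⟨hc1, hc2⟩ := hcon
  rw [not_forall] at hc1 hc2
  obtain ⟨a, ha⟩ := hc1
  obtain ⟨b, hb⟩ := hc2
  have ha' : f a = -a := (h a).resolve_left ha
  have hb' : f b = b := (h b).resolve_right hb
  have hab : f (a + b) = -a + b := by rw [map_add, ha', hb']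
  rcases h (a + b) with h1 | h1
  · -- `-a + b = a + b`
    rw [hab] at h1
    have : -a = a := add_right_cancel h1
    exact ha (by rw [ha', this])
  · -- `-a + b = -(a + b)`
    rw [hab, neg_add] at h1
    have : b = -b := add_left_cancel h1
    exact hb (by rw [hb', ← this])

end general

section omega

variable {Fb : Type} [Field Fb] [Algebra F0 Fb] [Algebra Qb Fb] [CharZero Fb] [DecidableEq Fb]

/-- The fixed field of a single automorphism. -/
def fixField (σ : Fb ≃ₐ[F0] Fb) : IntermediateField F0 Fb where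
  carrier := {z | σ z = z}
  mul_mem' := by
    intro x y hx hy
    show σ (x * y) = x * y
    rw [map_mul, show σ x = x from hx, show σ y = y from hy]
  add_mem' := by
    intro x y hx hy
    show σ (x + y) = x + y
    rw [map_add, show σ x = x from hx, show σ y = y from hy]
  algebraMap_mem' := fun r => σ.commutes r
  inv_mem' := by
    intro x hx
    show σ x⁻¹ = x⁻¹
    rw [map_inv₀, show σ x = x from hx]

theorem mem_fixField {σ : Fb ≃ₐ[F0] Fb} {z : Fb} : z ∈ fixField σ ↔ σ z = z := Iff.rfl

/-- **(D3)** `N = H ⊓ ker res` is the pointwise fixer of `Ω`. -/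
theorem mem_N_iff {A B : F0} {s₁ : ℚ} {n : ℕ} (pr : PlaceRed Fb A B s₁ n)
    (σ : Fb ≃ₐ[F0] Fb) :
    σ ∈ (twistData pr).N ↔ ∀ z ∈ OmegaF Fb A B n, σ z = z := by
  rw [Twist.TwistData.mem_N]
  constructor
  · rintro ⟨hres, hU⟩
    have hres' : res Fb σ = 1 := hres
    have hle : OmegaF Fb A B n ≤ fixField σ := by
      unfold OmegaF
      rw [IntermediateField.adjoin_le_iff]
      rintro x (⟨c, rfl⟩ | ⟨P, rfl⟩)
      · show σ (algebraMap Qb Fb c) = algebraMap Qb Fb c
        rw [← algebraMap_res, hres']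
        rfl
      · show σ (xOf (P : ((genW A B).toAffine⁄Fb).Point)) = xOf (P : ((genW A B).toAffine⁄Fb).Point)
        rw [← xOf_smul]
        have h3 : σ • (P : ((genW A B).toAffine⁄Fb).Point)
            = ((σ • P : U Fb A B n) : ((genW A B).toAffine⁄Fb).Point) := rfl
        rcases hU with h | h
        · rw [h3, h P]
        · rw [h3, h P, Submodule.coe_neg, xOf_neg]
    intro z hz
    exact hle hz
  · intro hfix
    have hres : res Fb σ = 1 := by
      apply res_unique
      intro z
      have hz : algebraMap Qb Fb z ∈ OmegaF Fb A B n :=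
        IntermediateField.subset_adjoin F0 _ (Or.inl ⟨z, rfl⟩)
      rw [hfix _ hz]
      rfl
    refine ⟨hres, ?_⟩
    have key : ∀ u : U Fb A B n, σ • u = u ∨ σ • u = -u := by
      intro u
      by_cases hu : u = 0
      · left
        rw [hu, smul_zero]
      have hu' : (u : ((genW A B).toAffine⁄Fb).Point) ≠ 0 := fun h => hu (Subtype.ext h)
      have hσu : σ • u ≠ 0 := fun h => hu ((smul_eq_zero_iff_eq σ).mp h)
      have hσu' : ((σ • u : U Fb A B n) : ((genW A B).toAffine⁄Fb).Point) ≠ 0 :=
        fun h => hσu (Subtype.ext h)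
      have hx : xOf ((σ • u : U Fb A B n) : ((genW A B).toAffine⁄Fb).Point)
          = xOf (u : ((genW A B).toAffine⁄Fb).Point) := by
        have h3 : ((σ • u : U Fb A B n) : ((genW A B).toAffine⁄Fb).Point)
            = σ • (u : ((genW A B).toAffine⁄Fb).Point) := rfl
        rw [h3, xOf_smul]
        exact hfix _ (IntermediateField.subset_adjoin F0 _ (Or.inr ⟨u, rfl⟩))
      rcases eq_or_eq_neg_of_xOf_eq _ _ hσu' hu' hx with h | h
      · left
        exact Subtype.ext h
      · right
        apply Subtype.ext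
        rw [h, Submodule.coe_neg]
    exact forall_eq_or_forall_eq_neg (DistribSMul.toAddMonoidHom (U Fb A B n) σ) key

/-- **(D-b)** of `LeafD`, from (D3), `H = D · N` and the Galois correspondence for `Ω` (in
elementwise form: an element fixed by every automorphism fixing `Ω` pointwise lies in `Ω`). -/
theorem fixed_by_H_iff_of_fixedField {A B : F0} {s₁ : ℚ} {n : ℕ} (pr : PlaceRed Fb A B s₁ n)
    (hgal : ∀ z : Fb, (∀ σ : Fb ≃ₐ[F0] Fb, (∀ w ∈ OmegaF Fb A B n, σ w = w) → σ z = z) →
      z ∈ OmegaF Fb A B n) (z : Fb) :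
    (∀ τ ∈ (twistData pr).H, τ z = z) ↔
      (z ∈ OmegaF Fb A B n ∧ ∀ τ ∈ decomp Fb pr.O, τ z = z) := by
  constructor
  · intro h
    refine ⟨hgal z fun σ hσ => h σ ?_, fun τ hτ => h τ ((twistData pr).D_le_H hτ)⟩
    exact (twistData pr).N_le_H ((mem_N_iff pr σ).mpr hσ)
  · rintro ⟨hz, hD⟩ τ hτ
    obtain ⟨d, hd, m, hm, rfl⟩ := (twistData pr).exists_mul_of_mem_H hτ
    show d (m z) = z
    rw [(mem_N_iff pr m).mp hm z hz]
    exact hD d hd

end omega

end Fermat.Agent.SW.K1.FieldsN
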