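/-
MOONSHOT S52, block K1: the literal leaf D (FIELDS).

`leafD : Leaves.LeafD` from helper2's `FieldsAB.leafD_of_CD` ((D-a) closedness of `H`, (D-b)
`Fb^H = Ω^D`) and helper25's `FieldsCD.omega_stable`, `FieldsCD.omega_smooth`, `FieldsN.mem_N_iff`.
-/
import Fermat.Agent.SW.K1.FieldsAB
import Fermat.Agent.SW.K1.FieldsN

set_option autoImplicit false

namespace Fermat.Agent.SW.K1.LeafD

open Fermat.Agent.SW.K1

/-- **Leaf D (FIELDS)**, literal. -/
theorem leafD : Leaves.LeafD :=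
  FieldsAB.leafD_of_CD
    (fun _ _ _ _ _ _ _ A B n σ => FieldsCD.omega_stable A B n σ)
    (fun _ _ _ _ _ _ _ A B s₁ hΔ n hn pr => FieldsCD.omega_smooth A B s₁ hΔ n hn pr)
    (fun _ _ _ _ _ _ _ _ _ _ _ pr σ => FieldsN.mem_N_iff pr σ)

end Fermat.Agent.SW.K1.LeafD
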