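import Mathlib
import Fermat.Prelude.Def_FLTPrelim_Modularity

/-!
# MOONSHOT S52, block K1, leaf J: a semistable integral model has `c₄ ≠ 0` and `c₆ ≠ 0`

`W : WeierstrassCurve ℤ` with `W.Δ ≠ 0` and `W.IsSemistableModel` (every prime dividing `Δ` does
not divide `c₄`).  Then `c₄ ≠ 0` and `c₆ ≠ 0` (i.e. `j ∉ {0, 1728}`):

* `c₄ = 0`: no prime divides `Δ`, so `Δ = ±1` and `c₆² = ∓1728`, impossible;
* `c₆ = 0`: `c₄³ = 1728 Δ`; a prime `p ∣ Δ` would divide `c₄`; so `Δ = ±1`, `c₄ = ±12`,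
  `b₂² = ±12 + 24 b₄`, impossible modulo `16` resp. `2` because `b₂ = a₁² + 4 a₂`.

Consequences in the normalisation `a = -27 c₄`, `b = -54 c₆` of `SW/Contracts`.
-/

set_option autoImplicit false

namespace Fermat.Agent.SW.K1.LeafJ

open WeierstrassCurve

/-- An integer without prime divisors is `±1`. -/
theorem eq_one_or_neg_one_of_no_prime_dvd {d : ℤ} (h : ∀ p : ℕ, p.Prime → ¬ (p : ℤ) ∣ d) :
    d = 1 ∨ d = -1 := by
  by_contra hne
  have h1 : d.natAbs ≠ 1 := by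
    intro h1
    exact hne (Int.natAbs_eq_iff.mp h1)
  obtain ⟨p, hp, hpd⟩ := Nat.exists_prime_and_dvd h1
  exact h p hp (Int.natCast_dvd.mpr hpd)

/-- `1728` is not a square. -/
theorem sq_ne_1728 (c : ℤ) : c ^ 2 ≠ 1728 := by
  intro h
  have h1 : c.natAbs ^ 2 = 1728 := by
    have : ((c.natAbs ^ 2 : ℕ) : ℤ) = 1728 := by
      push_cast
      rw [sq_abs]
      exact h
    exact_mod_cast this
  have h2 : c.natAbs ≤ 41 := by nlinarith
  generalize c.natAbs = n at h1 h2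
  interval_cases n <;> omega

/-- A cube equal to `1728` is the cube of `12`. -/
theorem eq_twelve_of_cube {c : ℤ} (h : c ^ 3 = 1728) : c = 12 := by
  have h0 : 0 < c := by
    by_contra hn
    have : c ≤ 0 := not_lt.mp hn
    have : c ^ 3 ≤ 0 := by
      have : c ^ 3 = c * c ^ 2 := by ring
      rw [this]
      exact mul_nonpos_of_nonpos_of_nonneg ‹c ≤ 0› (sq_nonneg c)
    omega
  have h1 : c ≤ 12 := by
    by_contra hn
    have h13 : 13 ≤ c := by omega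
    have : (13 : ℤ) ^ 3 ≤ c ^ 3 := pow_le_pow_left₀ (by norm_num) h13 3
    omega
  interval_cases c <;> omega

theorem eq_neg_twelve_of_cube {c : ℤ} (h : c ^ 3 = -1728) : c = -12 := by
  have : (-c) ^ 3 = 1728 := by
    have : (-c) ^ 3 = -(c ^ 3) := by ring
    rw [this, h]
    norm_num
  have := eq_twelve_of_cube this
  omega

/-- `c₄ = ±12` is impossible for an integral Weierstrass equation. -/
theorem c₄_ne_twelve (W : WeierstrassCurve ℤ) : W.c₄ ≠ 12 ∧ W.c₄ ≠ -12 := by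
  have hc4 : W.c₄ = W.b₂ ^ 2 - 24 * W.b₄ := rfl
  have hb2 : W.b₂ = W.a₁ ^ 2 + 4 * W.a₂ := rfl
  rcases Int.even_or_odd' W.a₁ with ⟨m, hm | hm⟩
  · -- `a₁ = 2 m`, `b₂ = 4 n`
    have h4 : W.b₂ = 4 * (m ^ 2 + W.a₂) := by rw [hb2, hm]; ring
    have h5 : W.c₄ = 16 * (m ^ 2 + W.a₂) ^ 2 - 24 * W.b₄ := by rw [hc4, h4]; ring
    generalize (m ^ 2 + W.a₂) ^ 2 = N at h5
    constructor <;> intro h <;> omega
  · -- `a₁ = 2 m + 1`, `b₂` odd
    have h4 : W.b₂ = 2 * (2 * m ^ 2 + 2 * m + 2 * W.a₂) + 1 := by rw [hb2, hm]; ring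
    have h5 : W.c₄ = 4 * ((2 * m ^ 2 + 2 * m + 2 * W.a₂) ^ 2 + (2 * m ^ 2 + 2 * m + 2 * W.a₂)) + 1
        - 24 * W.b₄ := by rw [hc4, h4]; ring
    generalize (2 * m ^ 2 + 2 * m + 2 * W.a₂) ^ 2 + (2 * m ^ 2 + 2 * m + 2 * W.a₂) = N at h5
    constructor <;> intro h <;> omega

/-- **Leaf J.** A semistable integral Weierstrass model with `Δ ≠ 0` has `c₄ ≠ 0` and `c₆ ≠ 0`. -/
theorem c₄_ne_zero_and_c₆_ne_zero (W : WeierstrassCurve ℤ) (_hΔ : W.Δ ≠ 0)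
    (hss : W.IsSemistableModel) : W.c₄ ≠ 0 ∧ W.c₆ ≠ 0 := by
  have hrel : 1728 * W.Δ = W.c₄ ^ 3 - W.c₆ ^ 2 := W.c_relation
  constructor
  · intro h4
    have hno : ∀ p : ℕ, p.Prime → ¬ (p : ℤ) ∣ W.Δ := by
      intro p hp hpd
      exact hss p hp hpd (by rw [h4]; exact dvd_zero _)
    rw [h4] at hrel
    rcases eq_one_or_neg_one_of_no_prime_dvd hno with h1 | h1
    · rw [h1] at hrel
      nlinarith [sq_nonneg W.c₆]
    · rw [h1] at hrel
      exact sq_ne_1728 W.c₆ (by linarith)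
  · intro h6
    rw [h6] at hrel
    have hno : ∀ p : ℕ, p.Prime → ¬ (p : ℤ) ∣ W.Δ := by
      intro p hp hpd
      apply hss p hp hpd
      have h1 : (p : ℤ) ∣ W.c₄ ^ 3 := by
        have : W.c₄ ^ 3 = 1728 * W.Δ := by linarith
        rw [this]
        exact Dvd.dvd.mul_left hpd _
      exact Int.Prime.dvd_pow' hp h1
    rcases eq_one_or_neg_one_of_no_prime_dvd hno with h1 | h1
    · rw [h1] at hrel
      exact (c₄_ne_twelve W).1 (eq_twelve_of_cube (by linarith))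
    · rw [h1] at hrel
      exact (c₄_ne_twelve W).2 (eq_neg_twelve_of_cube (by linarith))

/-- In the normalisation of `SW/Contracts` (`a = -27 c₄`, `b = -54 c₆` in `ℚ`): `a ≠ 0`, `b ≠ 0`
and `4 a³ + 27 b² ≠ 0`. -/
theorem short_coeffs_ne_zero (W : WeierstrassCurve ℤ) (hΔ : W.Δ ≠ 0)
    (hss : W.IsSemistableModel) :
    (-27 * (W.c₄ : ℚ) ≠ 0) ∧ (-54 * (W.c₆ : ℚ) ≠ 0) ∧
      4 * (-27 * (W.c₄ : ℚ)) ^ 3 + 27 * (-54 * (W.c₆ : ℚ)) ^ 2 ≠ 0 := by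
  obtain ⟨h4, h6⟩ := c₄_ne_zero_and_c₆_ne_zero W hΔ hss
  refine ⟨?_, ?_, ?_⟩
  · exact mul_ne_zero (by norm_num) (by exact_mod_cast h4)
  · exact mul_ne_zero (by norm_num) (by exact_mod_cast h6)
  · have hrel : (1728 : ℚ) * W.Δ = (W.c₄ : ℚ) ^ 3 - (W.c₆ : ℚ) ^ 2 := by
      exact_mod_cast W.c_relation
    have e : 4 * (-27 * (W.c₄ : ℚ)) ^ 3 + 27 * (-54 * (W.c₆ : ℚ)) ^ 2
        = -(78732 * 1728) * (W.Δ : ℚ) := by
      linear_combination (78732 : ℚ) * hrel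
    rw [e]
    exact mul_ne_zero (by norm_num) (by exact_mod_cast hΔ)

end Fermat.Agent.SW.K1.LeafJ
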