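import Fermat.Agent.SW.K1.Leaves
import Fermat.Agent.LR.VarChangePoint

/-!
# MOONSHOT S52, block K1: leaf S (the `s`-structure) and the point bridge for leaf Psi

`Fb` is a field with an `F0 = ℚ(X)`-algebra structure (`X ↦ λ`), `s : Fb` is transcendental over
`ℚ` and `λ = L(s)` for some `L : F0`.  For the second structure `SStr Fb (sHom s hs)` (`X ↦ s`):

* `subst : F0 →+* F0` (`g ↦ g(L)`), with `sHom s hs (subst g) = algebraMap F0 Fb g`;
* `isAlgClosure` : `SStr Fb (sHom s hs)` is an algebraic closure of `F0`;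
* `toOld : (SStr ≃ₐ[F0] SStr) →* (Fb ≃ₐ[F0] Fb)` (same underlying map), injective, with range the
  stabiliser of `s`; compatibility with `res` and with `decomp`;
* **`leafS : Leaves.LeafS`**;
* `pointsEquiv` : the points of `W₀⁄Fb` (old structure) and of `(W₀.map subst)⁄SStr`
  (new structure) are the same, compatibly with the Prelude Galois actions through `toOld`
  (`pointsEquiv_smul`, `torsionEquiv`, `torsionEquiv_smul`).
-/

set_option autoImplicit false

open Polynomial WeierstrassCurve WeierstrassCurve.Affine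

namespace Fermat.Agent.SW.K1.LeafS21

open Fermat.Agent.SW.Contracts Fermat.Agent.SW.K1

variable {Fb : Type} [Field Fb] [CharZero Fb] (s : Fb) (hs : Transcendental ℚ s)

/-- `sHom` as an isomorphism onto its range. -/
noncomputable def sEquiv : F0 ≃+* (sHom s hs).fieldRange :=
  RingEquiv.ofBijective (sHom s hs).rangeRestrictField
    ⟨fun _ _ h => (sHom s hs).injective (congrArg Subtype.val h), fun ⟨_, f, hf⟩ =>
      ⟨f, Subtype.ext hf⟩⟩

theorem coe_sEquiv (f : F0) : ((sEquiv s hs f : (sHom s hs).fieldRange) : Fb) = sHom s hs f := rfl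

theorem sHom_sEquiv_symm (w : (sHom s hs).fieldRange) :
    sHom s hs ((sEquiv s hs).symm w) = w := by
  rw [← coe_sEquiv, RingEquiv.apply_symm_apply]

section old

variable [Algebra F0 Fb] (L : F0) (hL : sHom s hs L = algebraMap F0 Fb RatFunc.X)

include hL in
/-- The old structure map has values in the range of `sHom`. -/
theorem algebraMap_mem (g : F0) : algebraMap F0 Fb g ∈ (sHom s hs).fieldRange := by
  have hX : algebraMap F0 Fb RatFunc.X ∈ (sHom s hs).fieldRange := ⟨L, hL⟩
  have key : ∀ p : ℚ[X], algebraMap F0 Fb (algebraMap ℚ[X] F0 p) ∈ (sHom s hs).fieldRange := by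
    intro p
    induction p using Polynomial.induction_on' with
    | add p q hp hq => rw [map_add, map_add]; exact add_mem hp hq
    | monomial n a =>
      rw [← C_mul_X_pow_eq_monomial, map_mul, map_pow, map_mul, map_pow, RatFunc.algebraMap_C,
        RatFunc.algebraMap_X]
      refine mul_mem ?_ (pow_mem hX n)
      refine ⟨RatFunc.C a, ?_⟩
      rw [sHom_C]
      exact (RingHom.congr_fun
        (Subsingleton.elim ((algebraMap F0 Fb).comp RatFunc.C) (Rat.castHom Fb)) a).symm
  rw [← RatFunc.num_div_denom g, map_div₀]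
  exact div_mem (key _) (key _)

/-- The substitution `g ↦ g(L)`: the old structure map, read in `ℚ(s) ≅ F0`. -/
noncomputable def subst : F0 →+* F0 :=
  ((sEquiv s hs).symm : (sHom s hs).fieldRange →+* F0).comp
    ((algebraMap F0 Fb).codRestrict (sHom s hs).fieldRange (algebraMap_mem s hs L hL))

theorem sHom_subst (g : F0) : sHom s hs (subst s hs L hL g) = algebraMap F0 Fb g := by
  simp only [subst, RingHom.coe_comp, Function.comp_apply, RingHom.coe_coe]
  rw [sHom_sEquiv_symm]
  rfl

theorem algebraMap_subst (g : F0) :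
    algebraMap F0 (SStr Fb (sHom s hs)) (subst s hs L hL g) =
      SStr.toS (sHom s hs) (algebraMap F0 Fb g) :=
  sHom_subst s hs L hL g

theorem subst_C (a : ℚ) : subst s hs L hL (RatFunc.C a) = RatFunc.C a :=
  RingHom.congr_fun (Subsingleton.elim ((subst s hs L hL).comp RatFunc.C) RatFunc.C) a

theorem subst_X : subst s hs L hL RatFunc.X = L := by
  apply (sHom s hs).injective
  rw [sHom_subst, hL]

theorem genW_map_subst (A B : F0) :
    (genW A B).map (subst s hs L hL) = genW (subst s hs L hL A) (subst s hs L hL B) := by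
  ext <;> simp [genW]

include hL in
/-- `SStr Fb (sHom s hs)` is an algebraic closure of `ℚ(X)` for the structure `X ↦ s`. -/
theorem isAlgClosure [IsAlgClosure F0 Fb] : IsAlgClosure F0 (SStr Fb (sHom s hs)) where
  isAlgClosed := by
    have : IsAlgClosed Fb := IsAlgClosure.isAlgClosed F0
    exact inferInstanceAs (IsAlgClosed Fb)
  isAlgebraic := by
    have : Algebra.IsAlgebraic F0 Fb := IsAlgClosure.isAlgebraic
    refine Algebra.IsAlgebraic.ringHom_of_comp_eq (subst s hs L hL) (SStr.toS (sHom s hs))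
      (subst s hs L hL).injective (SStr.toS (sHom s hs)).surjective ?_
    ext g
    exact algebraMap_subst s hs L hL g

/-- An automorphism for the new structure `X ↦ s` is an automorphism for the old one
(same underlying map). -/
noncomputable def toOld :
    (SStr Fb (sHom s hs) ≃ₐ[F0] SStr Fb (sHom s hs)) →* (Fb ≃ₐ[F0] Fb) where
  toFun σ :=
    { ((SStr.toS (sHom s hs)).trans σ.toRingEquiv).trans (SStr.toS (sHom s hs)).symm with
      commutes' := fun g => by
        show (SStr.toS (sHom s hs)).symm (σ (SStr.toS (sHom s hs) (algebraMap F0 Fb g))) =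
          algebraMap F0 Fb g
        rw [← algebraMap_subst s hs L hL g, σ.commutes, algebraMap_subst]
        rfl }
  map_one' := by ext x; rfl
  map_mul' := fun σ τ => by ext x; rfl

theorem toOld_apply (σ : SStr Fb (sHom s hs) ≃ₐ[F0] SStr Fb (sHom s hs)) (x : Fb) :
    toOld s hs L hL σ x = (SStr.toS (sHom s hs)).symm (σ (SStr.toS (sHom s hs) x)) := rfl

theorem toS_toOld (σ : SStr Fb (sHom s hs) ≃ₐ[F0] SStr Fb (sHom s hs)) (x : Fb) :
    SStr.toS (sHom s hs) (toOld s hs L hL σ x) = σ (SStr.toS (sHom s hs) x) := rfl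

theorem toOld_injective : Function.Injective (toOld s hs L hL) := by
  intro σ τ h
  ext x
  have := DFunLike.congr_fun h ((SStr.toS (sHom s hs)).symm x)
  exact this

/-- `toOld σ` fixes the range of `sHom` pointwise. -/
theorem toOld_sHom (σ : SStr Fb (sHom s hs) ≃ₐ[F0] SStr Fb (sHom s hs)) (f : F0) :
    toOld s hs L hL σ (sHom s hs f) = sHom s hs f := by
  have h : SStr.toS (sHom s hs) (sHom s hs f) = algebraMap F0 (SStr Fb (sHom s hs)) f := rfl
  rw [toOld_apply, h, σ.commutes, ← h]
  rfl

theorem toOld_s (σ : SStr Fb (sHom s hs) ≃ₐ[F0] SStr Fb (sHom s hs)) :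
    toOld s hs L hL σ s = s := by
  have := toOld_sHom s hs L hL σ RatFunc.X
  rwa [sHom_X] at this

/-- Decomposition groups are the same for both structures. -/
theorem toOld_mem_decomp (O : ValuationSubring Fb)
    (σ : SStr Fb (sHom s hs) ≃ₐ[F0] SStr Fb (sHom s hs)) :
    toOld s hs L hL σ ∈ decomp Fb O ↔ σ ∈ decomp (SStr Fb (sHom s hs)) O := Iff.rfl

variable [Algebra Qb Fb]

/-- Restriction to the constants is the same for both structures. -/
theorem res_toOld (σ : SStr Fb (sHom s hs) ≃ₐ[F0] SStr Fb (sHom s hs)) :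
    res Fb (toOld s hs L hL σ) = res (SStr Fb (sHom s hs)) σ := by
  apply res_unique
  intro z
  exact algebraMap_res (Fb := SStr Fb (sHom s hs)) σ z

end old

section points

open Fermat.Agent.LR.VarChangePoint

variable [Algebra F0 Fb] (L : F0) (hL : sHom s hs L = algebraMap F0 Fb RatFunc.X)

/-- A curve over `Fb`, seen over `SStr Fb (sHom s hs)` (same coefficients). -/
def asS (W : WeierstrassCurve Fb) : WeierstrassCurve (SStr Fb (sHom s hs)) := W

/-- The base change of `W₀.map subst` along the new structure is the base change of `W₀` along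
the old one. -/
theorem baseChange_subst (W₀ : WeierstrassCurve F0) :
    (W₀.map (subst s hs L hL)).baseChange (SStr Fb (sHom s hs)) = asS s hs (W₀.baseChange Fb) := by
  show (W₀.map (subst s hs L hL)).map (algebraMap F0 (SStr Fb (sHom s hs))) =
    asS s hs (W₀.map (algebraMap F0 Fb))
  rw [WeierstrassCurve.map_map]
  have : (algebraMap F0 (SStr Fb (sHom s hs))).comp (subst s hs L hL) =
      ((SStr.toS (sHom s hs) : Fb →+* SStr Fb (sHom s hs))).comp (algebraMap F0 Fb) := by
    ext g
    exact sHom_subst s hs L hL g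
  rw [this]
  rfl

variable [DecidableEq Fb]

/-- The identity on points, from a curve over `Fb` to the same curve seen over `SStr`. -/
noncomputable def pointAsS (W : WeierstrassCurve Fb) :
    W.toAffine.Point ≃+ (asS s hs W).toAffine.Point := AddEquiv.refl _

/-- The points of `W₀` over `Fb` (old structure) are the points of `W₀.map subst` over
`SStr Fb (sHom s hs)` (new structure). -/
noncomputable def pointsEquiv (W₀ : WeierstrassCurve F0) :
    (W₀.toAffine⁄Fb).Point ≃+
      ((W₀.map (subst s hs L hL)).toAffine⁄(SStr Fb (sHom s hs))).Point :=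
  (pointAsS s hs (W₀.baseChange Fb)).trans
    (pointCast (F := SStr Fb (sHom s hs)) (baseChange_subst s hs L hL W₀).symm)

theorem pointsEquiv_zero (W₀ : WeierstrassCurve F0) : pointsEquiv s hs L hL W₀ 0 = 0 :=
  map_zero _

theorem pointsEquiv_some (W₀ : WeierstrassCurve F0) {x y : Fb}
    (h : (W₀.toAffine⁄Fb).Nonsingular x y) :
    ∃ h', pointsEquiv s hs L hL W₀ (Point.some x y h) =
      Point.some (SStr.toS (sHom s hs) x) (SStr.toS (sHom s hs) y) h' := by
  have h' : ((W₀.map (subst s hs L hL)).toAffine⁄(SStr Fb (sHom s hs))).Nonsingular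
      (SStr.toS (sHom s hs) x) (SStr.toS (sHom s hs) y) := by
    show ((W₀.map (subst s hs L hL)).baseChange (SStr Fb (sHom s hs))).toAffine.Nonsingular _ _
    rw [baseChange_subst]
    exact h
  refine ⟨h', ?_⟩
  exact pointCast_some (F := SStr Fb (sHom s hs)) (baseChange_subst s hs L hL W₀).symm
    (x := SStr.toS (sHom s hs) x) (y := SStr.toS (sHom s hs) y)
    (show (asS s hs (W₀.baseChange Fb)).toAffine.Nonsingular (SStr.toS (sHom s hs) x)
      (SStr.toS (sHom s hs) y) from h)

open WeierstrassCurve.Affine.Point in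
/-- `pointsEquiv` commutes with the Prelude Galois actions (through `toOld`). -/
theorem pointsEquiv_smul (W₀ : WeierstrassCurve F0)
    (σ : SStr Fb (sHom s hs) ≃ₐ[F0] SStr Fb (sHom s hs)) (P : (W₀.toAffine⁄Fb).Point) :
    pointsEquiv s hs L hL W₀ (toOld s hs L hL σ • P) = σ • pointsEquiv s hs L hL W₀ P := by
  rcases P with _ | ⟨x, y, h⟩
  · show pointsEquiv s hs L hL W₀ (toOld s hs L hL σ • 0) = σ • pointsEquiv s hs L hL W₀ 0
    rw [smul_zero, pointsEquiv_zero, smul_zero]
  · obtain ⟨h1, e1⟩ := pointsEquiv_some s hs L hL W₀ h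
    have h2 : (W₀.toAffine⁄Fb).Nonsingular (toOld s hs L hL σ x) (toOld s hs L hL σ y) :=
      (W₀.toAffine.baseChange_nonsingular (toOld s hs L hL σ).toAlgHom.injective ..).mpr h
    have e2 : toOld s hs L hL σ • (Point.some x y h : (W₀.toAffine⁄Fb).Point) =
        Point.some (toOld s hs L hL σ x) (toOld s hs L hL σ y) h2 := rfl
    obtain ⟨h3, e3⟩ := pointsEquiv_some s hs L hL W₀ h2
    rw [e2, e3, e1]
    rfl

theorem xOf_pointsEquiv (W₀ : WeierstrassCurve F0) (P : (W₀.toAffine⁄Fb).Point) :
    xOf (pointsEquiv s hs L hL W₀ P) = SStr.toS (sHom s hs) (xOf P) := by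
  rcases P with _ | ⟨x, y, h⟩
  · show xOf (pointsEquiv s hs L hL W₀ 0) = SStr.toS (sHom s hs) 0
    rw [pointsEquiv_zero]
    rfl
  · obtain ⟨h1, e1⟩ := pointsEquiv_some s hs L hL W₀ h
    rw [e1]
    rfl

theorem yOf_pointsEquiv (W₀ : WeierstrassCurve F0) (P : (W₀.toAffine⁄Fb).Point) :
    yOf (pointsEquiv s hs L hL W₀ P) = SStr.toS (sHom s hs) (yOf P) := by
  rcases P with _ | ⟨x, y, h⟩
  · show yOf (pointsEquiv s hs L hL W₀ 0) = SStr.toS (sHom s hs) 0
    rw [pointsEquiv_zero]
    rfl
  · obtain ⟨h1, e1⟩ := pointsEquiv_some s hs L hL W₀ h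
    rw [e1]
    rfl

/-- `pointsEquiv` on `n`-torsion. -/
noncomputable def torsionEquiv (W₀ : WeierstrassCurve F0) (n : ℕ) :
    Submodule.torsionBy ℤ (W₀.toAffine⁄Fb).Point n ≃+
      Submodule.torsionBy ℤ
        ((W₀.map (subst s hs L hL)).toAffine⁄(SStr Fb (sHom s hs))).Point n where
  toFun P := ⟨pointsEquiv s hs L hL W₀ P.1, by
    have hP := P.2
    rw [Submodule.mem_torsionBy_iff] at hP ⊢
    rw [← map_zsmul, hP, map_zero]⟩
  invFun P := ⟨(pointsEquiv s hs L hL W₀).symm P.1, by
    have hP := P.2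
    rw [Submodule.mem_torsionBy_iff] at hP ⊢
    rw [← map_zsmul, hP, map_zero]⟩
  left_inv P := Subtype.ext ((pointsEquiv s hs L hL W₀).symm_apply_apply P.1)
  right_inv P := Subtype.ext ((pointsEquiv s hs L hL W₀).apply_symm_apply P.1)
  map_add' P Q := Subtype.ext (map_add (pointsEquiv s hs L hL W₀) P.1 Q.1)

theorem coe_torsionEquiv (W₀ : WeierstrassCurve F0) (n : ℕ)
    (P : Submodule.torsionBy ℤ (W₀.toAffine⁄Fb).Point n) :
    (torsionEquiv s hs L hL W₀ n P :
      ((W₀.map (subst s hs L hL)).toAffine⁄(SStr Fb (sHom s hs))).Point) =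
      pointsEquiv s hs L hL W₀ P.1 := rfl

open WeierstrassCurve.Affine.Point in
theorem torsionEquiv_smul (W₀ : WeierstrassCurve F0) (n : ℕ)
    (σ : SStr Fb (sHom s hs) ≃ₐ[F0] SStr Fb (sHom s hs))
    (P : Submodule.torsionBy ℤ (W₀.toAffine⁄Fb).Point n) :
    torsionEquiv s hs L hL W₀ n (toOld s hs L hL σ • P) = σ • torsionEquiv s hs L hL W₀ n P :=
  Subtype.ext (pointsEquiv_smul s hs L hL W₀ σ P.1)

end points

/-- **Leaf S.** -/
theorem leafS : Leaves.LeafS := by
  intro Fb _ _ _ _ _ s hs L hL
  refine ⟨isAlgClosure s hs L hL, fun σ' => ⟨toOld s hs L hL σ', fun x => rfl, ?_⟩⟩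
  exact (res_toOld s hs L hL σ').symm

end Fermat.Agent.SW.K1.LeafS21
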