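import Mathlib
import Fermat.Agent.Val.ResidueFieldA

/-!
# MOONSHOT S52, block K1, leaf PLACE (part 1): places of an algebraic extension over a rational
place

`K` a field containing `ℚ` (a function field), `O` a valuation subring of `K` which contains `ℚ`
and whose residue field is `ℚ` (`RatPlace O` : a place of degree one, trivial on the constants),
`L` an algebraic extension of `K` (later: an algebraic closure), `P` a valuation subring of `L`
with `P ∩ K = O`.

* `exists_over` : Chevalley, `∃ P, P.comap (algebraMap K L) = O`;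
* `RatPlace`, `RatPlace.rat_mem_over` : `ℚ ⊆ P`;
* `mem_of_isIntegral_rat` : the elements of `L` algebraic over `ℚ` (the constants) lie in `P`;
* `exists_unit_coeff_aeval_eq_zero` : an element of `L` algebraic over `K` is a root of a polynomial
  over `O` with a unit coefficient;
* `exists_rat_poly_residue_root` : every element of the residue field of `P` is a root of a nonzero
  polynomial with rational coefficients;
* `constField`, `resConst`, `resConst_bijective` (for `L` algebraically closed): the residue map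
  identifies the constants of `L` with the residue field of `P`.
-/

set_option autoImplicit false

open IsLocalRing Polynomial

namespace Fermat.Agent.SW.K1.Place

section Chevalley

variable {K L : Type*} [Field K] [Field L]

/-- Chevalley: every valuation subring of `K` is the restriction of a valuation subring of an
extension field. -/
theorem exists_over (f : K →+* L) (O : ValuationSubring K) :
    ∃ P : ValuationSubring L, P.comap f = O := by
  obtain ⟨W, h, hloc⟩ := IsLocalRing.exists_factor_valuationRing (f.comp O.subtype)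
  refine ⟨W, ?_⟩
  ext x
  constructor
  · intro hx
    by_contra hxO
    have hxinv : x⁻¹ ∈ O := (O.mem_or_inv_mem x).resolve_left hxO
    have hx0 : x ≠ 0 := fun h0 => hxO (h0 ▸ O.zero_mem)
    have hu : IsUnit ((f.comp O.subtype).codRestrict W.toSubring h ⟨x⁻¹, hxinv⟩) := by
      rw [isUnit_iff_exists_inv]
      refine ⟨⟨f x, hx⟩, Subtype.ext ?_⟩
      show f x⁻¹ * f x = 1
      rw [← map_mul, inv_mul_cancel₀ hx0, map_one]
    have hu' : IsUnit (⟨x⁻¹, hxinv⟩ : O) := hloc.map_nonunit _ hu
    obtain ⟨y, hy⟩ := isUnit_iff_exists_inv.mp hu'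
    have hy' : x⁻¹ * (y : K) = 1 := congrArg Subtype.val hy
    have : (y : K) = x := by
      have := congrArg (fun z => x * z) hy'
      simp only [← mul_assoc, mul_inv_cancel₀ hx0, one_mul, mul_one] at this
      exact this
    exact hxO (this ▸ y.2)
  · intro hx
    exact h ⟨x, hx⟩

end Chevalley

variable {K : Type*} [Field K] [Algebra ℚ K] {L : Type*} [Field L] [Algebra K L] [Algebra ℚ L]
  [IsScalarTower ℚ K L]

/-- A rational place: the valuation subring contains `ℚ` and its residue field is `ℚ`. -/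
structure RatPlace (O : ValuationSubring K) : Prop where
  rat_mem : ∀ q : ℚ, algebraMap ℚ K q ∈ O
  residue_surj : ∀ x : ResidueField O, ∃ q : ℚ, residue O ⟨algebraMap ℚ K q, rat_mem q⟩ = x

variable {O : ValuationSubring K} {P : ValuationSubring L}

/-- `ℚ ⊆ P` for `P` over a rational place. -/
theorem RatPlace.rat_mem_over (hO : RatPlace O) (hP : P.comap (algebraMap K L) = O) (q : ℚ) :
    algebraMap ℚ L q ∈ P := by
  have h := hO.rat_mem q
  rw [← hP, ValuationSubring.mem_comap, ← IsScalarTower.algebraMap_apply] at h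
  exact h

/-- The constants (elements integral over `ℚ`) lie in every valuation subring containing `ℚ`. -/
theorem mem_of_isIntegral_rat (hQ : ∀ q : ℚ, algebraMap ℚ L q ∈ P) {x : L}
    (hx : IsIntegral ℚ x) : x ∈ P := by
  obtain ⟨p, hp, hpx⟩ := hx
  let f : ℚ →+* P := (algebraMap ℚ L).codRestrict P.toSubring hQ
  have hf : (algebraMap P L).comp f = algebraMap ℚ L := by
    ext q
    rfl
  have h1 : IsIntegral P x := by
    refine ⟨p.map f, hp.map f, ?_⟩
    rw [eval₂_map, hf]
    exact hpx
  obtain ⟨y, hy⟩ := IsIntegrallyClosed.isIntegral_iff.mp h1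
  rw [← hy]
  exact y.2

omit [Algebra ℚ K] [Algebra ℚ L] [IsScalarTower ℚ K L] in
/-- An element of `L` algebraic over `K` is a root of a polynomial with coefficients in `O`, one
of which is `1`. -/
theorem exists_unit_coeff_aeval_eq_zero (O : ValuationSubring K) {x : L} (hx : IsAlgebraic K x) :
    ∃ g : K[X], (∀ i, g.coeff i ∈ O) ∧ (∃ j, g.coeff j = 1) ∧ aeval x g = 0 := by
  obtain ⟨g₀, hg₀, hg₀x⟩ := hx
  have hne : g₀.support.Nonempty := by
    rw [Finset.nonempty_iff_ne_empty, Ne, Polynomial.support_eq_empty]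
    exact hg₀
  obtain ⟨j, hj, hmax⟩ := Finset.exists_max_image g₀.support
    (fun i => O.valuation (g₀.coeff i)) hne
  have hc : g₀.coeff j ≠ 0 := Polynomial.mem_support_iff.mp hj
  refine ⟨C (g₀.coeff j)⁻¹ * g₀, fun i => ?_, ⟨j, ?_⟩, ?_⟩
  · rw [coeff_C_mul]
    by_cases hi : i ∈ g₀.support
    · rw [← O.valuation_le_one_iff, map_mul, map_inv₀]
      have h1 := hmax i hi
      have hv : O.valuation (g₀.coeff j) ≠ 0 := (O.valuation.ne_zero_iff).mpr hc
      calc (O.valuation (g₀.coeff j))⁻¹ * O.valuation (g₀.coeff i)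
          ≤ (O.valuation (g₀.coeff j))⁻¹ * O.valuation (g₀.coeff j) := by gcongr
        _ = 1 := inv_mul_cancel₀ hv
    · rw [Polynomial.notMem_support_iff.mp hi, mul_zero]
      exact O.zero_mem
  · rw [coeff_C_mul, inv_mul_cancel₀ hc]
  · rw [map_mul, hg₀x, mul_zero]

/-! ### the residue field of `P` is algebraic over `ℚ` -/

omit [Algebra ℚ K] [Algebra ℚ L] [IsScalarTower ℚ K L] in
/-- an element of the maximal ideal of `O` lies in the maximal ideal of `P` -/
theorem valuation_lt_one_over (hP : P.comap (algebraMap K L) = O) {x : K}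
    (hx : O.valuation x < 1) : P.valuation (algebraMap K L x) < 1 := by
  by_cases hx0 : x = 0
  · rw [hx0, map_zero, map_zero]
    exact zero_lt_one
  rw [← not_le] at hx ⊢
  intro h
  apply hx
  -- `(algebraMap x)⁻¹ ∈ P`, so `x⁻¹ ∈ O`
  have h1 : P.valuation (algebraMap K L x⁻¹) ≤ 1 := by
    rw [map_inv₀, map_inv₀]
    have hv : P.valuation (algebraMap K L x) ≠ 0 :=
      (P.valuation.ne_zero_iff).mpr (by rwa [Ne, map_eq_zero])
    exact inv_le_one_of_one_le₀ h
  have h2 : x⁻¹ ∈ O := by
    rw [← hP, ValuationSubring.mem_comap, ← P.valuation_le_one_iff]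
    exact h1
  have h3 : O.valuation x⁻¹ ≤ 1 := (O.valuation_le_one_iff _).mpr h2
  rw [map_inv₀] at h3
  exact (inv_le_one₀ ((O.valuation.pos_iff).mpr hx0)).mp h3

/-- the map `ℚ → P` -/
noncomputable def ratToP (hQ : ∀ q : ℚ, algebraMap ℚ L q ∈ P) : ℚ →+* P :=
  (algebraMap ℚ L).codRestrict P.toSubring hQ

/-- the map `ℚ → κ(P)` -/
noncomputable def ratRes (hQ : ∀ q : ℚ, algebraMap ℚ L q ∈ P) : ℚ →+* ResidueField P :=
  (residue P).comp (ratToP hQ)

omit [Algebra ℚ K] [IsScalarTower ℚ K L] in
theorem coe_eval₂_ratToP (hQ : ∀ q : ℚ, algebraMap ℚ L q ∈ P) (b : P) (h : ℚ[X]) :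
    ((eval₂ (ratToP hQ) b h : P) : L) = eval₂ (algebraMap ℚ L) (b : L) h := by
  have h1 : P.subtype.comp (ratToP hQ) = algebraMap ℚ L := by
    ext q
    rfl
  have h2 := Polynomial.hom_eval₂ h (ratToP hQ) P.subtype b
  rw [h1] at h2
  simpa using h2

omit [Algebra ℚ K] [IsScalarTower ℚ K L] in
theorem eval₂_ratRes (hQ : ∀ q : ℚ, algebraMap ℚ L q ∈ P) (b : P) (h : ℚ[X]) :
    eval₂ (ratRes hQ) (residue P b) h = residue P (eval₂ (ratToP hQ) b h) :=
  (Polynomial.hom_eval₂ h (ratToP hQ) (residue P) b).symm

/-- **The residue field of `P` is algebraic over `ℚ`.** -/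
theorem exists_rat_poly_residue_root [Algebra.IsAlgebraic K L] (hO : RatPlace O)
    (hP : P.comap (algebraMap K L) = O) (y : ResidueField P) :
    ∃ h : ℚ[X], h ≠ 0 ∧ eval₂ (ratRes (hO.rat_mem_over hP)) y h = 0 := by
  obtain ⟨b, rfl⟩ := IsLocalRing.residue_surjective y
  obtain ⟨g, hgO, ⟨j, hj⟩, hgb⟩ :=
    exists_unit_coeff_aeval_eq_zero O (Algebra.IsAlgebraic.isAlgebraic (R := K) (b : L))
  -- rational approximations of the coefficients
  have hq : ∀ i, ∃ q : ℚ, O.valuation (algebraMap ℚ K q - g.coeff i) < 1 := by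
    intro i
    obtain ⟨q, hq⟩ := hO.residue_surj (residue O ⟨g.coeff i, hgO i⟩)
    refine ⟨q, ?_⟩
    have h1 : residue O (⟨algebraMap ℚ K q, hO.rat_mem q⟩ - ⟨g.coeff i, hgO i⟩) = 0 := by
      rw [map_sub, hq, sub_self]
    rw [IsLocalRing.residue_eq_zero_iff, O.valuation_lt_one_iff] at h1
    simpa using h1
  choose q hq using hq
  set n := g.natDegree with hn
  set h : ℚ[X] := ∑ i ∈ Finset.range (n + 1), C (q i) * X ^ i with hh
  have hjn : j ≤ n := by
    apply Polynomial.le_natDegree_of_ne_zero
    rw [hj]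
    exact one_ne_zero
  have hcoeff : h.coeff j = q j := by
    rw [hh, Polynomial.finsetSum_coeff]
    simp only [coeff_C_mul, coeff_X_pow]
    rw [Finset.sum_eq_single j]
    · simp
    · intro i _ hij
      rw [if_neg (fun h => hij h.symm), mul_zero]
    · intro hj'
      exact absurd (Finset.mem_range.mpr (Nat.lt_succ_of_le hjn)) hj'
  have hqj : q j ≠ 0 := by
    intro h0
    have := hq j
    rw [h0, map_zero, zero_sub, hj, Valuation.map_neg, map_one] at this
    exact lt_irrefl _ this
  refine ⟨h, fun h0 => hqj (by rw [← hcoeff, h0, coeff_zero]), ?_⟩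
  rw [eval₂_ratRes, IsLocalRing.residue_eq_zero_iff, P.valuation_lt_one_iff,
    coe_eval₂_ratToP]
  -- compare with `aeval b g = 0`
  have h1 : eval₂ (algebraMap ℚ L) (b : L) h =
      ∑ i ∈ Finset.range (n + 1), algebraMap ℚ L (q i) * (b : L) ^ i := by
    rw [hh, eval₂_finsetSum]
    refine Finset.sum_congr rfl fun i _ => ?_
    rw [eval₂_mul, eval₂_C, eval₂_pow, eval₂_X]
  have h2 : (0 : L) = ∑ i ∈ Finset.range (n + 1), algebraMap K L (g.coeff i) * (b : L) ^ i := by
    rw [← hgb, Polynomial.aeval_eq_sum_range]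
    refine Finset.sum_congr rfl fun i _ => ?_
    rw [Algebra.smul_def]
  have h3 : eval₂ (algebraMap ℚ L) (b : L) h =
      ∑ i ∈ Finset.range (n + 1),
        algebraMap K L (algebraMap ℚ K (q i) - g.coeff i) * (b : L) ^ i := by
    rw [h1, ← sub_zero (∑ i ∈ Finset.range (n + 1), algebraMap ℚ L (q i) * (b : L) ^ i), h2,
      ← Finset.sum_sub_distrib]
    refine Finset.sum_congr rfl fun i _ => ?_
    rw [map_sub, ← IsScalarTower.algebraMap_apply ℚ K L, sub_mul]
  rw [h3]
  refine P.valuation.map_sum_lt one_ne_zero fun i _ => ?_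
  rw [map_mul, map_pow]
  have hb : P.valuation (b : L) ≤ 1 := (P.valuation_le_one_iff _).mpr b.2
  calc P.valuation (algebraMap K L (algebraMap ℚ K (q i) - g.coeff i)) * P.valuation (b : L) ^ i
      ≤ P.valuation (algebraMap K L (algebraMap ℚ K (q i) - g.coeff i)) * 1 := by
        gcongr
        exact pow_le_one' hb _
    _ < 1 := by
        rw [mul_one]
        exact valuation_lt_one_over hP (hq i)

/-! ### the constants and the residue field -/

section Const

variable {C : Type*} [Field C] [Algebra ℚ C] [Algebra C L] [IsScalarTower ℚ C L]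

/-- the constants lie in `P` -/
theorem const_mem [Algebra.IsAlgebraic ℚ C] (hQ : ∀ q : ℚ, algebraMap ℚ L q ∈ P) (c : C) :
    algebraMap C L c ∈ P :=
  mem_of_isIntegral_rat hQ ((Algebra.IsAlgebraic.isAlgebraic (R := ℚ) c).isIntegral.map
    (IsScalarTower.toAlgHom ℚ C L))

/-- the map `C → P` -/
noncomputable def constToP (hC : ∀ c : C, algebraMap C L c ∈ P) : C →+* P :=
  (algebraMap C L).codRestrict P.toSubring hC

/-- the residue map on the constants -/
noncomputable def constRes (hC : ∀ c : C, algebraMap C L c ∈ P) : C →+* ResidueField P :=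
  (residue P).comp (constToP hC)

omit [Algebra ℚ K] [IsScalarTower ℚ K L] in
theorem constRes_comp_algebraMap (hQ : ∀ q : ℚ, algebraMap ℚ L q ∈ P)
    (hC : ∀ c : C, algebraMap C L c ∈ P) :
    (constRes hC).comp (algebraMap ℚ C) = ratRes hQ := by
  ext q
  show residue P _ = residue P _
  congr 1
  apply Subtype.ext
  show algebraMap C L (algebraMap ℚ C q) = algebraMap ℚ L q
  rw [← IsScalarTower.algebraMap_apply]

omit [Algebra ℚ K] [IsScalarTower ℚ K L] [Algebra ℚ C] [Algebra ℚ L] [IsScalarTower ℚ C L] in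
theorem constRes_injective (hC : ∀ c : C, algebraMap C L c ∈ P) :
    Function.Injective (constRes hC) :=
  (constRes hC).injective

/-- **The residue map identifies an algebraically closed field of constants with the residue
field of `P`.** -/
theorem constRes_surjective [Algebra.IsAlgebraic K L] [IsAlgClosed C] (hO : RatPlace O)
    (hP : P.comap (algebraMap K L) = O) (hC : ∀ c : C, algebraMap C L c ∈ P) :
    Function.Surjective (constRes hC) := by
  intro y
  obtain ⟨h, hh0, hhy⟩ := exists_rat_poly_residue_root hO hP y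
  rw [← constRes_comp_algebraMap (hO.rat_mem_over hP) hC, ← eval₂_map, eval₂_eq_eval_map] at hhy
  have hne : h.map (algebraMap ℚ C) ≠ 0 :=
    (Polynomial.map_ne_zero_iff (algebraMap ℚ C).injective).mpr hh0
  have hne' : (h.map (algebraMap ℚ C)).map (constRes hC) ≠ 0 :=
    (Polynomial.map_ne_zero_iff (constRes hC).injective).mpr hne
  have hmem : y ∈ ((h.map (algebraMap ℚ C)).map (constRes hC)).roots :=
    (mem_roots hne').mpr hhy
  have hsplit : (h.map (algebraMap ℚ C)).Splits := IsAlgClosed.splits _
  rw [hsplit.roots_map] at hmem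
  obtain ⟨a, -, ha⟩ := Multiset.mem_map.mp hmem
  exact ⟨a, ha⟩

theorem constRes_bijective [Algebra.IsAlgebraic K L] [IsAlgClosed C] (hO : RatPlace O)
    (hP : P.comap (algebraMap K L) = O) (hC : ∀ c : C, algebraMap C L c ∈ P) :
    Function.Bijective (constRes hC) :=
  ⟨constRes_injective hC, constRes_surjective hO hP hC⟩

end Const

end Fermat.Agent.SW.K1.Place
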