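import Mathlib
import Fermat.Agent.S54.FrobExists
import Fermat.Agent.SW.K1.Place

/-!
# MOONSHOT S52, block K1, leaf PLACE (part 2): the decomposition group of a place over a rational
place surjects onto the Galois group of the constants

`K ⊇ ℚ` a field, `O` a valuation subring of `K` (a rational place), `L / K` Galois, `P` a valuation
subring of `L` over `O`, `C` an algebraically closed field of constants inside `L`.

* `exists_integral_div` : every element of `P` is a quotient `b / s` of elements integral over `O`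
  with `s` a unit of `P` (Horner trick);
* `centerIdeal`, `mem_decompositionSubgroup_of_smul_centerIdeal_eq` : an automorphism fixing the
  center of `P` on the integral closure of `O` lies in the decomposition group of `P`;
* `exists_mem_decompositionSubgroup_const` : every `ℚ`-automorphism of the constants is induced by
  an element of the decomposition group.
-/

set_option autoImplicit false

open IsLocalRing Polynomial
open Fermat.Agent.S54.FrobExists (hornerU hornerU_zero hornerU_succ hornerU_mul_pow hornerU_eq_add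
  hornerU_mem_of_inv_mem hornerU_mem_of_mem)

namespace Fermat.Agent.SW.K1.PlaceDecomp

section Horner

variable {K L : Type*} [Field K] [Field L] [Algebra K L]

/-- The coefficient sequence of a polynomial over `K`, mapped into `L`. -/
noncomputable def coeffSeqK (g : K[X]) : ℕ → L := fun i => algebraMap K L (g.coeff i)

theorem hornerU_coeffSeqK_eq_zero {x : L} (hx : x ≠ 0) (g : K[X]) (hg : aeval x g = 0) (k : ℕ)
    (hk : g.natDegree < k) : hornerU (coeffSeqK g) x k = 0 := by
  have h := hornerU_mul_pow (coeffSeqK g) hx k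
  have h2 : ∑ i ∈ Finset.range k, coeffSeqK g i * x ^ i = aeval x g := by
    rw [aeval_eq_sum_range' hk]
    refine Finset.sum_congr rfl fun i _ => ?_
    rw [Algebra.smul_def]
    rfl
  rw [h2, hg, neg_zero] at h
  exact (mul_eq_zero.mp h).resolve_right (pow_ne_zero k hx)

variable {O : ValuationSubring K} {P : ValuationSubring L}

/-- elements of `L` integral over `O` lie in every valuation subring of `L` containing `O` -/
theorem mem_of_isIntegral (hOP : ∀ x : K, x ∈ O → algebraMap K L x ∈ P) {b : L}
    (hb : IsIntegral O b) : b ∈ P := by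
  obtain ⟨p, hp, hpx⟩ := hb
  let f : O →+* P := ((algebraMap K L).comp O.subtype).codRestrict P.toSubring
    (fun x => hOP x x.2)
  have hf : (algebraMap P L).comp f = algebraMap O L := by
    ext q
    rfl
  have h1 : IsIntegral P b := by
    refine ⟨p.map f, hp.map f, ?_⟩
    rw [eval₂_map, hf]
    exact hpx
  obtain ⟨y, hy⟩ := IsIntegrallyClosed.isIntegral_iff.mp h1
  rw [← hy]
  exact y.2

theorem le_of_comap_eq (hP : P.comap (algebraMap K L) = O) :
    ∀ x : K, x ∈ O → algebraMap K L x ∈ P := by
  intro x hx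
  rw [← hP] at hx
  exact hx

/-- All the Horner partial sums of a polynomial with coefficients in `O` vanishing at `x` are
integral over `O`. -/
theorem isIntegral_hornerU {x : L} (hx : x ≠ 0) (g : K[X]) (hgO : ∀ i, g.coeff i ∈ O)
    (hg : aeval x g = 0) (k : ℕ) : IsIntegral O (hornerU (coeffSeqK g) x k) := by
  by_contra hcon
  set R : Subring L := (integralClosure O L).toSubring with hR
  have hnot : hornerU (coeffSeqK g) x k ∉ R := fun h => hcon h
  have : IsIntegrallyClosedIn R L := inferInstanceAs (IsIntegrallyClosedIn (integralClosure O L) L)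
  obtain ⟨W, hRW, hW⟩ := Subring.exists_le_valuationSubring_of_isIntegrallyClosedIn hnot
  apply hW
  have ha : ∀ i, coeffSeqK g i ∈ W.toSubring := fun i => by
    apply hRW
    show IsIntegral O (algebraMap K L (g.coeff i))
    exact isIntegral_algebraMap (R := O) (A := L) (x := ⟨g.coeff i, hgO i⟩)
  rcases W.mem_or_inv_mem x with h | h
  · exact hornerU_mem_of_mem _ hx W.toSubring ha h (g.natDegree + 1)
      (fun j hj => hornerU_coeffSeqK_eq_zero hx g hg j (by omega)) k
  · exact hornerU_mem_of_inv_mem _ x W.toSubring ha h k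

/-- Key lemma: every element of `P` algebraic over `K` is a quotient of two elements integral over
`O` whose denominator is a unit of `P`. -/
theorem exists_integral_div (hOP : ∀ x : K, x ∈ O → algebraMap K L x ∈ P) {x : L}
    (hxalg : IsAlgebraic K x) (hx : x ∈ P) :
    ∃ b s : L, IsIntegral O b ∧ IsIntegral O s ∧ P.valuation s = 1 ∧ x = b / s := by
  rcases eq_or_ne x 0 with rfl | hx0
  · exact ⟨0, 1, isIntegral_zero, isIntegral_one, by simp, by simp⟩
  obtain ⟨g, hgO, ⟨j, hj⟩, hgx⟩ := Place.exists_unit_coeff_aeval_eq_zero O hxalg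
  have hu_int : ∀ k, IsIntegral O (hornerU (coeffSeqK g) x k) := isIntegral_hornerU hx0 g hgO hgx
  have hu_mem : ∀ k, hornerU (coeffSeqK g) x k ∈ P := fun k => mem_of_isIntegral hOP (hu_int k)
  have hvx : P.valuation x ≤ 1 := (P.valuation_le_one_iff x).mpr hx
  -- some partial sum is a unit of `P`
  have hex : ∃ r, ¬ P.valuation (hornerU (coeffSeqK g) x r) < 1 := by
    by_contra hall
    push Not at hall
    have hcoef : ∀ i, P.valuation (coeffSeqK g i : L) < 1 := by
      intro i
      have h1 : (coeffSeqK g i : L) =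
          hornerU (coeffSeqK g) x i - x * hornerU (coeffSeqK g) x (i + 1) := by
        rw [hornerU_eq_add (coeffSeqK g) hx0 i]; ring
      rw [h1]
      refine Valuation.map_sub_lt _ (hall i) ?_
      rw [map_mul]
      exact Right.mul_lt_one_of_le_of_lt hvx (hall (i + 1))
    have := hcoef j
    rw [coeffSeqK, hj, map_one, map_one] at this
    exact lt_irrefl _ this
  obtain ⟨r, hr⟩ := hex
  have hr1 : P.valuation (hornerU (coeffSeqK g) x r) = 1 :=
    le_antisymm ((P.valuation_le_one_iff _).mpr (hu_mem r)) (not_lt.mp hr)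
  cases r with
  | zero =>
    rw [hornerU_zero, map_zero] at hr1
    exact absurd hr1 zero_ne_one
  | succ r =>
    have hs0 : hornerU (coeffSeqK g) x (r + 1) ≠ 0 := by
      intro h0
      rw [h0, map_zero] at hr1
      exact zero_ne_one hr1
    refine ⟨hornerU (coeffSeqK g) x r - coeffSeqK g r, hornerU (coeffSeqK g) x (r + 1), ?_,
      hu_int _, hr1, ?_⟩
    · refine (hu_int r).sub ?_
      show IsIntegral O (algebraMap K L (g.coeff r))
      exact isIntegral_algebraMap (R := O) (A := L) (x := ⟨g.coeff r, hgO r⟩)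
    · rw [eq_div_iff hs0, hornerU_succ]
      field_simp

end Horner

section Center

variable {K L : Type*} [Field K] [Field L] [Algebra K L]
variable {O : ValuationSubring K} {P : ValuationSubring L}

/-- The inclusion of the integral closure of `O` in `L` into a valuation subring over `O`. -/
noncomputable def inclO (hOP : ∀ x : K, x ∈ O → algebraMap K L x ∈ P) :
    integralClosure O L →+* P :=
  (algebraMap (integralClosure O L) L).codRestrict P.toSubring
    (fun b => mem_of_isIntegral hOP b.2)

@[simp]
theorem coe_inclO (hOP : ∀ x : K, x ∈ O → algebraMap K L x ∈ P) (b : integralClosure O L) :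
    ((inclO hOP b : P) : L) = (b : L) := rfl

/-- The center of `P` on the integral closure of `O`. -/
noncomputable def centerIdeal (hOP : ∀ x : K, x ∈ O → algebraMap K L x ∈ P) :
    Ideal (integralClosure O L) :=
  (IsLocalRing.maximalIdeal P).comap (inclO hOP)

theorem mem_centerIdeal_iff (hOP : ∀ x : K, x ∈ O → algebraMap K L x ∈ P)
    (b : integralClosure O L) : b ∈ centerIdeal hOP ↔ P.valuation (b : L) < 1 := by
  show inclO hOP b ∈ IsLocalRing.maximalIdeal P ↔ _
  rw [P.valuation_lt_one_iff, coe_inclO]

instance centerIdeal_isPrime (hOP : ∀ x : K, x ∈ O → algebraMap K L x ∈ P) :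
    (centerIdeal hOP).IsPrime :=
  Ideal.comap_isPrime (inclO hOP) (IsLocalRing.maximalIdeal P)

theorem valuation_eq_one_of_not_mem_centerIdeal (hOP : ∀ x : K, x ∈ O → algebraMap K L x ∈ P)
    {b : integralClosure O L} (hb : b ∉ centerIdeal hOP) : P.valuation (b : L) = 1 := by
  rw [mem_centerIdeal_iff, not_lt] at hb
  exact le_antisymm ((P.valuation_le_one_iff _).mpr (mem_of_isIntegral hOP b.2)) hb

/-- the center of `P` lies over the maximal ideal of `O` -/
theorem centerIdeal_liesOver (hP : P.comap (algebraMap K L) = O) :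
    (centerIdeal (le_of_comap_eq hP)).LiesOver (IsLocalRing.maximalIdeal O) := by
  refine ⟨?_⟩
  have hne : (centerIdeal (le_of_comap_eq hP)).under O ≠ ⊤ :=
    (Ideal.IsPrime.under O (centerIdeal (le_of_comap_eq hP))).ne_top
  refine ((IsLocalRing.maximalIdeal.isMaximal O).eq_of_le hne ?_)
  intro x hx
  rw [Ideal.under_def, Ideal.mem_comap, mem_centerIdeal_iff]
  rw [O.valuation_lt_one_iff] at hx
  exact Place.valuation_lt_one_over hP hx

end Center

section Galois

open scoped Pointwise

variable {K L : Type*} [Field K] [Field L] [Algebra K L]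
variable {O : ValuationSubring K} {P : ValuationSubring L}

/-- An automorphism stabilising the center of `P` maps `P` into `P`. -/
theorem apply_mem_of_smul_centerIdeal_eq [Algebra.IsAlgebraic K L]
    (hOP : ∀ x : K, x ∈ O → algebraMap K L x ∈ P) (τ : L ≃ₐ[K] L)
    (hτ : τ • centerIdeal hOP = centerIdeal hOP) {x : L} (hx : x ∈ P) : τ x ∈ P := by
  obtain ⟨b, s, hb, hs, hvs, rfl⟩ :=
    exists_integral_div hOP (Algebra.IsAlgebraic.isAlgebraic (R := K) x) hx
  have hsQ : (⟨s, hs⟩ : integralClosure O L) ∉ centerIdeal hOP := by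
    rw [mem_centerIdeal_iff, hvs]
    exact lt_irrefl _
  have hτs : τ • (⟨s, hs⟩ : integralClosure O L) ∉ centerIdeal hOP := by
    intro h
    rw [← hτ, Ideal.smul_mem_pointwise_smul_iff] at h
    exact hsQ h
  have h1 : P.valuation (τ s) = 1 := valuation_eq_one_of_not_mem_centerIdeal hOP hτs
  have h2 : P.valuation (τ b) ≤ 1 := by
    rw [P.valuation_le_one_iff]
    have hb' : IsIntegral O (τ b) := by
      have := (τ • (⟨b, hb⟩ : integralClosure O L)).2
      exact this
    exact mem_of_isIntegral hOP hb'
  rw [map_div₀, ← P.valuation_le_one_iff, map_div₀, h1, div_one]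
  exact h2

theorem mem_decompositionSubgroup_of_smul_centerIdeal_eq [Algebra.IsAlgebraic K L]
    (hOP : ∀ x : K, x ∈ O → algebraMap K L x ∈ P) (σ : L ≃ₐ[K] L)
    (hσ : σ • centerIdeal hOP = centerIdeal hOP) : σ ∈ P.decompositionSubgroup K := by
  have hσ' : σ⁻¹ • centerIdeal hOP = centerIdeal hOP := by
    rw [inv_smul_eq_iff, hσ]
  show σ • P = P
  ext x
  rw [ValuationSubring.mem_pointwise_smul_iff_inv_smul_mem]
  constructor
  · intro h
    have := apply_mem_of_smul_centerIdeal_eq hOP σ hσ h
    simpa using this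
  · intro h
    exact apply_mem_of_smul_centerIdeal_eq hOP σ⁻¹ hσ' h

end Galois

section Main

open scoped Pointwise

variable {K : Type*} [Field K] [Algebra ℚ K] {L : Type*} [Field L] [Algebra K L] [Algebra ℚ L]
  [IsScalarTower ℚ K L]
variable {C : Type*} [Field C] [Algebra ℚ C] [Algebra C L] [IsScalarTower ℚ C L]
variable {O : ValuationSubring K} {P : ValuationSubring L}

omit [Algebra ℚ K] [IsScalarTower ℚ K L] in
/-- a constant in the maximal ideal of `P` vanishes -/
theorem eq_zero_of_isIntegral_rat_of_valuation_lt_one (hQ : ∀ q : ℚ, algebraMap ℚ L q ∈ P) {d : L}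
    (hd : IsIntegral ℚ d) (hv : P.valuation d < 1) : d = 0 := by
  by_contra hd0
  have h1 : IsIntegral ℚ d⁻¹ := hd.isAlgebraic.inv.isIntegral
  have h2 : d⁻¹ ∈ P := Place.mem_of_isIntegral_rat hQ h1
  have h3 : P.valuation d⁻¹ ≤ 1 := (P.valuation_le_one_iff _).mpr h2
  rw [map_inv₀] at h3
  have h4 : 0 < P.valuation d := (P.valuation.pos_iff).mpr hd0
  have h5 : 1 ≤ P.valuation d := (inv_le_one₀ h4).mp h3
  exact absurd hv (not_lt.mpr h5)

/-- an element integral over `ℚ` is integral over a valuation subring containing `ℚ` -/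
theorem isIntegral_of_isIntegral_rat (hO : Place.RatPlace O) {x : L} (hx : IsIntegral ℚ x) :
    IsIntegral O x := by
  obtain ⟨p, hp, hpx⟩ := hx
  let f : ℚ →+* O := (algebraMap ℚ K).codRestrict O.toSubring hO.rat_mem
  have hf : (algebraMap O L).comp f = algebraMap ℚ L := by
    ext q
    show algebraMap K L (algebraMap ℚ K q) = algebraMap ℚ L q
    rw [← IsScalarTower.algebraMap_apply]
  refine ⟨p.map f, hp.map f, ?_⟩
  rw [eval₂_map, hf]
  exact hpx

/-- the constants inside the integral closure of `O` -/
noncomputable def constB [Algebra.IsAlgebraic ℚ C] (hO : Place.RatPlace O) :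
    C →+* integralClosure O L :=
  (algebraMap C L).codRestrict (integralClosure O L).toSubring (fun c =>
    isIntegral_of_isIntegral_rat hO ((Algebra.IsAlgebraic.isAlgebraic (R := ℚ) c).isIntegral.map
      (IsScalarTower.toAlgHom ℚ C L)))

@[simp]
theorem coe_constB [Algebra.IsAlgebraic ℚ C] (hO : Place.RatPlace O) (c : C) :
    ((constB (L := L) hO c : integralClosure O L) : L) = algebraMap C L c := rfl

/-- the constants map isomorphically onto the residue field of the center -/
theorem constB_mk_bijective [Algebra.IsAlgebraic K L] [Algebra.IsAlgebraic ℚ C] [IsAlgClosed C]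
    (hO : Place.RatPlace O) (hP : P.comap (algebraMap K L) = O) :
    Function.Bijective ((Ideal.Quotient.mk (centerIdeal (le_of_comap_eq hP))).comp
      (constB (L := L) (C := C) hO)) := by
  have hQ : ∀ q : ℚ, algebraMap ℚ L q ∈ P := hO.rat_mem_over hP
  have hC : ∀ c : C, algebraMap C L c ∈ P := Place.const_mem hQ
  have hne : Nontrivial (integralClosure O L ⧸ centerIdeal (le_of_comap_eq hP)) :=
    Ideal.Quotient.nontrivial_iff.mpr (centerIdeal_isPrime (le_of_comap_eq hP)).ne_top
  refine ⟨RingHom.injective _, fun y => ?_⟩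
  obtain ⟨b, rfl⟩ := Ideal.Quotient.mk_surjective y
  obtain ⟨c, hc⟩ := Place.constRes_surjective hO hP hC (residue P (inclO (le_of_comap_eq hP) b))
  refine ⟨c, ?_⟩
  show Ideal.Quotient.mk _ (constB hO c) = Ideal.Quotient.mk _ b
  rw [Ideal.Quotient.eq, mem_centerIdeal_iff]
  have h1 : residue P (Place.constToP hC c - inclO (le_of_comap_eq hP) b) = 0 := by
    rw [map_sub, sub_eq_zero]
    exact hc
  rw [IsLocalRing.residue_eq_zero_iff, P.valuation_lt_one_iff] at h1
  exact h1

/-- **The decomposition group of `P` surjects onto the automorphism group of the constants.** -/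
theorem exists_mem_decompositionSubgroup_const [IsGalois K L] [Algebra.IsAlgebraic ℚ C]
    [IsAlgClosed C] (hO : Place.RatPlace O) (hP : P.comap (algebraMap K L) = O) (τ : C ≃ₐ[ℚ] C) :
    ∃ σ ∈ P.decompositionSubgroup K, ∀ z : C, σ (algebraMap C L z) = algebraMap C L (τ z) := by
  have hOP := le_of_comap_eq hP
  have hQ : ∀ q : ℚ, algebraMap ℚ L q ∈ P := hO.rat_mem_over hP
  have hlies : (centerIdeal hOP).LiesOver (IsLocalRing.maximalIdeal O) := centerIdeal_liesOver hP
  -- the topology on the integral closure
  let _ : TopologicalSpace (integralClosure O L) := ⊥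
  have : DiscreteTopology (integralClosure O L) := ⟨rfl⟩
  have : ContinuousSMul (L ≃ₐ[K] L) (integralClosure O L) := by
    rw [continuousSMul_iff_stabilizer_isOpen]
    intro b
    have h : (MulAction.stabilizer (L ≃ₐ[K] L) b : Set (L ≃ₐ[K] L)) =
        (MulAction.stabilizer (L ≃ₐ[K] L) (b : L) : Set (L ≃ₐ[K] L)) := by
      ext g
      simp [MulAction.mem_stabilizer_iff, Subtype.ext_iff]
    rw [h]
    exact stabilizer_isOpen_of_isIntegral (b : L)
  have : Algebra.IsInvariant O (integralClosure O L) (L ≃ₐ[K] L) := by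
    refine ⟨fun b hb => ?_⟩
    have h1 : (b : L) ∈ IntermediateField.fixedField (⊤ : Subgroup (L ≃ₐ[K] L)) := by
      rintro ⟨g, -⟩
      have := congrArg (fun z : integralClosure O L => (z : L)) (hb g)
      simpa using this
    have h2 : IntermediateField.fixedField (⊤ : Subgroup (L ≃ₐ[K] L)) = ⊥ := by
      rw [← IntermediateField.fixingSubgroup_bot]
      exact InfiniteGalois.fixedField_fixingSubgroup ⊥
    rw [h2, IntermediateField.mem_bot] at h1
    obtain ⟨q, hq⟩ := h1
    have h3 : IsIntegral O (algebraMap K L q) := hq ▸ b.2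
    rw [isIntegral_algebraMap_iff (algebraMap K L).injective] at h3
    obtain ⟨n, hn⟩ := IsIntegrallyClosed.isIntegral_iff.mp h3
    refine ⟨n, Subtype.ext ?_⟩
    rw [← hq, ← hn]
    rfl
  -- the automorphism of the residue field of the center
  let ι : C ≃+* (integralClosure O L ⧸ centerIdeal hOP) :=
    RingEquiv.ofBijective _ (constB_mk_bijective (C := C) hO hP)
  have hι : ∀ c : C, ι c = Ideal.Quotient.mk (centerIdeal hOP) (constB hO c) := fun c => rfl
  let e₀ : (integralClosure O L ⧸ centerIdeal hOP) ≃+* (integralClosure O L ⧸ centerIdeal hOP) :=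
    ι.symm.trans (τ.toRingEquiv.trans ι)
  have he₀ : ∀ c : C, e₀ (ι c) = ι (τ c) := by
    intro c
    show ι (τ (ι.symm (ι c))) = ι (τ c)
    rw [RingEquiv.symm_apply_apply]
  have hcomm : ∀ a : O ⧸ IsLocalRing.maximalIdeal O,
      e₀ (algebraMap _ (integralClosure O L ⧸ centerIdeal hOP) a) =
        algebraMap _ (integralClosure O L ⧸ centerIdeal hOP) a := by
    intro a
    obtain ⟨q, rfl⟩ := hO.residue_surj a
    have h1 : algebraMap (O ⧸ IsLocalRing.maximalIdeal O)
        (integralClosure O L ⧸ centerIdeal hOP)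
        (residue O ⟨algebraMap ℚ K q, hO.rat_mem q⟩) = ι (algebraMap ℚ C q) := by
      show algebraMap (O ⧸ IsLocalRing.maximalIdeal O)
        (integralClosure O L ⧸ centerIdeal hOP)
        (Ideal.Quotient.mk _ ⟨algebraMap ℚ K q, hO.rat_mem q⟩) = _
      rw [Ideal.Quotient.algebraMap_mk_of_liesOver, hι]
      congr 1
      apply Subtype.ext
      show algebraMap K L (algebraMap ℚ K q) = algebraMap C L (algebraMap ℚ C q)
      rw [← IsScalarTower.algebraMap_apply, ← IsScalarTower.algebraMap_apply]
    rw [h1, he₀, τ.commutes]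
  let e : (integralClosure O L ⧸ centerIdeal hOP) ≃ₐ[O ⧸ IsLocalRing.maximalIdeal O]
      (integralClosure O L ⧸ centerIdeal hOP) := AlgEquiv.ofRingEquiv (f := e₀) hcomm
  obtain ⟨⟨σ, hσ⟩, hσe⟩ := Ideal.Quotient.stabilizerHom_surjective_of_profinite
    (G := L ≃ₐ[K] L) (IsLocalRing.maximalIdeal O) (centerIdeal hOP) e
  have hσD : σ ∈ P.decompositionSubgroup K :=
    mem_decompositionSubgroup_of_smul_centerIdeal_eq hOP σ hσ
  refine ⟨σ, hσD, fun z => ?_⟩
  have h4 : Ideal.Quotient.mk (centerIdeal hOP) (σ • constB hO z) =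
      Ideal.Quotient.mk (centerIdeal hOP) (constB hO (τ z)) := by
    have := DFunLike.congr_fun hσe (Ideal.Quotient.mk (centerIdeal hOP) (constB hO z))
    rw [Ideal.Quotient.stabilizerHom_apply] at this
    have h6 : (⟨σ, hσ⟩ : MulAction.stabilizer (L ≃ₐ[K] L) (centerIdeal hOP)) •
        constB (L := L) hO z = σ • constB (L := L) hO z := rfl
    rw [h6] at this
    rw [this, ← hι, ← hι]
    exact he₀ z
  rw [Ideal.Quotient.eq, mem_centerIdeal_iff] at h4
  have h5 : IsIntegral ℚ (σ (algebraMap C L z) - algebraMap C L (τ z)) := by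
    refine IsIntegral.sub ?_ ?_
    · exact ((Algebra.IsAlgebraic.isAlgebraic (R := ℚ) z).isIntegral.map
        (IsScalarTower.toAlgHom ℚ C L)).map (σ.toAlgHom.restrictScalars ℚ)
    · exact (Algebra.IsAlgebraic.isAlgebraic (R := ℚ) (τ z)).isIntegral.map
        (IsScalarTower.toAlgHom ℚ C L)
  exact sub_eq_zero.mp (eq_zero_of_isIntegral_rat_of_valuation_lt_one hQ h5 h4)

end Main

end Fermat.Agent.SW.K1.PlaceDecomp
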