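import Mathlib
import Fermat.Agent.SW.K1.Place

/-!
# MOONSHOT S52, block K1, leaf PLACE (part 3): the rational places of `ℚ(X)`

For `s : ℚ`, `ratPlaceAt s` is the valuation subring of `RatFunc ℚ` of the functions regular at
`X = s`. It is a rational place (`Place.RatPlace`), `X - C s` lies in its maximal ideal, and a
function `f` with `f.denom.eval s ≠ 0` is regular with residue `RatFunc.eval (RingHom.id ℚ) s f`.
-/

set_option autoImplicit false

open Polynomial

namespace Fermat.Agent.SW.K1.PlaceRat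

/-- functions regular at `s`, in cleared-denominator form -/
def IsRegularAt (s : ℚ) (f : RatFunc ℚ) : Prop :=
  ∃ p q : ℚ[X], q.eval s ≠ 0 ∧ f * algebraMap ℚ[X] (RatFunc ℚ) q = algebraMap ℚ[X] (RatFunc ℚ) p

theorem isRegularAt_of_denom {s : ℚ} {f : RatFunc ℚ} (hf : f.denom.eval s ≠ 0) :
    IsRegularAt s f := by
  refine ⟨f.num, f.denom, hf, ?_⟩
  have h := RatFunc.num_div_denom f
  have h0 : algebraMap ℚ[X] (RatFunc ℚ) f.denom ≠ 0 :=
    RatFunc.algebraMap_ne_zero (RatFunc.denom_ne_zero f)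
  rw [div_eq_iff h0] at h
  exact h.symm

theorem num_eval_ne_zero_of_denom_eval_eq_zero {s : ℚ} {f : RatFunc ℚ}
    (hf : f.denom.eval s = 0) : f.num.eval s ≠ 0 := by
  obtain ⟨a, b, hab⟩ := RatFunc.isCoprime_num_denom f
  intro h
  have := congrArg (Polynomial.eval s) hab
  simp [hf, h] at this

/-- the valuation subring of `ℚ(X)` at `X = s` -/
noncomputable def ratPlaceAt (s : ℚ) : ValuationSubring (RatFunc ℚ) where
  carrier := {f | IsRegularAt s f}
  mul_mem' := by
    rintro f g ⟨p, q, hq, hf⟩ ⟨p', q', hq', hg⟩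
    refine ⟨p * p', q * q', ?_, ?_⟩
    · rw [eval_mul]
      exact mul_ne_zero hq hq'
    · rw [map_mul, map_mul, ← hf, ← hg]
      ring
  one_mem' := ⟨1, 1, by simp, by simp⟩
  add_mem' := by
    rintro f g ⟨p, q, hq, hf⟩ ⟨p', q', hq', hg⟩
    refine ⟨p * q' + p' * q, q * q', ?_, ?_⟩
    · rw [eval_mul]
      exact mul_ne_zero hq hq'
    · rw [map_add, map_mul, map_mul, map_mul, ← hf, ← hg]
      ring
  zero_mem' := ⟨0, 1, by simp, by simp⟩
  neg_mem' := by
    rintro f ⟨p, q, hq, hf⟩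
    refine ⟨-p, q, hq, ?_⟩
    rw [map_neg, ← hf]
    ring
  mem_or_inv_mem' := by
    intro f
    by_cases hf : f.denom.eval s = 0
    · right
      have hnum := num_eval_ne_zero_of_denom_eval_eq_zero hf
      refine ⟨f.denom, f.num, hnum, ?_⟩
      have h := RatFunc.num_div_denom f
      have h0 : algebraMap ℚ[X] (RatFunc ℚ) f.denom ≠ 0 :=
        RatFunc.algebraMap_ne_zero (RatFunc.denom_ne_zero f)
      have hn0 : algebraMap ℚ[X] (RatFunc ℚ) f.num ≠ 0 := by
        apply RatFunc.algebraMap_ne_zero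
        intro h1
        rw [h1] at hnum
        simp at hnum
      have h' : algebraMap ℚ[X] (RatFunc ℚ) f.num = f * algebraMap ℚ[X] (RatFunc ℚ) f.denom :=
        (div_eq_iff h0).mp h
      have hf0 : f ≠ 0 := by
        intro h1
        apply hn0
        rw [h', h1, zero_mul]
      rw [h', ← mul_assoc, inv_mul_cancel₀ hf0, one_mul]
    · left
      exact isRegularAt_of_denom hf

theorem mem_ratPlaceAt_iff {s : ℚ} {f : RatFunc ℚ} : f ∈ ratPlaceAt s ↔ IsRegularAt s f :=
  Iff.rfl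

theorem mem_ratPlaceAt_of_denom {s : ℚ} {f : RatFunc ℚ} (hf : f.denom.eval s ≠ 0) :
    f ∈ ratPlaceAt s :=
  isRegularAt_of_denom hf

/-- a regular function whose numerator vanishes at `s` lies in the maximal ideal -/
theorem valuation_lt_one_of_eval_eq_zero {s : ℚ} {f : RatFunc ℚ} {p q : ℚ[X]}
    (hq : q.eval s ≠ 0) (hf : f * algebraMap ℚ[X] (RatFunc ℚ) q = algebraMap ℚ[X] (RatFunc ℚ) p)
    (hp : p.eval s = 0) : (ratPlaceAt s).valuation f < 1 := by
  by_cases hf0 : f = 0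
  · rw [hf0, map_zero]
    exact zero_lt_one
  have hmem : f ∈ ratPlaceAt s := ⟨p, q, hq, hf⟩
  have hle : (ratPlaceAt s).valuation f ≤ 1 := ((ratPlaceAt s).valuation_le_one_iff f).mpr hmem
  refine lt_of_le_of_ne hle fun h1 => ?_
  have hinv : (ratPlaceAt s).valuation f⁻¹ ≤ 1 := by
    rw [map_inv₀, h1, inv_one]
  rw [(ratPlaceAt s).valuation_le_one_iff] at hinv
  obtain ⟨p', q', hq', hg⟩ := hinv
  have hq0 : algebraMap ℚ[X] (RatFunc ℚ) (q * q') = algebraMap ℚ[X] (RatFunc ℚ) (p * p') := by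
    rw [map_mul, map_mul, ← hf, ← hg]
    field_simp
  have := congrArg (Polynomial.eval s) (RatFunc.algebraMap_injective ℚ hq0)
  rw [eval_mul, eval_mul, hp, zero_mul] at this
  exact mul_ne_zero hq hq' this

theorem C_mem_ratPlaceAt (s c : ℚ) : RatFunc.C c ∈ ratPlaceAt s :=
  ⟨Polynomial.C c, 1, by simp, by simp⟩

/-- `X - s` lies in the maximal ideal at `s` -/
theorem valuation_X_sub_C_lt_one (s : ℚ) :
    (ratPlaceAt s).valuation (RatFunc.X - RatFunc.C s) < 1 := by
  refine valuation_lt_one_of_eval_eq_zero (p := Polynomial.X - Polynomial.C s) (q := 1)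
    (by simp) ?_ (by simp)
  simp

/-- a regular function is congruent to its value -/
theorem valuation_sub_C_eval_lt_one {s : ℚ} {f : RatFunc ℚ} (hf : f.denom.eval s ≠ 0) :
    (ratPlaceAt s).valuation (f - RatFunc.C (RatFunc.eval (RingHom.id ℚ) s f)) < 1 := by
  have h := RatFunc.num_div_denom f
  have h0 : algebraMap ℚ[X] (RatFunc ℚ) f.denom ≠ 0 :=
    RatFunc.algebraMap_ne_zero (RatFunc.denom_ne_zero f)
  rw [div_eq_iff h0] at h
  refine valuation_lt_one_of_eval_eq_zero
    (p := f.num - Polynomial.C (RatFunc.eval (RingHom.id ℚ) s f) * f.denom) (q := f.denom) hf ?_ ?_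
  · rw [map_sub, map_mul, RatFunc.algebraMap_C, h]
    ring
  · rw [eval_sub, eval_mul, eval_C, RatFunc.eval, Polynomial.eval₂_id, Polynomial.eval₂_id,
      div_mul_cancel₀ _ hf, sub_self]

/-- a regular function is congruent to a constant -/
theorem exists_valuation_sub_C_lt_one {s : ℚ} {f : RatFunc ℚ} (hf : f ∈ ratPlaceAt s) :
    ∃ c : ℚ, (ratPlaceAt s).valuation (f - RatFunc.C c) < 1 := by
  obtain ⟨p, q, hq, hfq⟩ := hf
  refine ⟨p.eval s / q.eval s, ?_⟩
  refine valuation_lt_one_of_eval_eq_zero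
    (p := p - Polynomial.C (p.eval s / q.eval s) * q) (q := q) hq ?_ ?_
  · rw [map_sub, map_mul, RatFunc.algebraMap_C, ← hfq]
    ring
  · rw [eval_sub, eval_mul, eval_C, div_mul_cancel₀ _ hq, sub_self]

theorem algebraMap_rat_eq_C (c : ℚ) : algebraMap ℚ (RatFunc ℚ) c = RatFunc.C c := by
  simp

/-- **`ratPlaceAt s` is a rational place.** -/
theorem ratPlace_ratPlaceAt (s : ℚ) : Place.RatPlace (ratPlaceAt s) := by
  have hmem : ∀ q : ℚ, algebraMap ℚ (RatFunc ℚ) q ∈ ratPlaceAt s := fun q => by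
    rw [algebraMap_rat_eq_C]
    exact C_mem_ratPlaceAt s q
  refine ⟨hmem, fun x => ?_⟩
  obtain ⟨⟨f, hf⟩, rfl⟩ := IsLocalRing.residue_surjective x
  obtain ⟨c, hc⟩ := exists_valuation_sub_C_lt_one hf
  refine ⟨c, ?_⟩
  rw [← sub_eq_zero, ← map_sub, IsLocalRing.residue_eq_zero_iff,
    (ratPlaceAt s).valuation_lt_one_iff]
  show (ratPlaceAt s).valuation (algebraMap ℚ (RatFunc ℚ) c - f) < 1
  rw [algebraMap_rat_eq_C, ← Valuation.map_neg, neg_sub]
  exact hc

end Fermat.Agent.SW.K1.PlaceRat
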