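import Mathlib
import Fermat.Prelude.Def_FLTPrelim_GaloisRep
import Fermat.Agent.LR.RedFrobPlug
import Fermat.Agent.EC.Good.Red

/-!
# MOONSHOT S52, block K1, leaf PLACE (part 4): reduction of the 5-torsion at a place with residue
field the constants

`L` an algebraically closed field, `P` a valuation subring of `L`, `C` a field (the constants) with
a bijection `ι : C → κ(P)` induced by an embedding `C → P`.  For a short Weierstrass curve
`y² = x³ + A x + B` over a subfield `K₀` of `L` with `A, B ∈ P` reducing to `a, b ∈ ℚ` and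
`4 a³ + 27 b² ≠ 0`, the reduction map identifies the `m`-torsion of the curve over `L` with the
`m`-torsion of `y² = x³ + a x + b` over `C`, compatibly with the decomposition group of `P`.
-/

set_option autoImplicit false
set_option linter.unusedSectionVars false

open WeierstrassCurve WeierstrassCurve.Affine IsLocalRing Polynomial
open scoped WeierstrassCurve.Affine

namespace Fermat.Agent.SW.K1.PlaceRedIso

open Fermat.Agent.LR.RedFrob Fermat.Agent.EC.Good

section Abstract

variable {L : Type*} [Field L] [DecidableEq L]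
variable {K₀ : Type*} [Field K₀] [Algebra K₀ L]
variable {C : Type*} [Field C] [DecidableEq C] [Algebra ℚ C] [Algebra C L]
variable (P : ValuationSubring L) [Algebra ℚ (ResidueField P)] [DecidableEq (ResidueField P)]

/-- the short Weierstrass curve `y² = x³ + A x + B` -/
def shortCurve {R : Type*} [CommRing R] (A B : R) : WeierstrassCurve R := ⟨0, 0, 0, A, B⟩

@[simp] theorem shortCurve_Δ {R : Type*} [CommRing R] (A B : R) :
    (shortCurve A B).Δ = -16 * (4 * A ^ 3 + 27 * B ^ 2) := by
  simp only [shortCurve, WeierstrassCurve.Δ, WeierstrassCurve.b₂, WeierstrassCurve.b₄,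
    WeierstrassCurve.b₆, WeierstrassCurve.b₈]
  ring

theorem shortCurve_map {R S : Type*} [CommRing R] [CommRing S] (f : R →+* S) (A B : R) :
    (shortCurve A B).map f = shortCurve (f A) (f B) := by
  ext <;> simp [shortCurve]

variable {P}
variable (A B : K₀) (a b : ℚ) (hAP : algebraMap K₀ L A ∈ P) (hBP : algebraMap K₀ L B ∈ P)

/-- the model over `P` -/
def modelP : WeierstrassCurve P := shortCurve ⟨algebraMap K₀ L A, hAP⟩ ⟨algebraMap K₀ L B, hBP⟩

theorem hK_model :
    ((shortCurve A B).toAffine⁄L : WeierstrassCurve L) =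
      (modelP A B hAP hBP).map (algebraMap P L) := by
  show (shortCurve A B).map (algebraMap K₀ L) = _
  rw [modelP, shortCurve_map, shortCurve_map]
  rfl

theorem hk_model (hA : residue P ⟨algebraMap K₀ L A, hAP⟩ = algebraMap ℚ (ResidueField P) a)
    (hB : residue P ⟨algebraMap K₀ L B, hBP⟩ = algebraMap ℚ (ResidueField P) b) :
    ((shortCurve a b).toAffine⁄(ResidueField P) : WeierstrassCurve (ResidueField P)) =
      (modelP A B hAP hBP).map (residue P) := by
  show (shortCurve a b).map (algebraMap ℚ (ResidueField P)) = _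
  rw [modelP, shortCurve_map, shortCurve_map, hA, hB]

theorem isUnit_Δ_model (hA : residue P ⟨algebraMap K₀ L A, hAP⟩ = algebraMap ℚ (ResidueField P) a)
    (hB : residue P ⟨algebraMap K₀ L B, hBP⟩ = algebraMap ℚ (ResidueField P) b)
    (hΔ : 4 * a ^ 3 + 27 * b ^ 2 ≠ 0) : IsUnit (modelP A B hAP hBP).Δ := by
  rw [← residue_ne_zero_iff_isUnit, ← WeierstrassCurve.map_Δ, ← hk_model A B a b hAP hBP hA hB]
  show ((shortCurve a b).map (algebraMap ℚ (ResidueField P))).Δ ≠ 0
  rw [WeierstrassCurve.map_Δ, shortCurve_Δ]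
  intro h
  have h0 : (-16 * (4 * a ^ 3 + 27 * b ^ 2) : ℚ) = 0 :=
    (algebraMap ℚ (ResidueField P)).injective (by rw [h, map_zero])
  rcases mul_eq_zero.mp h0 with h1 | h1
  · norm_num at h1
  · exact hΔ h1

/-! ### the two maps into the torsion of the special fibre -/

variable {A B a b hAP hBP}
variable (hA : residue P ⟨algebraMap K₀ L A, hAP⟩ = algebraMap ℚ (ResidueField P) a)
  (hB : residue P ⟨algebraMap K₀ L B, hBP⟩ = algebraMap ℚ (ResidueField P) b)
  (hΔ : 4 * a ^ 3 + 27 * b ^ 2 ≠ 0) {m : ℕ} (hm : P.valuation (m : L) = 1)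

/-- reduction of the `m`-torsion of the generic fibre -/
noncomputable def redGen :
    Submodule.torsionBy ℤ ((shortCurve A B).toAffine⁄L).Point (m : ℤ) →+
      Submodule.torsionBy ℤ ((shortCurve a b).toAffine⁄(ResidueField P)).Point (m : ℤ) :=
  Red.redHom (A := P) (WA := modelP A B hAP hBP) (WK := (shortCurve A B).toAffine⁄L)
    (Wk := (shortCurve a b).toAffine⁄(ResidueField P))
    (hK_model A B hAP hBP) (hk_model A B a b hAP hBP hA hB)
    (isUnit_Δ_model A B a b hAP hBP hA hB hΔ) hm

theorem redGen_injective : Function.Injective (redGen hA hB hΔ hm) :=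
  Red.redHom_injective _ _ _ _

theorem redGen_surjective [IsAlgClosed L] : Function.Surjective (redGen hA hB hΔ hm) :=
  Red.redHom_surjective _ _ _ _ (rootLift_of_isAlgClosed P)

/-! ### the constant side -/

section ConstSide

variable {F F' : Type*} [Field F] [Field F'] [DecidableEq F] [DecidableEq F'] [Algebra ℚ F]
  [Algebra ℚ F'] (W : WeierstrassCurve ℚ) (ι : F →ₐ[ℚ] F') (n : ℤ)

/-- the map on torsion induced by a field embedding -/
noncomputable def mapTors :
    Submodule.torsionBy ℤ (W.toAffine⁄F).Point n →+ Submodule.torsionBy ℤ (W.toAffine⁄F').Point n where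
  toFun v := ⟨Point.map ι v.1, by
    rw [Submodule.mem_torsionBy_iff, ← map_zsmul, (Submodule.mem_torsionBy_iff _ _).mp v.2,
      map_zero]⟩
  map_zero' := Subtype.ext (map_zero _)
  map_add' v w := Subtype.ext (map_add _ v.1 w.1)

@[simp] theorem coe_mapTors (v : Submodule.torsionBy ℤ (W.toAffine⁄F).Point n) :
    ((mapTors W ι n v : Submodule.torsionBy ℤ (W.toAffine⁄F').Point n) : (W.toAffine⁄F').Point) =
      Point.map ι v.1 := rfl

theorem mapTors_injective : Function.Injective (mapTors W ι n) := by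
  intro v w h
  have h' : Point.map ι v.1 = Point.map ι w.1 := congrArg Subtype.val h
  exact Subtype.ext (Point.map_injective ι h')

theorem mapTors_surjective (hι : Function.Surjective ι) : Function.Surjective (mapTors W ι n) := by
  rintro ⟨Q, hQ⟩
  have key : ∃ v : (W.toAffine⁄F).Point, Point.map ι v = Q := by
    rcases Q with _ | ⟨ξ, η, h⟩
    · exact ⟨0, rfl⟩
    · obtain ⟨x, rfl⟩ := hι ξ
      obtain ⟨y, rfl⟩ := hι η
      have h' : (W.toAffine⁄F).Nonsingular x y :=
        (WeierstrassCurve.Affine.baseChange_nonsingular (W := W.toAffine) (f := ι) ι.injective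
          x y).mp h
      exact ⟨Point.some x y h', rfl⟩
  obtain ⟨v, rfl⟩ := key
  refine ⟨⟨v, ?_⟩, rfl⟩
  rw [Submodule.mem_torsionBy_iff] at hQ ⊢
  apply Point.map_injective ι
  rw [map_zsmul, hQ, map_zero]

end ConstSide

/-! ### the reduction equivalence and its equivariance -/

variable (ι : C →ₐ[ℚ] ResidueField P)

/-- **the reduction equivalence** between the `m`-torsion of `y² = x³ + a x + b` over the constants
and the `m`-torsion of `y² = x³ + A x + B` over `L` -/
noncomputable def redEquiv [IsAlgClosed L] (hι : Function.Bijective ι) :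
    Submodule.torsionBy ℤ ((shortCurve a b).toAffine⁄C).Point (m : ℤ) ≃+
      Submodule.torsionBy ℤ ((shortCurve A B).toAffine⁄L).Point (m : ℤ) :=
  (AddEquiv.ofBijective (mapTors (shortCurve a b) ι (m : ℤ))
    ⟨mapTors_injective _ _ _, mapTors_surjective _ _ _ hι.2⟩).trans
  (AddEquiv.ofBijective (redGen hA hB hΔ hm)
    ⟨redGen_injective hA hB hΔ hm, redGen_surjective hA hB hΔ hm⟩).symm

theorem redGen_redEquiv [IsAlgClosed L] (hι : Function.Bijective ι)
    (v : Submodule.torsionBy ℤ ((shortCurve a b).toAffine⁄C).Point (m : ℤ)) :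
    redGen hA hB hΔ hm (redEquiv hA hB hΔ hm ι hι v) = mapTors (shortCurve a b) ι (m : ℤ) v := by
  rw [redEquiv, AddEquiv.trans_apply]
  exact AddEquiv.ofBijective_apply_symm_apply (redGen hA hB hΔ hm) _

include hA hB hΔ hm in
/-- point-level equivariance of the reduction -/
theorem red_smul_eq (hC : ∀ c : C, algebraMap C L c ∈ P)
    (hιC : ∀ c : C, ι c = residue P ⟨algebraMap C L c, hC c⟩)
    {σ : L ≃ₐ[K₀] L} (hσ : σ ∈ P.decompositionSubgroup K₀) (τ : C ≃ₐ[ℚ] C)
    (hστ : ∀ z : C, σ (algebraMap C L z) = algebraMap C L (τ z))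
    {u : ((shortCurve A B).toAffine⁄L).Point} {v : ((shortCurve a b).toAffine⁄C).Point}
    (hu : m • u = 0)
    (h : Red.red P ((shortCurve A B).toAffine⁄L) ((shortCurve a b).toAffine⁄(ResidueField P)) u =
      Point.map ι v) :
    Red.red P ((shortCurve A B).toAffine⁄L) ((shortCurve a b).toAffine⁄(ResidueField P)) (σ • u) =
      Point.map ι (τ • v) := by
  have hK := hK_model A B hAP hBP
  have hk := hk_model A B a b hAP hBP hA hB
  have hΔ' := isUnit_Δ_model A B a b hAP hBP hA hB hΔ
  rcases v with _ | ⟨x₀, y₀, h₀⟩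
  · have h' : Red.red P ((shortCurve A B).toAffine⁄L)
        ((shortCurve a b).toAffine⁄(ResidueField P)) u = 0 := h
    have hu0 : u = 0 := (Red.red_eq_zero_iff hK hk hΔ' hm hu).mp h'
    subst hu0
    have e1 : σ • (0 : ((shortCurve A B).toAffine⁄L).Point) = 0 := smul_zero σ
    rw [e1, Red.red_zero]
    rfl
  · have hu0 : u ≠ 0 := by
      rintro rfl
      rw [Red.red_zero] at h
      exact Point.some_ne_zero _ h.symm
    obtain ⟨x, y, hxy, hq, rfl, hred⟩ := Red.redTo_red hK hk hΔ' hm hu0 hu
    rw [hred, Point.map_some] at h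
    have hc : residue P x = ι x₀ ∧ residue P y = ι y₀ := by simpa using h
    have key : ∀ (w : P) (w₀ : C), residue P w = ι w₀ →
        residue P ⟨σ (w : L), mem_of_mem_decomposition hσ w.2⟩ = ι (τ w₀) := by
      intro w w₀ hw
      rw [hιC, residue_decomp_apply hσ w, hw, hιC, ← residue_decomp_apply hσ]
      congr 1
      exact Subtype.ext (hστ w₀)
    set x' : P := ⟨σ (x : L), mem_of_mem_decomposition hσ x.2⟩ with hx'
    set y' : P := ⟨σ (y : L), mem_of_mem_decomposition hσ y.2⟩ with hy'
    have hrx : residue P x' = ι (τ x₀) := key x x₀ hc.1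
    have hry : residue P y' = ι (τ y₀) := key y y₀ hc.2
    have hτv : τ • (Point.some x₀ y₀ h₀ : ((shortCurve a b).toAffine⁄C).Point) =
        Point.map τ.toAlgHom (Point.some x₀ y₀ h₀) := rfl
    have hσu : σ • (Point.some _ _ hxy : ((shortCurve A B).toAffine⁄L).Point) =
        Point.map σ.toAlgHom (Point.some _ _ hxy) := rfl
    rw [hτv, Point.map_some, Point.map_some, hσu, Point.map_some]
    have hns : ((shortCurve a b).toAffine⁄(ResidueField P)).Nonsingular (ι (τ x₀)) (ι (τ y₀)) :=
      (WeierstrassCurve.Affine.baseChange_nonsingular (W := (shortCurve a b).toAffine) (f := ι)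
        ι.injective _ _).mpr ((WeierstrassCurve.Affine.baseChange_nonsingular
          (W := (shortCurve a b).toAffine) (f := τ.toAlgHom) τ.toAlgHom.injective _ _).mpr h₀)
    obtain ⟨hq', hsome⟩ := RedAdd.some_congr hns hrx.symm hry.symm
    have hxy' : ((shortCurve A B).toAffine⁄L).Nonsingular (x' : L) (y' : L) :=
      (WeierstrassCurve.Affine.baseChange_nonsingular (W := (shortCurve A B).toAffine)
        (f := σ.toAlgHom) σ.toAlgHom.injective (x : L) (y : L)).mpr hxy
    have hredto : RedTo P ((shortCurve A B).toAffine⁄L)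
        ((shortCurve a b).toAffine⁄(ResidueField P)) (Point.some _ _ hxy')
        (Point.some _ _ hq') := ⟨x', y', hxy', hq', rfl, rfl⟩
    rw [← hsome] at hredto
    exact Red.red_eq_of_redTo hredto

/-- **equivariance of the reduction equivalence** under the decomposition group -/
theorem redEquiv_smul [IsAlgClosed L] (hι : Function.Bijective ι)
    (hC : ∀ c : C, algebraMap C L c ∈ P)
    (hιC : ∀ c : C, ι c = residue P ⟨algebraMap C L c, hC c⟩)
    {σ : L ≃ₐ[K₀] L} (hσ : σ ∈ P.decompositionSubgroup K₀) (τ : C ≃ₐ[ℚ] C)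
    (hστ : ∀ z : C, σ (algebraMap C L z) = algebraMap C L (τ z))
    (v : Submodule.torsionBy ℤ ((shortCurve a b).toAffine⁄C).Point (m : ℤ)) :
    σ • redEquiv hA hB hΔ hm ι hι v = redEquiv hA hB hΔ hm ι hι (τ • v) := by
  apply redGen_injective hA hB hΔ hm
  rw [redGen_redEquiv]
  have h1 := congrArg Subtype.val (redGen_redEquiv hA hB hΔ hm ι hι v)
  have hu : m • (redEquiv hA hB hΔ hm ι hι v).1 = 0 := by
    have := (Submodule.mem_torsionBy_iff _ _).mp (redEquiv hA hB hΔ hm ι hι v).2
    rwa [natCast_zsmul] at this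
  exact Subtype.ext (red_smul_eq hA hB hΔ hm ι hC hιC hσ τ hστ hu h1)

/-- **coordinates**: `redEquiv v` reduces to `v` coordinatewise -/
theorem redEquiv_coord [IsAlgClosed L] (hι : Function.Bijective ι)
    (hC : ∀ c : C, algebraMap C L c ∈ P)
    (hιC : ∀ c : C, ι c = residue P ⟨algebraMap C L c, hC c⟩)
    (v : Submodule.torsionBy ℤ ((shortCurve a b).toAffine⁄C).Point (m : ℤ)) (x₀ y₀ : C)
    (h₀ : ((shortCurve a b).toAffine⁄C).Nonsingular x₀ y₀)
    (hv : (v : ((shortCurve a b).toAffine⁄C).Point) = Point.some x₀ y₀ h₀) :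
    ∃ (X Y : L) (h' : ((shortCurve A B).toAffine⁄L).Nonsingular X Y),
      (redEquiv hA hB hΔ hm ι hι v : ((shortCurve A B).toAffine⁄L).Point) = Point.some X Y h' ∧
      P.valuation (X - algebraMap C L x₀) < 1 ∧ P.valuation (Y - algebraMap C L y₀) < 1 := by
  have hK := hK_model A B hAP hBP
  have hk := hk_model A B a b hAP hBP hA hB
  have hΔ' := isUnit_Δ_model A B a b hAP hBP hA hB hΔ
  have h1 : Red.red P ((shortCurve A B).toAffine⁄L) ((shortCurve a b).toAffine⁄(ResidueField P))
      (redEquiv hA hB hΔ hm ι hι v).1 = Point.map ι v.1 :=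
    congrArg Subtype.val (redGen_redEquiv hA hB hΔ hm ι hι v)
  have hu : m • (redEquiv hA hB hΔ hm ι hι v).1 = 0 := by
    have := (Submodule.mem_torsionBy_iff _ _).mp (redEquiv hA hB hΔ hm ι hι v).2
    rwa [natCast_zsmul] at this
  rw [hv, Point.map_some] at h1
  have hu0 : (redEquiv hA hB hΔ hm ι hι v).1 ≠ 0 := by
    intro h0
    rw [h0, Red.red_zero] at h1
    exact Point.some_ne_zero _ h1.symm
  obtain ⟨x, y, hxy, hq, hP, hred⟩ := Red.redTo_red hK hk hΔ' hm hu0 hu
  rw [hred] at h1
  have hc : residue P x = ι x₀ ∧ residue P y = ι y₀ := by simpa using h1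
  have key : ∀ (w : P) (w₀ : C), residue P w = ι w₀ →
      P.valuation ((w : L) - algebraMap C L w₀) < 1 := by
    intro w w₀ hw
    have h2 : residue P (w - ⟨algebraMap C L w₀, hC w₀⟩) = 0 := by
      rw [map_sub, hw, hιC, sub_self]
    rw [IsLocalRing.residue_eq_zero_iff, P.valuation_lt_one_iff] at h2
    exact h2
  exact ⟨x, y, hxy, hP, key x x₀ hc.1, key y y₀ hc.2⟩

end Abstract

end Fermat.Agent.SW.K1.PlaceRedIso
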