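import Fermat.Agent.SW.K1.Leaves
import Fermat.Agent.SW.K1.PlaceDecomp
import Fermat.Agent.SW.K1.PlaceRat
import Fermat.Agent.SW.K1.PlaceRedIso

/-!
# MOONSHOT S52, block K1, leaf B (PLACE + RED): the literal contract `Leaves.LeafB`

* `exists_place` : for every rational `s₁`, a valuation subring `O` of `Fb` over `X = s₁`,
  containing the constants `Qb`, with residue field `Qb`, whose decomposition group maps onto
  `G_ℚ`, at which every `f : ℚ(X)` regular at `s₁` is integral with residue `ev f s₁`;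
* `leafB : Leaves.LeafB`.
-/

set_option autoImplicit false
set_option linter.unusedSectionVars false

open WeierstrassCurve WeierstrassCurve.Affine IsLocalRing Polynomial
open scoped WeierstrassCurve.Affine Pointwise

namespace Fermat.Agent.SW.K1.PlaceExport

open Fermat.Agent.SW.Contracts Fermat.Agent.SW.K1

section

variable (Fb : Type) [Field Fb] [Algebra F0 Fb] [Algebra Qb Fb] [CharZero Fb]

instance isScalarTower_rat_Qb :
    @IsScalarTower ℚ Qb Fb Algebra.toSMul Algebra.toSMul Algebra.toSMul :=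
  IsScalarTower.of_algebraMap_eq' (Subsingleton.elim _ _)

variable {Fb}

/-- the two forms of the decomposition group agree -/
theorem mem_decomp_iff {O : ValuationSubring Fb} {σ : Fb ≃ₐ[F0] Fb} :
    σ ∈ decomp Fb O ↔ σ ∈ O.decompositionSubgroup F0 := by
  rw [mem_decomp]
  constructor
  · intro h
    show σ • O = O
    ext x
    rw [ValuationSubring.mem_pointwise_smul_iff_inv_smul_mem]
    have := h (σ⁻¹ • x)
    rw [← this]
    show σ (σ⁻¹ x) ∈ O ↔ x ∈ O
    rw [show σ (σ⁻¹ x) = x from σ.apply_symm_apply x]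
  · intro h x
    have h' : σ • O = O := h
    constructor
    · intro hx
      rw [← h'] at hx
      rw [ValuationSubring.mem_pointwise_smul_iff_inv_smul_mem] at hx
      have : σ⁻¹ • σ x = x := σ.symm_apply_apply x
      rwa [this] at hx
    · intro hx
      rw [← h']
      exact ValuationSubring.smul_mem_pointwise_smul σ x O hx

variable (Fb) in
/-- **PLACE.** A place of `Fb` over `X = s₁` with residue field the constants and decomposition
group onto `G_ℚ`. -/
theorem exists_place [IsAlgClosure F0 Fb] (s₁ : ℚ) :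
    ∃ O : ValuationSubring Fb,
      O.comap (algebraMap F0 Fb) = PlaceRat.ratPlaceAt s₁ ∧
      (∀ z : Qb, algebraMap Qb Fb z ∈ O) ∧
      O.valuation (algebraMap F0 Fb (RatFunc.X - RatFunc.C s₁)) < 1 ∧
      (∀ x ∈ O, ∃ z : Qb, O.valuation (x - algebraMap Qb Fb z) < 1) ∧
      (∀ τ : Qb ≃ₐ[ℚ] Qb, ∃ σ ∈ decomp Fb O, res Fb σ = τ) ∧
      (∀ f : F0, f.denom.eval s₁ ≠ 0 → algebraMap F0 Fb f ∈ O ∧
        O.valuation (algebraMap F0 Fb f - algebraMap Qb Fb (algebraMap ℚ Qb (ev f s₁))) < 1) := by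
  have hO₀ := PlaceRat.ratPlace_ratPlaceAt s₁
  obtain ⟨O, hO⟩ := Place.exists_over (algebraMap F0 Fb) (PlaceRat.ratPlaceAt s₁)
  have hcl := isAlgClosure_rat
  have : Algebra.IsAlgebraic ℚ Qb := hcl.isAlgebraic
  have hQ : ∀ q : ℚ, algebraMap ℚ Fb q ∈ O := hO₀.rat_mem_over hO
  have hC : ∀ c : Qb, algebraMap Qb Fb c ∈ O := Place.const_mem hQ
  have : Algebra.IsAlgebraic F0 Fb := IsAlgClosure.isAlgebraic
  have : IsGalois F0 Fb := inferInstance
  refine ⟨O, hO, hC, Place.valuation_lt_one_over hO (PlaceRat.valuation_X_sub_C_lt_one s₁),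
    ?_, ?_, ?_⟩
  · intro x hx
    obtain ⟨z, hz⟩ := Place.constRes_surjective hO₀ hO hC (residue O ⟨x, hx⟩)
    refine ⟨z, ?_⟩
    have h1 : residue O (⟨x, hx⟩ - Place.constToP hC z) = 0 := by
      rw [map_sub, sub_eq_zero]
      exact hz.symm
    rw [IsLocalRing.residue_eq_zero_iff, O.valuation_lt_one_iff] at h1
    exact h1
  · intro τ
    obtain ⟨σ, hσ, hστ⟩ := PlaceDecomp.exists_mem_decompositionSubgroup_const hO₀ hO τ
    exact ⟨σ, mem_decomp_iff.mpr hσ, res_unique σ τ fun z => (hστ z).symm⟩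
  · intro f hf
    have hmem : algebraMap F0 Fb f ∈ O :=
      PlaceDecomp.le_of_comap_eq hO f (PlaceRat.mem_ratPlaceAt_of_denom hf)
    refine ⟨hmem, ?_⟩
    have h1 := Place.valuation_lt_one_over hO (PlaceRat.valuation_sub_C_eval_lt_one hf)
    rw [map_sub] at h1
    have h2 : algebraMap F0 Fb (RatFunc.C (RatFunc.eval (RingHom.id ℚ) s₁ f)) =
        algebraMap Qb Fb (algebraMap ℚ Qb (ev f s₁)) := by
      rw [← PlaceRat.algebraMap_rat_eq_C, ← IsScalarTower.algebraMap_apply,
        ← IsScalarTower.algebraMap_apply]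
      rfl
    rw [h2] at h1
    exact h1

/-- positive integers are units at a place containing `ℚ` -/
theorem valuation_natCast_eq_one {O : ValuationSubring Fb} (hQ : ∀ q : ℚ, algebraMap ℚ Fb q ∈ O)
    {n : ℕ} (hn : 0 < n) : O.valuation ((n : ℕ) : Fb) = 1 := by
  have hn0 : ((n : ℕ) : Fb) ≠ 0 := Nat.cast_ne_zero.mpr hn.ne'
  have h1 : O.valuation ((n : ℕ) : Fb) ≤ 1 := by
    rw [O.valuation_le_one_iff]
    have := hQ (n : ℚ)
    rwa [map_natCast] at this
  have h2 : O.valuation ((n : ℕ) : Fb)⁻¹ ≤ 1 := by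
    rw [O.valuation_le_one_iff]
    have := hQ ((n : ℚ)⁻¹)
    rwa [map_inv₀, map_natCast] at this
  rw [map_inv₀] at h2
  have h3 : 0 < O.valuation ((n : ℕ) : Fb) := (O.valuation.pos_iff).mpr hn0
  exact le_antisymm h1 ((inv_le_one₀ h3).mp h2)

/-- **Leaf B (PLACE + RED).** -/
theorem leafB : Leaves.LeafB := by
  intro Fb _ _ _ _ _ _ A B s₁ hA hB hΔ n hn
  obtain ⟨O, hO, hC, hparam, hres, hdec, hreg⟩ := exists_place Fb s₁
  have hQ : ∀ q : ℚ, algebraMap ℚ Fb q ∈ O := fun q => by
    have := hC (algebraMap ℚ Qb q)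
    rwa [← IsScalarTower.algebraMap_apply] at this
  have : IsAlgClosed Fb := IsAlgClosure.isAlgClosed F0
  let _ : Algebra ℚ (ResidueField O) := ((Place.constRes hC).comp (algebraMap ℚ Qb)).toAlgebra
  let _ : DecidableEq (ResidueField O) := Classical.decEq _
  let ι : Qb →ₐ[ℚ] ResidueField O := { Place.constRes hC with commutes' := fun q => rfl }
  have hιC : ∀ c : Qb, ι c = residue O ⟨algebraMap Qb Fb c, hC c⟩ := fun c => rfl
  have hι : Function.Bijective ι := by
    refine ⟨ι.injective, fun y => ?_⟩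
    obtain ⟨x, rfl⟩ := IsLocalRing.residue_surjective y
    obtain ⟨z, hz⟩ := hres x x.2
    refine ⟨z, ?_⟩
    rw [hιC, ← sub_eq_zero, ← map_sub, IsLocalRing.residue_eq_zero_iff, O.valuation_lt_one_iff]
    show O.valuation (algebraMap Qb Fb z - (x : Fb)) < 1
    rw [← Valuation.map_neg, neg_sub]
    exact hz
  have key : ∀ (f : F0) (hf : f.denom.eval s₁ ≠ 0),
      residue O ⟨algebraMap F0 Fb f, (hreg f hf).1⟩ = algebraMap ℚ (ResidueField O) (ev f s₁) := by
    intro f hf
    show _ = residue O ⟨algebraMap Qb Fb (algebraMap ℚ Qb (ev f s₁)), hC _⟩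
    rw [← sub_eq_zero, ← map_sub, IsLocalRing.residue_eq_zero_iff, O.valuation_lt_one_iff]
    exact (hreg f hf).2
  have hm : O.valuation ((n : ℕ) : Fb) = 1 := valuation_natCast_eq_one hQ hn
  let φ := PlaceRedIso.redEquiv (P := O) (A := A) (B := B) (hAP := (hreg A hA).1)
    (hBP := (hreg B hB).1) (key A hA) (key B hB) hΔ hm ι hι
  refine ⟨⟨O, hC, hparam, hres, hdec, φ, ?_, ?_⟩⟩
  · intro σ hσ v
    exact PlaceRedIso.redEquiv_smul (key A hA) (key B hB) hΔ hm ι hι hC hιC
      (mem_decomp_iff.mp hσ) (res Fb σ) (fun z => (algebraMap_res σ z).symm) v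
  · intro v x y h hv
    exact PlaceRedIso.redEquiv_coord (key A hA) (key B hB) hΔ hm ι hι hC hιC v x y h hv

end

end Fermat.Agent.SW.K1.PlaceExport
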