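import Fermat.Agent.SW.K1.Leaves

/-!
# MOONSHOT S52, block K1: evaluation of rational functions at regular points

`Reg R s : Prop := R.denom.eval s ≠ 0`; products, sums, powers of regular functions are regular
and `ev` is multiplicative / additive on them.
-/

set_option autoImplicit false

open Polynomial

namespace Fermat.Agent.SW.K1.EvBasic

open Fermat.Agent.SW.Contracts Fermat.Agent.SW.K1

/-- `R` is regular at `s`. -/
def Reg (R : F0) (s : ℚ) : Prop := R.denom.eval s ≠ 0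

theorem reg_iff (R : F0) (s : ℚ) :
    Reg R s ↔ Polynomial.eval₂ (RingHom.id ℚ) s R.denom ≠ 0 := by
  rw [Reg, Polynomial.eval₂_id]

theorem reg_C (c : ℚ) (s : ℚ) : Reg (RatFunc.C c) s := by
  rw [Reg, RatFunc.denom_C, Polynomial.eval_one]; exact one_ne_zero

theorem reg_X (s : ℚ) : Reg (RatFunc.X : F0) s := by
  rw [Reg, RatFunc.denom_X, Polynomial.eval_one]; exact one_ne_zero

theorem reg_of_dvd {R : F0} {s : ℚ} {q : ℚ[X]} (hq : q.eval s ≠ 0) (h : R.denom ∣ q) :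
    Reg R s := by
  intro h0
  obtain ⟨c, rfl⟩ := h
  rw [Polynomial.eval_mul, h0, zero_mul] at hq
  exact hq rfl

theorem Reg.mul {R S : F0} {s : ℚ} (hR : Reg R s) (hS : Reg S s) : Reg (R * S) s :=
  reg_of_dvd (q := R.denom * S.denom) (by rw [Polynomial.eval_mul]; exact mul_ne_zero hR hS)
    (RatFunc.denom_mul_dvd R S)

theorem Reg.add {R S : F0} {s : ℚ} (hR : Reg R s) (hS : Reg S s) : Reg (R + S) s :=
  reg_of_dvd (q := R.denom * S.denom) (by rw [Polynomial.eval_mul]; exact mul_ne_zero hR hS)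
    (RatFunc.denom_add_dvd R S)

theorem Reg.pow {R : F0} {s : ℚ} (hR : Reg R s) (n : ℕ) : Reg (R ^ n) s := by
  induction n with
  | zero =>
    rw [pow_zero, Reg, RatFunc.denom_one, Polynomial.eval_one]; exact one_ne_zero
  | succ n ih => rw [pow_succ]; exact ih.mul hR

theorem ev_mul {R S : F0} {s : ℚ} (hR : Reg R s) (hS : Reg S s) :
    ev (R * S) s = ev R s * ev S s :=
  RatFunc.eval_mul _ _ ((reg_iff R s).mp hR) ((reg_iff S s).mp hS)

theorem ev_add {R S : F0} {s : ℚ} (hR : Reg R s) (hS : Reg S s) :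
    ev (R + S) s = ev R s + ev S s :=
  RatFunc.eval_add _ _ ((reg_iff R s).mp hR) ((reg_iff S s).mp hS)

theorem ev_pow {R : F0} {s : ℚ} (hR : Reg R s) (n : ℕ) : ev (R ^ n) s = ev R s ^ n := by
  induction n with
  | zero => rw [pow_zero, pow_zero]; exact RatFunc.eval_one _ _
  | succ n ih => rw [pow_succ, pow_succ, ev_mul (hR.pow n) hR, ih]

theorem ev_C (c s : ℚ) : ev (RatFunc.C c) s = c := RatFunc.eval_C _ _

theorem ev_X (s : ℚ) : ev (RatFunc.X : F0) s = s := RatFunc.eval_X _ _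

theorem reg_lamC (a s : ℚ) : Reg (Leaves.lamC a) s := (reg_C a s).mul (reg_X s)

theorem ev_lamC (a s : ℚ) : ev (Leaves.lamC a) s = a * s := by
  rw [Leaves.lamC, ev_mul (reg_C a s) (reg_X s), ev_C, ev_X]

/-- The discriminant-type expression is compatible with evaluation at a regular point. -/
theorem ev_disc {A B : F0} {s : ℚ} (hA : Reg A s) (hB : Reg B s) :
    Reg (RatFunc.C 4 * A ^ 3 + RatFunc.C 27 * B ^ 2) s ∧
    ev (RatFunc.C 4 * A ^ 3 + RatFunc.C 27 * B ^ 2) s = 4 * ev A s ^ 3 + 27 * ev B s ^ 2 := by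
  have h1 : Reg (RatFunc.C 4 * A ^ 3) s := (reg_C 4 s).mul (hA.pow 3)
  have h2 : Reg (RatFunc.C 27 * B ^ 2) s := (reg_C 27 s).mul (hB.pow 2)
  refine ⟨h1.add h2, ?_⟩
  rw [ev_add h1 h2, ev_mul (reg_C 4 s) (hA.pow 3), ev_mul (reg_C 27 s) (hB.pow 2), ev_pow hA,
    ev_pow hB, ev_C, ev_C]

/-- **FINBAD.** Outside a finite set of parameters, `A`, `B` are regular and the fibre is
nonsingular, as soon as the generic discriminant is nonzero. -/
theorem exists_bad (A B : F0) (h : RatFunc.C 4 * A ^ 3 + RatFunc.C 27 * B ^ 2 ≠ 0) :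
    ∃ bad : Finset ℚ, ∀ s₁ : ℚ, s₁ ∉ bad →
      A.denom.eval s₁ ≠ 0 ∧ B.denom.eval s₁ ≠ 0 ∧ 4 * ev A s₁ ^ 3 + 27 * ev B s₁ ^ 2 ≠ 0 := by
  classical
  set Dsc : F0 := RatFunc.C 4 * A ^ 3 + RatFunc.C 27 * B ^ 2 with hDsc
  refine ⟨A.denom.roots.toFinset ∪ B.denom.roots.toFinset ∪ Dsc.num.roots.toFinset, ?_⟩
  intro s₁ hs₁
  simp only [Finset.mem_union, Multiset.mem_toFinset, not_or] at hs₁
  obtain ⟨⟨hA, hB⟩, hD⟩ := hs₁
  have hA' : A.denom.eval s₁ ≠ 0 := fun h0 =>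
    hA ((Polynomial.mem_roots (RatFunc.denom_ne_zero A)).mpr h0)
  have hB' : B.denom.eval s₁ ≠ 0 := fun h0 =>
    hB ((Polynomial.mem_roots (RatFunc.denom_ne_zero B)).mpr h0)
  refine ⟨hA', hB', ?_⟩
  obtain ⟨hreg, hev⟩ := ev_disc (A := A) (B := B) (s := s₁) hA' hB'
  rw [← hev]
  have hnum : Dsc.num.eval s₁ ≠ 0 := fun h0 =>
    hD ((Polynomial.mem_roots (RatFunc.num_ne_zero h)).mpr h0)
  show RatFunc.eval (RingHom.id ℚ) s₁ Dsc ≠ 0
  rw [RatFunc.eval, Polynomial.eval₂_id, Polynomial.eval₂_id]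
  exact div_ne_zero hnum hreg

end Fermat.Agent.SW.K1.EvBasic
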