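import Fermat.Agent.SW.Contracts

/-!
# MOONSHOT S52, block K1 (FAMILY): common setting

* `Qb = AlgebraicClosure ℚ` (the frozen statements' closure), `F0 = RatFunc ℚ`;
* every leaf is stated for an ABSTRACT field `Fb : Type` with
  `[Field Fb] [Algebra F0 Fb] [Algebra Qb Fb] [CharZero Fb]` and, where needed,
  `[IsAlgClosure F0 Fb]` ("an algebraic closure of `ℚ(X)` containing `Qb`");
* `res : (Fb ≃ₐ[F0] Fb) →* (Qb ≃ₐ[ℚ] Qb)`, restriction to the constants, with `algebraMap_res`
  and `res_unique`;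
* the generic short Weierstrass curve `genW A B` over `F0`, the torsion modules `U`, `V`.

Leaves `B`, `H` are stated for an ARBITRARY such `Fb`, so that they apply both to the parameter
`λ` and to the parameter `s` of `F' = ℚ(s)` (a second `F0`-algebra structure on the same field,
through the type synonym `SStr`).
-/

set_option autoImplicit false

open WeierstrassCurve WeierstrassCurve.Affine Polynomial

namespace Fermat.Agent.SW.K1

open Fermat.Agent.SW.Contracts

/-- The rational function field `ℚ(X)`. -/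
abbrev F0 := RatFunc ℚ

theorem isAlgClosure_rat : IsAlgClosure ℚ Qb :=
  AlgebraicClosure.instIsAlgClosure ℚ

theorem normal_rat : Normal ℚ Qb :=
  have := isAlgClosure_rat
  inferInstance

theorem isGalois_rat : IsGalois ℚ Qb :=
  have := isAlgClosure_rat
  inferInstance

section res

variable (Fb : Type) [Field Fb] [Algebra F0 Fb] [Algebra Qb Fb] [CharZero Fb]

instance isScalarTower_rat_F0 :
    @IsScalarTower ℚ F0 Fb Algebra.toSMul Algebra.toSMul Algebra.toSMul :=
  IsScalarTower.of_algebraMap_eq' (Subsingleton.elim _ _)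

/-- Restriction of an automorphism of `Fb / ℚ(X)` to the constants `Qb`. -/
noncomputable def res : (Fb ≃ₐ[F0] Fb) →* (Qb ≃ₐ[ℚ] Qb) :=
  have := normal_rat
  (AlgEquiv.restrictNormalHom (F := ℚ) (K₁ := Fb) Qb).comp (AlgEquiv.restrictScalarsHom ℚ)

variable {Fb}

theorem algebraMap_res (σ : Fb ≃ₐ[F0] Fb) (z : Qb) :
    algebraMap Qb Fb (res Fb σ z) = σ (algebraMap Qb Fb z) := by
  have := normal_rat
  exact AlgEquiv.restrictNormal_commutes (σ.restrictScalars ℚ) Qb z

theorem res_unique (σ : Fb ≃ₐ[F0] Fb) (τ : Qb ≃ₐ[ℚ] Qb)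
    (h : ∀ z : Qb, algebraMap Qb Fb (τ z) = σ (algebraMap Qb Fb z)) : res Fb σ = τ := by
  ext z
  apply (algebraMap Qb Fb).injective
  rw [algebraMap_res, h]

end res

/-- The short Weierstrass curve `y² = x³ + A x + B` over `ℚ(X)`. -/
noncomputable def genW (A B : F0) : WeierstrassCurve F0 := ⟨0, 0, 0, A, B⟩

/-- The `x`-coordinate of a point (`0` for the point at infinity). -/
def xOf {K : Type*} [CommRing K] {W : Affine K} : W.Point → K
  | .zero => 0
  | @Point.some _ _ _ x _ _ => x

/-- The `y`-coordinate of a point (`0` for the point at infinity). -/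
def yOf {K : Type*} [CommRing K] {W : Affine K} : W.Point → K
  | .zero => 0
  | @Point.some _ _ _ _ y _ => y

section modules

variable (Fb : Type) [Field Fb] [Algebra F0 Fb] [DecidableEq Fb]

/-- The `n`-torsion of the generic curve `y² = x³ + A x + B` over `Fb`, with the Prelude action
of `Fb ≃ₐ[F0] Fb`. -/
noncomputable abbrev U (A B : F0) (n : ℕ) := Submodule.torsionBy ℤ ((genW A B).toAffine⁄Fb).Point n

/-- The `n`-torsion of `y² = x³ + a x + b` over `Qb`, with the Prelude action of
`Qb ≃ₐ[ℚ] Qb`. -/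
noncomputable abbrev V (a b : ℚ) (n : ℕ) := Submodule.torsionBy ℤ ((shortW a b).toAffine⁄Qb).Point n

variable [Algebra Qb Fb]

/-- The field `Ω = Qb(X, x(U))` generated over `ℚ(X)` by the constants `Qb` and the
`x`-coordinates of the `n`-torsion points. -/
noncomputable def OmegaF (A B : F0) (n : ℕ) : IntermediateField F0 Fb :=
  IntermediateField.adjoin F0
    (Set.range (algebraMap Qb Fb) ∪ {x | ∃ P : U Fb A B n, x = xOf (P : ((genW A B).toAffine⁄Fb).Point)})

/-- The decomposition group of a valuation subring of `Fb` (in elementwise form). -/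
def decomp (O : ValuationSubring Fb) : Subgroup (Fb ≃ₐ[F0] Fb) where
  carrier := {σ | ∀ x : Fb, σ x ∈ O ↔ x ∈ O}
  one_mem' := fun _ => Iff.rfl
  mul_mem' := fun {σ τ} hσ hτ x => (hσ (τ x)).trans (hτ x)
  inv_mem' := fun {σ} hσ x => by
    have h := hσ (σ⁻¹ x)
    rw [show σ (σ⁻¹ x) = x from σ.apply_symm_apply x] at h
    exact h.symm

omit [DecidableEq Fb] [Algebra Qb Fb] in
theorem mem_decomp {O : ValuationSubring Fb} {σ : Fb ≃ₐ[F0] Fb} :
    σ ∈ decomp Fb O ↔ ∀ x : Fb, σ x ∈ O ↔ x ∈ O := Iff.rfl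

variable [CharZero Fb]

/-- **Output of leaf B (PLACE + RED)** at the rational parameter value `s₁`: a valuation subring
`O` of `Fb` over `X = s₁`, containing the constants, with residue field `Qb`, whose
decomposition group maps onto `G_ℚ`, and a reduction isomorphism on `n`-torsion which is
equivariant for the decomposition group. -/
structure PlaceRed (A B : F0) (s₁ : ℚ) (n : ℕ) where
  /-- the place -/
  O : ValuationSubring Fb
  const_mem : ∀ z : Qb, algebraMap Qb Fb z ∈ O
  param : O.valuation (algebraMap F0 Fb (RatFunc.X - RatFunc.C s₁)) < 1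
  resField : ∀ x ∈ O, ∃ z : Qb, O.valuation (x - algebraMap Qb Fb z) < 1
  dec_surj : ∀ τ : Qb ≃ₐ[ℚ] Qb, ∃ σ ∈ decomp Fb O, res Fb σ = τ
  /-- the (inverse of the) reduction map on `n`-torsion -/
  φ : V (ev A s₁) (ev B s₁) n ≃+ U Fb A B n
  equiv : ∀ σ ∈ decomp Fb O, ∀ v : V (ev A s₁) (ev B s₁) n, σ • φ v = φ (res Fb σ • v)
  /-- `φ v` reduces to `v` coordinatewise -/
  coord : ∀ (v : V (ev A s₁) (ev B s₁) n) (x y : Qb)
    (h : ((shortW (ev A s₁) (ev B s₁)).toAffine⁄Qb).Nonsingular x y),
    (v : ((shortW (ev A s₁) (ev B s₁)).toAffine⁄Qb).Point) = Point.some x y h →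
    ∃ (X Y : Fb) (h' : ((genW A B).toAffine⁄Fb).Nonsingular X Y),
      (φ v : ((genW A B).toAffine⁄Fb).Point) = Point.some X Y h' ∧
      O.valuation (X - algebraMap Qb Fb x) < 1 ∧ O.valuation (Y - algebraMap Qb Fb y) < 1

end modules

/-! ### The second structure: `Fb` as an algebra over `ℚ(X)` through `X ↦ s` -/

/-- `Fb` as a type synonym carrying the `F0`-algebra structure given by a ring homomorphism
`f : F0 →+* Fb` (in the application `f X = s`, the descended parameter). -/
def SStr (Fb : Type) [Field Fb] (_f : F0 →+* Fb) : Type := Fb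

namespace SStr

variable {Fb : Type} [Field Fb] (f : F0 →+* Fb)

noncomputable instance : Field (SStr Fb f) := inferInstanceAs (Field Fb)

noncomputable instance [DecidableEq Fb] : DecidableEq (SStr Fb f) := inferInstanceAs (DecidableEq Fb)

instance [CharZero Fb] : CharZero (SStr Fb f) := inferInstanceAs (CharZero Fb)

noncomputable instance [Algebra Qb Fb] : Algebra Qb (SStr Fb f) := inferInstanceAs (Algebra Qb Fb)

noncomputable instance : Algebra F0 (SStr Fb f) := f.toAlgebra

/-- The identity map `Fb → SStr Fb f` as a ring isomorphism. -/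
def toS : Fb ≃+* SStr Fb f := RingEquiv.refl Fb

theorem algebraMap_apply (x : F0) : algebraMap F0 (SStr Fb f) x = toS f (f x) := rfl

theorem algebraMap_Qb_apply [Algebra Qb Fb] (z : Qb) :
    algebraMap Qb (SStr Fb f) z = toS f (algebraMap Qb Fb z) := rfl

end SStr

/-- The ring homomorphism `ℚ(X) → Fb`, `X ↦ s`, for `s` transcendental over `ℚ`. -/
noncomputable def sHom {Fb : Type} [Field Fb] [CharZero Fb] (s : Fb) (hs : Transcendental ℚ s) :
    F0 →+* Fb :=
  RatFunc.liftRingHom ((Polynomial.aeval s : ℚ[X] →ₐ[ℚ] Fb) : ℚ[X] →+* Fb)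
    (nonZeroDivisors_le_comap_nonZeroDivisors_of_injective _
      (transcendental_iff_injective.mp hs))

theorem sHom_apply {Fb : Type} [Field Fb] [CharZero Fb] (s : Fb) (hs : Transcendental ℚ s)
    (L : F0) : sHom s hs L = Polynomial.aeval s L.num / Polynomial.aeval s L.denom :=
  RatFunc.liftRingHom_apply _ _ L

theorem sHom_algebraMap {Fb : Type} [Field Fb] [CharZero Fb] (s : Fb) (hs : Transcendental ℚ s)
    (p : ℚ[X]) : sHom s hs (algebraMap ℚ[X] F0 p) = Polynomial.aeval s p := by
  have h := RatFunc.liftRingHom_apply_div ((Polynomial.aeval s : ℚ[X] →ₐ[ℚ] Fb) : ℚ[X] →+* Fb)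
    (nonZeroDivisors_le_comap_nonZeroDivisors_of_injective _
      (transcendental_iff_injective.mp hs)) p 1
  have h1 : ((Polynomial.aeval s : ℚ[X] →ₐ[ℚ] Fb) : ℚ[X] →+* Fb) 1 = 1 := map_one _
  rw [map_one, div_one, h1, div_one] at h
  exact h

theorem sHom_X {Fb : Type} [Field Fb] [CharZero Fb] (s : Fb) (hs : Transcendental ℚ s) :
    sHom s hs RatFunc.X = s := by
  rw [← RatFunc.algebraMap_X, sHom_algebraMap, Polynomial.aeval_X]

theorem sHom_C {Fb : Type} [Field Fb] [CharZero Fb] (s : Fb) (hs : Transcendental ℚ s) (q : ℚ) :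
    sHom s hs (RatFunc.C q) = (q : Fb) := by
  rw [← RatFunc.algebraMap_C, sHom_algebraMap, Polynomial.aeval_C, eq_ratCast]

end Fermat.Agent.SW.K1
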